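import Fermat.Agent.S27.REDu.H42_RiemannStmt

/-!
# G-RED, FF-R/FF-B (helper42): the lower bound `[F : K(x)] ≤ deg (x)_∞` from `L`-spaces

No principal divisors are used: the inputs are `deg v = 1`, "non-constant functions have a pole",
and finiteness of the set of poles.  Consequently the zeros theorem (`H59.ZerosStmt`) follows
from its `≤` half (`ZerosLe`, which is what weak approximation gives).
-/

set_option autoImplicit false

universe uC uCf uK uR uF uL uE uk ukap uFp uFt uFtp uiot uEp uKp ux3b1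

noncomputable section

open AlgebraicCurve IntermediateField WithZero Polynomial

namespace Fermat.Agent.S27.REDu.H42

open Fermat.Agent.S24

variable {K F : Type*} [Field K] [Field F] [Algebra K F]

local notation "L" => riemannRochSpace

/-- The hypotheses on places that do not involve principal divisors. -/
structure Hyp0 (K F : Type*) [Field K] [Field F] [Algebra K F] : Prop where
  deg_one : ∀ v : Place K F, v.deg = 1
  exists_pole : ∀ f : F, f ∉ Set.range (algebraMap K F) → ∃ v : Place K F, v.ord f < 0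

theorem Hyp.toHyp0 (H : Hyp K F) : Hyp0 K F := ⟨H.deg_one, H.exists_pole⟩

section

variable (H : Hyp0 K F)
include H

theorem L_zero_eq0 : L (0 : Divisor K F) = Submodule.span K {(1 : F)} := by
  apply le_antisymm
  · intro f hf
    by_cases hfr : f ∈ Set.range (algebraMap K F)
    · obtain ⟨c, rfl⟩ := hfr
      rw [Submodule.mem_span_singleton]
      exact ⟨c, by rw [Algebra.smul_def, mul_one]⟩
    · exfalso
      obtain ⟨v, hv⟩ := H.exists_pole f hfr
      have h1 := (mem_riemannRochSpace_iff.mp hf) v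
      rcases h1 with rfl | h1
      · simp at hv
      · simp only [Finsupp.coe_zero, Pi.zero_apply, neg_zero] at h1
        omega
  · rw [Submodule.span_singleton_le_iff_mem]
    intro v
    simp

theorem finite_L_zero0 : Module.Finite K (L (0 : Divisor K F)) := by
  rw [L_zero_eq0 H]
  infer_instance

theorem finrank_L_zero0 : Module.finrank K (L (0 : Divisor K F)) = 1 := by
  rw [L_zero_eq0 H]
  exact finrank_span_singleton one_ne_zero

theorem finite_L0 (D : Divisor K F) : Module.Finite K (L D) := by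
  have h1 : Module.Finite K (L (D ⊔ 0)) := finite_of_le H.deg_one le_sup_right (finite_L_zero0 H)
  exact Submodule.finiteDimensional_of_le (L_mono (le_sup_left : D ≤ D ⊔ 0))

/-- `l(D) ≤ deg D + 1` for `D ≥ 0` (no principal divisors needed). -/
theorem finrank_L_le0 {D : Divisor K F} (hD : 0 ≤ D) :
    (Module.finrank K (L D) : ℤ) ≤ Divisor.degree D + 1 := by
  have h := finrank_le_add H.deg_one hD (finite_L_zero0 H)
  rw [finrank_L_zero0 H, map_zero] at h
  simp only [Nat.cast_one, sub_zero] at h
  omega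

/-- **Lower bound for the degree of the pole divisor**: if `x ∈ L(B)`, `B ≥ 0`, then
`[F : K(x)] ≤ deg B`. -/
theorem finrank_le_degree_of_mem_L {x : F} (hxt : Transcendental K x) [Module.Finite K⟮x⟯ F]
    {B : Divisor K F} (hB : 0 ≤ B) (hx : x ∈ L B)
    (hpoles : ∀ f : F, ∃ C : Divisor K F, 0 ≤ C ∧ f ∈ L C) :
    (Module.finrank K⟮x⟯ F : ℤ) ≤ Divisor.degree B := by
  set n := Module.finrank K⟮x⟯ F with hn
  let b := Module.finBasis K⟮x⟯ F
  -- a common pole bound for the basis
  obtain ⟨C, hC, hb⟩ : ∃ C : Divisor K F, 0 ≤ C ∧ ∀ j, b j ∈ L C := by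
    choose C hC0 hC using fun j => hpoles (b j)
    refine ⟨∑ j, C j, Finset.sum_nonneg fun j _ => hC0 j, fun j => ?_⟩
    exact L_mono (Finset.single_le_sum (fun i _ => hC0 i) (Finset.mem_univ j)) (hC j)
  by_contra hlt
  push Not at hlt
  have hdC : 0 ≤ Divisor.degree C := degree_nonneg hC
  set l : ℕ := (Divisor.degree C + 1).toNat with hl
  have hl' : (l : ℤ) = Divisor.degree C + 1 := Int.toNat_of_nonneg (by omega)
  have h1 := le_finrank_L hB hx hxt b.linearIndependent hb l (finite_L0 H _)
  have h2 : (0 : Divisor K F) ≤ l • B + C := add_nonneg (nsmul_nonneg hB l) hC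
  have h3 := finrank_L_le0 H h2
  rw [map_add, map_nsmul, nsmul_eq_mul] at h3
  have h1' : ((n * (l + 1) : ℕ) : ℤ) ≤ Module.finrank K (L (l • B + C)) := by exact_mod_cast h1
  push_cast at h1'
  have h4 : (l : ℤ) * (Divisor.degree B + 1) ≤ l * n :=
    mul_le_mul_of_nonneg_left (by omega) (by positivity)
  have hn1 : (1 : ℤ) ≤ n := by
    have : 0 < Module.finrank K⟮x⟯ F := Module.finrank_pos
    rw [hn]
    exact_mod_cast this
  nlinarith

end

/-! ## The zeros theorem from its `≤` half -/

/-- The `≤` half of the zeros theorem (this is what weak approximation gives). -/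
def ZerosLe (K F : Type*) [Field K] [Field F] [Algebra K F] : Prop :=
  ∀ (x : F), Transcendental K x → ∀ [FiniteDimensional K⟮x⟯ F],
    {v : Place K F | 0 < v.ord x}.Finite ∧
      ∑ᶠ v ∈ {v : Place K F | 0 < v.ord x}, v.ord x ≤ (Module.finrank K⟮x⟯ F : ℤ)

/-- The zero divisor of `x`, given that `x` has finitely many zeros. -/
def zeroDivisor (x : F) (h : {v : Place K F | 0 < v.ord x}.Finite) : Divisor K F :=
  Finsupp.ofSupportFinite (fun v => max (v.ord x) 0) (h.subset fun v hv => by
    simp only [Function.mem_support, ne_eq] at hv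
    simp only [Set.mem_ofPred_eq]
    omega)

theorem zeroDivisor_apply (x : F) (h : {v : Place K F | 0 < v.ord x}.Finite) (v : Place K F) :
    zeroDivisor x h v = max (v.ord x) 0 := rfl

theorem zeroDivisor_nonneg (x : F) (h : {v : Place K F | 0 < v.ord x}.Finite) :
    0 ≤ zeroDivisor x h := by
  rw [Finsupp.le_def]
  intro v
  exact le_max_right _ _

theorem inv_mem_L_zeroDivisor (x : F) (h : {v : Place K F | 0 < v.ord x}.Finite) :
    x⁻¹ ∈ L (zeroDivisor x h) := by
  rw [mem_riemannRochSpace_iff]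
  intro v
  right
  rw [zeroDivisor_apply, Place.ord_inv]
  omega

theorem degree_zeroDivisor (hdeg : ∀ v : Place K F, v.deg = 1) (x : F)
    (h : {v : Place K F | 0 < v.ord x}.Finite) :
    Divisor.degree (zeroDivisor x h) = ∑ᶠ v ∈ {v : Place K F | 0 < v.ord x}, v.ord x := by
  classical
  rw [H59.degree_eq_sum_of_deg_eq_one hdeg, finsum_mem_eq_finite_toFinset_sum _ h]
  have hs : (zeroDivisor x h).support = h.toFinset := by
    ext v
    simp only [Finsupp.mem_support_iff, Set.Finite.mem_toFinset, Set.mem_ofPred_eq,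
      zeroDivisor_apply]
    omega
  rw [hs]
  refine Finset.sum_congr rfl fun v hv => ?_
  rw [zeroDivisor_apply]
  simp only [Set.Finite.mem_toFinset, Set.mem_ofPred_eq] at hv
  omega

/-- The zeros theorem follows from its `≤` half, `deg v = 1` and the existence of poles. -/
theorem zerosStmt_of_le [IsAlgClosed K] {x₀ : F} (hx₀ : Transcendental K x₀)
    [FiniteDimensional K⟮x₀⟯ F]
    (hpole : ∀ f : F, f ∉ Set.range (algebraMap K F) → ∃ v : Place K F, v.ord f < 0)
    (hle : ZerosLe K F) : H59.ZerosStmt K F := by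
  have H : Hyp0 K F := ⟨fun v => ff_deg_eq_one x₀ hx₀ v, hpole⟩
  have hpoles : ∀ f : F, ∃ C : Divisor K F, 0 ≤ C ∧ f ∈ L C := by
    intro f
    by_cases hfr : f ∈ Set.range (algebraMap K F)
    · obtain ⟨c, rfl⟩ := hfr
      exact ⟨0, le_rfl, algebraMap_mem_L le_rfl c⟩
    · have htr : Transcendental K f := transcendental_of_not_mem_range hfr
      have htr' : Transcendental K f⁻¹ := fun h => htr (IsAlgebraic.inv_iff.mp h)
      have := ff_finite_of_transcendental x₀ hx₀ f⁻¹ htr'
      obtain ⟨hfin, -⟩ := hle f⁻¹ htr'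
      refine ⟨zeroDivisor f⁻¹ hfin, zeroDivisor_nonneg _ _, ?_⟩
      have := inv_mem_L_zeroDivisor f⁻¹ hfin
      rwa [inv_inv] at this
  intro x hx _
  obtain ⟨hfin, hsum⟩ := hle x hx
  refine ⟨hfin, le_antisymm hsum ?_⟩
  have htr' : Transcendental K x⁻¹ := fun h => hx (IsAlgebraic.inv_iff.mp h)
  have := ff_finite_of_transcendental x₀ hx₀ x⁻¹ htr'
  have h1 := finrank_le_degree_of_mem_L H htr' (zeroDivisor_nonneg x hfin)
    (inv_mem_L_zeroDivisor x hfin) hpoles
  rw [H59.finrank_adjoin_inv, degree_zeroDivisor H.deg_one] at h1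
  exact h1

/-- Existence of poles from existence of zeros (the shape of FF-B piece P1). -/
theorem exists_pole_of_exists_zero [IsAlgClosed K]
    (hzero : ∀ x : F, Transcendental K x → ∃ v : Place K F, 0 < v.ord x) :
    ∀ f : F, f ∉ Set.range (algebraMap K F) → ∃ v : Place K F, v.ord f < 0 := by
  intro f hf
  have htr : Transcendental K f := transcendental_of_not_mem_range hf
  have htr' : Transcendental K f⁻¹ := fun h => htr (IsAlgebraic.inv_iff.mp h)
  obtain ⟨v, hv⟩ := hzero f⁻¹ htr'
  refine ⟨v, ?_⟩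
  rw [Place.ord_inv] at hv
  omega

/-- The zeros theorem from existence of zeros (P1) and the `≤` half (P4). -/
theorem zerosStmt_of_exists_zero_of_le [IsAlgClosed K] {x₀ : F} (hx₀ : Transcendental K x₀)
    [FiniteDimensional K⟮x₀⟯ F]
    (hzero : ∀ x : F, Transcendental K x → ∃ v : Place K F, 0 < v.ord x)
    (hle : ZerosLe K F) : H59.ZerosStmt K F :=
  zerosStmt_of_le hx₀ (exists_pole_of_exists_zero hzero) hle

/-- `Hyp0` from existence of zeros. -/
theorem hyp0_of_exists_zero [IsAlgClosed K] {x₀ : F} (hx₀ : Transcendental K x₀)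
    [FiniteDimensional K⟮x₀⟯ F]
    (hzero : ∀ x : F, Transcendental K x → ∃ v : Place K F, 0 < v.ord x) : Hyp0 K F :=
  ⟨fun v => ff_deg_eq_one x₀ hx₀ v, exists_pole_of_exists_zero hzero⟩

/-- Existence of zeros for all function fields over algebraically closed fields (FF-B, P1). -/
def ExistsZeroAll : Prop :=
  ∀ (K : Type uK) (F : Type uF) [Field K] [Field F] [Algebra K F] [IsAlgClosed K], IsFF K F →
    ∀ x : F, Transcendental K x → ∃ v : Place K F, 0 < v.ord x

/-- The `≤` half of the zeros theorem for all function fields (FF-B, P4). -/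
def ZerosLeAll : Prop :=
  ∀ (K : Type uK) (F : Type uF) [Field K] [Field F] [Algebra K F] [IsAlgClosed K], IsFF K F → ZerosLe K F

theorem zerosAll_of (h1 : ExistsZeroAll.{uK, uF}) (h4 : ZerosLeAll.{uK, uF}) : ZerosAll.{uK, uF} := by
  intro K F _ _ _ _ hFF
  obtain ⟨x, hx, hfin⟩ := hFF
  exact zerosStmt_of_exists_zero_of_le hx (h1 K F ⟨x, hx, hfin⟩) (h4 K F ⟨x, hx, hfin⟩)

/-- `Stmt_FFB_principal.{uK, uF}` from the zeros theorem. -/
theorem stmt_FFB_principal_of (hz : ZerosAll.{uK, uF}) : Stmt_FFB_principal.{uK, uF} := by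
  intro K F _ _ _ _ hFF
  obtain ⟨x, hx, hfin⟩ := hFF
  exact ⟨(hyp_of_zeros (hz K F ⟨x, hx, hfin⟩) hx).principal⟩

end Fermat.Agent.S27.REDu.H42
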