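import Mathlib
import Fermat.Agent.S27.REDu.H51_Core
import Fermat.Agent.S27.REDu.H42_PoleDegree

/-!
# FF-B, piece P4 (helper51): the `≤` half of the zeros theorem

For `x : F` and finitely many pairwise distinct zeros `v` of `x`, `∑ v(x) ≤ [F : K(x)]`
(Stichtenoth, Prop. 1.3.3).  Hence `x` has finitely many zeros.  This is
`Fermat.Agent.S27.REDu.H42.ZerosLeAll.{uK, uF}`.  No hypothesis on the characteristic.
-/

set_option autoImplicit false
set_option linter.style.haveILetI false

universe uC uCf uK uR uF uL uE uk ukap uFp uFt uFtp uiot uEp uKp ux3b1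

noncomputable section

open AlgebraicCurve IntermediateField Polynomial

namespace Fermat.Agent.S27.REDu.H51

variable {K F : Type*} [Field K] [Field F] [Algebra K F]

/-- Polynomials in an integral element are integral. -/
theorem ordGe_aeval (v : Place K F) {x : F} (hx : OrdGe v 0 x) (q : K[X]) :
    OrdGe v 0 (aeval x q) := by
  induction q using Polynomial.induction_on' with
  | add p q hp hq =>
    rw [map_add]
    exact hp.add hq
  | monomial n a =>
    rw [aeval_monomial]
    have h1 := (ordGe_algebraMap v a).mul (ordGe_pow hx n)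
    exact h1.mono (by simp)

/-- A polynomial with nonzero constant term is a unit at every zero of `x`. -/
theorem ord_aeval_of_coeff_zero_ne (v : Place K F) {x : F} (hx : 0 < v.ord x) {q : K[X]}
    (hq : q.coeff 0 ≠ 0) : aeval x q ≠ 0 ∧ v.ord (aeval x q) = 0 := by
  have hx1 : OrdGe v 1 x := Or.inr (by omega)
  have hx0 : OrdGe v 0 x := hx1.mono (by omega)
  have hdecomp : aeval x q = algebraMap K F (q.coeff 0) + x * aeval x q.divX := by
    conv_lhs => rw [← X_mul_divX_add q]
    rw [map_add, map_mul, aeval_X, aeval_C, add_comm]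
  have hc0 : algebraMap K F (q.coeff 0) ≠ 0 := (map_ne_zero (algebraMap K F)).mpr hq
  have h := ord_add_eq v hc0 (g := x * aeval x q.divX) (by
    rw [ord_algebraMap]
    have := hx1.mul (ordGe_aeval v hx0 q.divX)
    exact this.mono (by omega))
  rw [← hdecomp] at h
  exact ⟨h.1, h.2.trans (ord_algebraMap v _)⟩

/-- The order of a polynomial in `x` at a zero of `x`. -/
theorem ord_aeval (v : Place K F) {x : F} (hx : 0 < v.ord x) {p : K[X]} (hp : p ≠ 0) :
    aeval x p ≠ 0 ∧ v.ord (aeval x p) = (p.rootMultiplicity 0 : ℤ) * v.ord x := by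
  obtain ⟨q, hpq, hq⟩ := exists_eq_pow_rootMultiplicity_mul_and_not_dvd p hp 0
  rw [C_0, sub_zero] at hpq hq
  have hq0 : q.coeff 0 ≠ 0 := fun h => hq (X_dvd_iff.mpr h)
  obtain ⟨h1, h2⟩ := ord_aeval_of_coeff_zero_ne v hx hq0
  have hx0 : x ≠ 0 := ne_zero_of_ord_ne_zero v hx.ne'
  have heq : aeval x p = x ^ p.rootMultiplicity 0 * aeval x q := by
    conv_lhs => rw [hpq]
    rw [map_mul, map_pow, aeval_X]
  rw [heq]
  refine ⟨mul_ne_zero (pow_ne_zero _ hx0) h1, ?_⟩
  rw [v.ord_mul (pow_ne_zero _ hx0) h1, ord_pow, h2, add_zero]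

/-- The order of an element of `K(x)` at a zero `v` of `x` is a multiple of `v(x)`, with a
multiplier which does not depend on `v`. -/
theorem exists_ord_adjoin_simple (x : F) (c : K⟮x⟯) (hc : c ≠ 0) :
    ∃ m : ℤ, ∀ v : Place K F, 0 < v.ord x → v.ord (c : F) = v.ord x * m := by
  obtain ⟨r, s, hrs⟩ := (mem_adjoin_simple_iff K (c : F)).mp c.2
  have hcF : (c : F) ≠ 0 := fun h => hc (Subtype.ext h)
  have hr : r ≠ 0 := by
    rintro rfl
    rw [map_zero, zero_div] at hrs
    exact hcF hrs
  have hs : s ≠ 0 := by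
    rintro rfl
    rw [map_zero, div_zero] at hrs
    exact hcF hrs
  refine ⟨(r.rootMultiplicity 0 : ℤ) - (s.rootMultiplicity 0 : ℤ), fun v hv => ?_⟩
  obtain ⟨hr1, hr2⟩ := ord_aeval v hv hr
  obtain ⟨hs1, hs2⟩ := ord_aeval v hv hs
  rw [hrs, ord_div v hr1 hs1, hr2, hs2]
  ring

/-- **Stichtenoth 1.3.3**: for a finite set `S` of zeros of `x`, `∑ v(x) ≤ [F : K(x)]`. -/
theorem sum_ord_le_finrank (x : F) [FiniteDimensional K⟮x⟯ F] (S : Finset (Place K F))
    (hS : ∀ v ∈ S, 0 < v.ord x) : ∑ v ∈ S, v.ord x ≤ (Module.finrank K⟮x⟯ F : ℤ) := by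
  classical
  rcases S.eq_empty_or_nonempty with rfl | ⟨v₁, hv₁⟩
  · simp
  have hx0 : x ≠ 0 := ne_zero_of_ord_ne_zero v₁ (hS v₁ hv₁).ne'
  have hcompat : Compat (fun v : S => (v : Place K F))
      (fun v : S => ((v : Place K F).ord x).toNat) K⟮x⟯ := by
    refine ⟨⟨AdjoinSimple.gen K x, ?_, fun v => ?_⟩, fun c hc => ?_⟩
    · intro h
      have h1 : (AdjoinSimple.gen K x : F) = 0 := by rw [h]; rfl
      rw [AdjoinSimple.coe_gen] at h1
      exact hx0 h1
    · show (v : Place K F).ord (algebraMap K⟮x⟯ F (AdjoinSimple.gen K x)) = _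
      rw [AdjoinSimple.algebraMap_gen]
      exact (Int.toNat_of_nonneg (hS v v.2).le).symm
    · obtain ⟨m, hm⟩ := exists_ord_adjoin_simple x c hc
      refine ⟨m, fun v => ?_⟩
      show (v : Place K F).ord (c : F) = _
      rw [hm v (hS v v.2), Int.toNat_of_nonneg (hS v v.2).le]
  have h := sum_le_finrank hcompat Subtype.val_injective
  have h2 : ∑ v ∈ S, v.ord x = ((∑ v : S, ((v : Place K F).ord x).toNat : ℕ) : ℤ) := by
    rw [Nat.cast_sum, ← Finset.sum_coe_sort S]
    refine Finset.sum_congr rfl fun v _ => ?_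
    exact (Int.toNat_of_nonneg (hS v v.2).le).symm
  rw [h2]
  exact_mod_cast h

/-- The `≤` half of the zeros theorem. -/
theorem zerosLe (K F : Type*) [Field K] [Field F] [Algebra K F] :
    Fermat.Agent.S27.REDu.H42.ZerosLe K F := by
  classical
  intro x _ _
  have hcard : ∀ S : Finset (Place K F), (∀ v ∈ S, 0 < v.ord x) →
      S.card ≤ Module.finrank K⟮x⟯ F := by
    intro S hS
    have h1 := sum_ord_le_finrank x S hS
    have h2 : (S.card : ℤ) ≤ ∑ v ∈ S, v.ord x := by
      rw [Finset.card_eq_sum_ones, Nat.cast_sum]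
      refine Finset.sum_le_sum fun v hv => ?_
      have := hS v hv
      push_cast
      omega
    exact_mod_cast h2.trans h1
  have hfin : {v : Place K F | 0 < v.ord x}.Finite := by
    by_contra hinf
    obtain ⟨S, hS, hScard⟩ :=
      Set.Infinite.exists_subset_card_eq hinf (Module.finrank K⟮x⟯ F + 1)
    have := hcard S fun v hv => hS hv
    omega
  refine ⟨hfin, ?_⟩
  rw [finsum_mem_eq_finite_toFinset_sum _ hfin]
  exact sum_ord_le_finrank x _ fun v hv => (Set.Finite.mem_toFinset hfin).mp hv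

/-- P4 for all function fields. -/
theorem zerosLeAll : Fermat.Agent.S27.REDu.H42.ZerosLeAll.{uK, uF} :=
  fun K F _ _ _ _ _ => zerosLe K F

end Fermat.Agent.S27.REDu.H51
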