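/-
Cluster G-RED, FF-B piece P1 (helper12): `H42.ExistsZeroAll.{uK, uF}` in the exact interface form.
-/
import Fermat.Agent.S27.REDu.H12_Zero
import Fermat.Agent.S27.REDu.H42_PoleDegree

set_option autoImplicit false

universe uC uCf uK uR uF uL uE uk ukap uFp uFt uFtp uiot uEp uKp ux3b1

namespace Fermat.Agent.S27.REDu.H12

open IntermediateField AlgebraicCurve

theorem existsZeroAll : Fermat.Agent.S27.REDu.H42.ExistsZeroAll.{uK, uF} := by
  intro K F _ _ _ _ hFF x hx
  obtain ⟨x₀, hx₀, hfin₀⟩ := hFF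
  have : FiniteDimensional K⟮x₀⟯ F := hfin₀
  exact exists_place_ord_pos
    (fun y hy => Fermat.Agent.S24.ff_finite_of_transcendental x₀ hx₀ y hy) x hx

end Fermat.Agent.S27.REDu.H12
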