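import Mathlib
import Fermat.Agent.S27.REDu.Defs
import Fermat.Agent.S27.REDu.H51_Approx
import Fermat.Agent.S24.H72_FF1

/-!
# FF-B (helper51): the three immediate statements

* `stmt_FFB_deg` : every place has degree one (helper72's `ff_deg_eq_one`);
* `stmt_FFB_finite` : a `K`-algebra hom between function fields is finite;
* `stmt_FFB_separate` : weak approximation for constants.
-/

set_option autoImplicit false
set_option linter.style.haveILetI false

universe uC uCf uK uR uF uL uE uk ukap uFp uFt uFtp uiot uEp uKp ux3b1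

noncomputable section

open AlgebraicCurve IntermediateField

namespace Fermat.Agent.S27.REDu.H51

/-- Every place of a function field over an algebraically closed field has degree one. -/
theorem stmt_FFB_deg : Fermat.Agent.S27.REDu.Stmt_FFB_deg.{uK, uF} := by
  intro K F _ _ _ _ hFF v
  obtain ⟨x, hx, hfin⟩ := hFF
  haveI : FiniteDimensional K⟮x⟯ F := hfin
  exact Fermat.Agent.S24.ff_deg_eq_one x hx v

/-- `F'` is finite over `F` along a `K`-hom `φ`, if `F'` is finite over `K(φ x)`. -/
theorem finiteAlong_of_finite_adjoin {K F F' : Type*} [Field K] [Field F] [Field F'] [Algebra K F]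
    [Algebra K F'] (φ : F →ₐ[K] F') (x : F) [FiniteDimensional K⟮φ x⟯ F'] :
    FiniteAlong K φ := by
  letI := algebraAlong φ
  have hle : K⟮φ x⟯ ≤ φ.fieldRange := by
    rw [adjoin_simple_le_iff]
    exact ⟨x, rfl⟩
  let e : F ≃ₐ[K] φ.fieldRange := AlgEquiv.ofInjectiveField φ
  let ψ : K⟮φ x⟯ →+* F := (e.symm : φ.fieldRange →+* F).comp
    ((IntermediateField.inclusion hle : K⟮φ x⟯ →ₐ[K] φ.fieldRange) : K⟮φ x⟯ →+* φ.fieldRange)
  letI : Algebra K⟮φ x⟯ F := ψ.toAlgebra
  haveI : IsScalarTower K⟮φ x⟯ F F' := by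
    refine IsScalarTower.of_algebraMap_eq fun c => ?_
    show (c : F') = φ (e.symm (IntermediateField.inclusion hle c))
    have h1 : φ (e.symm (IntermediateField.inclusion hle c))
        = ((e (e.symm (IntermediateField.inclusion hle c)) : φ.fieldRange) : F') := rfl
    rw [h1, AlgEquiv.apply_symm_apply]
    rfl
  show Module.Finite F F'
  exact Module.Finite.of_restrictScalars_finite K⟮φ x⟯ F F'

/-- A `K`-algebra hom between function fields is finite. -/
theorem stmt_FFB_finite : Fermat.Agent.S27.REDu.Stmt_FFB_finite.{uK, uF, uFp} := by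
  intro K F F' _ _ _ _ _ _ hFF hFF' φ
  obtain ⟨x, hx, -⟩ := hFF
  obtain ⟨x', hx', hfin'⟩ := hFF'
  haveI : FiniteDimensional K⟮x'⟯ F' := hfin'
  have hφx : Transcendental K (φ x) := fun h =>
    hx ((isAlgebraic_algHom_iff φ φ.injective).mp h)
  haveI : FiniteDimensional K⟮φ x⟯ F' :=
    Fermat.Agent.S24.ff_finite_of_transcendental x' hx' (φ x) hφx
  have hfin : FiniteAlong K φ := finiteAlong_of_finite_adjoin φ x
  refine ⟨?_, hfin⟩
  letI := algebraAlong φ
  haveI : Module.Finite F F' := hfin
  have hint : Algebra.IsIntegral F F' := Algebra.IsIntegral.of_finite F F'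
  exact hint.isIntegral

/-- Functions separate finitely many places, with prescribed constant values. -/
theorem stmt_FFB_separate : Fermat.Agent.S27.REDu.Stmt_FFB_separate.{uK, uF, uiot} := by
  intro K F _ _ _ _ _ ι _ v hv c
  obtain ⟨f, hf⟩ := exists_approx_family v hv (fun i => algebraMap K F (c i)) 1
  refine ⟨f, fun i => ?_⟩
  rcases hf i with h | h
  · exact Or.inr (sub_eq_zero.mp h)
  · exact Or.inl (by omega)

end Fermat.Agent.S27.REDu.H51
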