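import Mathlib
import Fermat.Agent.S27.REDu.H51_Fundamental

/-!
# FF-B, piece P8a (helper51): coordinates with respect to a local basis

Relative situation: `v` a place of `F`, `w j` places of `F'` over `v`, `e j = e(w j | v)`, `y` a
local basis.  For `z = ∑ g i • y i` with `g i ∈ F`:

* `coords_integral` : if `z` is integral at all `w j`, all `g i` are integral at `v`;
* `coords_divisible` : if moreover `w k (z) ≥ a` and `w j (z) ≥ e j` for `j ≠ k`, then the
  coordinates `g ⟨j, b⟩` with `j ≠ k` or `b < a` are divisible by the uniformizer of `v`.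
-/

set_option autoImplicit false
set_option linter.style.haveILetI false

universe uC uCf uK uR uF uL uE uk ukap uFp uFt uFtp uiot uEp uKp ux3b1

noncomputable section

open AlgebraicCurve

namespace Fermat.Agent.S27.REDu.H51

section Block

variable {K F' : Type*} [Field K] [Field F'] [Algebra K F']
variable {ι : Type*} [Fintype ι] {w : ι → Place K F'} {e : ι → ℕ}

/-- The core computation, with the block `k` prescribed: if the block `k` contains a unit
coefficient and `a` is the first index of a unit coefficient in this block, the combination has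
order `a` at `w k`. -/
theorem core_block {y : (Σ k : ι, Fin (e k)) → F'} (hy : LocalBasis w e y)
    (c : (Σ k : ι, Fin (e k)) → F')
    (hc : ∀ i, (c i ≠ 0 ∧ ∀ j, (w j).ord (c i) = 0) ∨ (∀ j, OrdGe (w j) (e j) (c i)))
    (k : ι) (hk : ∃ a : Fin (e k), c ⟨k, a⟩ ≠ 0 ∧ ∀ j, (w j).ord (c ⟨k, a⟩) = 0) :
    ∃ a : Fin (e k), (c ⟨k, a⟩ ≠ 0 ∧ ∀ j, (w j).ord (c ⟨k, a⟩) = 0) ∧
      (∀ b : Fin (e k), b < a → ¬ (c ⟨k, b⟩ ≠ 0 ∧ ∀ j, (w j).ord (c ⟨k, b⟩) = 0)) ∧
      (∑ i', c i' * y i') ≠ 0 ∧ (w k).ord (∑ i', c i' * y i') = ((a : ℕ) : ℤ) := by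
  classical
  obtain ⟨a₁, ha₁⟩ := hk
  let P : ℕ → Prop := fun a => ∃ h : a < e k, (c ⟨k, ⟨a, h⟩⟩ ≠ 0 ∧
    ∀ j, (w j).ord (c ⟨k, ⟨a, h⟩⟩) = 0)
  have hP : ∃ a, P a := ⟨a₁, a₁.2, ha₁⟩
  obtain ⟨ha₀lt, ha₀⟩ := Nat.find_spec hP
  set a₀ : ℕ := Nat.find hP with ha₀def
  have hmin : ∀ b, b < a₀ → ¬ P b := fun b hb => Nat.find_min hP hb
  set i₀ : (Σ k : ι, Fin (e k)) := ⟨k, ⟨a₀, ha₀lt⟩⟩ with hi₀
  refine ⟨⟨a₀, ha₀lt⟩, ha₀, fun b hb hunit => hmin b hb ⟨b.2, hunit⟩, ?_⟩
  have hterm0 : c i₀ * y i₀ ≠ 0 := mul_ne_zero ha₀.1 (hy.ne_zero i₀)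
  have hterm : (w k).ord (c i₀ * y i₀) = (a₀ : ℤ) := by
    rw [(w k).ord_mul ha₀.1 (hy.ne_zero i₀), ha₀.2 k, zero_add]
    exact hy.ord_self i₀
  have hc0 : ∀ i, OrdGe (w k) 0 (c i) := by
    intro i
    rcases hc i with h | h
    · exact Or.inr (h.2 k).ge
    · exact (h k).mono (Int.natCast_nonneg _)
  have hrest : OrdGe (w k) ((a₀ : ℤ) + 1) (∑ i ∈ Finset.univ.erase i₀, c i * y i) := by
    refine ordGe_sum _ _ _ _ fun i hi => ?_
    have hne : i ≠ i₀ := Finset.ne_of_mem_erase hi
    obtain ⟨j, b⟩ := i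
    by_cases hjk : j = k
    · subst hjk
      have hba : (b : ℕ) ≠ a₀ := by
        intro h
        apply hne
        rw [hi₀]
        congr 1
        exact Fin.ext h
      have hyb : OrdGe (w j) ((b : ℕ) : ℤ) (y ⟨j, b⟩) := Or.inr (hy.ord_self ⟨j, b⟩).ge
      rcases lt_or_gt_of_ne hba with hlt | hgt
      · have hdiv : OrdGe (w j) (e j) (c ⟨j, b⟩) := by
          rcases hc ⟨j, b⟩ with h | h
          · exact absurd ⟨b.2, h⟩ (hmin b hlt)
          · exact h j
        have := hdiv.mul hyb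
        exact this.mono (by have := Int.natCast_nonneg (b : ℕ); omega)
      · have := (hc0 ⟨j, b⟩).mul hyb
        exact this.mono (by omega)
    · have hyj : OrdGe (w k) (e k) (y ⟨j, b⟩) :=
        hy.ordGe_other ⟨j, b⟩ k (fun h => hjk h.symm)
      have := (hc0 ⟨j, b⟩).mul hyj
      exact this.mono (by omega)
  have hsplit : ∑ i', c i' * y i' = c i₀ * y i₀ + ∑ i ∈ Finset.univ.erase i₀, c i * y i :=
    (Finset.add_sum_erase Finset.univ (fun i => c i * y i) (Finset.mem_univ i₀)).symm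
  rw [hsplit]
  have key := ord_add_eq (w k) hterm0 (g := ∑ i ∈ Finset.univ.erase i₀, c i * y i)
    (by rw [hterm]; exact hrest)
  exact ⟨key.1, key.2.trans hterm⟩

end Block

section Rel

variable {K F F' : Type*} [Field K] [Field F] [Field F'] [Algebra K F] [Algebra K F']
  [Algebra F F'] [IsScalarTower K F F'] [Algebra.IsIntegral F F']
variable {ι : Type*} [Fintype ι] {w : ι → Place K F'} {v : Place K F}

/-- Relative form of the block computation: `m` is a lower bound for the orders at `v` of the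
coefficients, attained in the block `k`; then the order of the combination at `w k` is
`a + e k * m`, where `a` is the first index in the block `k` where `m` is attained. -/
theorem coords_block (hw : ∀ j, (w j).restrict F = v)
    {y : (Σ k : ι, Fin ((w k).ramificationIndex F)) → F'}
    (hy : LocalBasis w (fun j => (w j).ramificationIndex F) y)
    (g : (Σ k : ι, Fin ((w k).ramificationIndex F)) → F) (m : ℤ)
    (hg : ∀ i, OrdGe v m (g i))
    (k : ι) (hk : ∃ a : Fin ((w k).ramificationIndex F), g ⟨k, a⟩ ≠ 0 ∧ v.ord (g ⟨k, a⟩) = m) :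
    ∃ a : Fin ((w k).ramificationIndex F), (g ⟨k, a⟩ ≠ 0 ∧ v.ord (g ⟨k, a⟩) = m) ∧
      (∀ b : Fin ((w k).ramificationIndex F), b < a → OrdGe v (m + 1) (g ⟨k, b⟩)) ∧
      (∑ i', g i' • y i') ≠ 0 ∧
      (w k).ord (∑ i', g i' • y i') = ((a : ℕ) : ℤ) + ((w k).ramificationIndex F : ℤ) * m := by
  obtain ⟨t, ht0, ht⟩ := exists_uniformizer v
  have hepos : ∀ j, 0 < (w j).ramificationIndex F := fun j =>
    (w j).ramificationIndex_pos (F := F)
  have hordF : ∀ (j : ι) (c : F), (w j).ord (algebraMap F F' c)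
      = ((w j).ramificationIndex F : ℤ) * v.ord c := fun j c => by
    rw [(w j).ord_restrict c, hw j]
  set τ : F := t ^ (-m) with hτ
  have hτ0 : τ ≠ 0 := zpow_ne_zero _ ht0
  have hτord : v.ord τ = -m := by rw [hτ, v.ord_zpow, ht, mul_one]
  -- the normalized coefficients
  set c : (Σ k : ι, Fin ((w k).ramificationIndex F)) → F' :=
    fun i => algebraMap F F' (τ * g i) with hcdef
  have hcord : ∀ i, g i ≠ 0 → ∀ j, (w j).ord (c i)
      = ((w j).ramificationIndex F : ℤ) * (v.ord (g i) - m) := by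
    intro i hi j
    simp only [hcdef]
    rw [hordF j, v.ord_mul hτ0 hi, hτord]
    ring
  have hunit_iff : ∀ i, (c i ≠ 0 ∧ ∀ j, (w j).ord (c i) = 0) ↔ (g i ≠ 0 ∧ v.ord (g i) = m) := by
    intro i
    constructor
    · rintro ⟨h0, h⟩
      have hgi : g i ≠ 0 := by
        rintro h'
        apply h0
        simp only [hcdef, h', mul_zero, map_zero]
      refine ⟨hgi, ?_⟩
      have := h k
      rw [hcord i hgi k] at this
      have hk' := hepos k
      have h2 : v.ord (g i) - m = 0 := by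
        rcases mul_eq_zero.mp this with h3 | h3
        · omega
        · exact h3
      omega
    · rintro ⟨hgi, hm⟩
      refine ⟨(map_ne_zero (algebraMap F F')).mpr (mul_ne_zero hτ0 hgi), fun j => ?_⟩
      rw [hcord i hgi j, hm, sub_self, mul_zero]
  have hc : ∀ i, (c i ≠ 0 ∧ ∀ j, (w j).ord (c i) = 0) ∨
      (∀ j, OrdGe (w j) ((w j).ramificationIndex F) (c i)) := by
    intro i
    rcases eq_or_ne (g i) 0 with h0 | h0
    · right
      intro j
      simp only [hcdef, h0, mul_zero, map_zero]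
      exact ordGe_zero _ _
    · have hm' : m ≤ v.ord (g i) := (hg i).le h0
      rcases eq_or_lt_of_le hm' with heq | hlt
      · exact Or.inl ((hunit_iff i).mpr ⟨h0, heq.symm⟩)
      · right
        intro j
        refine Or.inr ?_
        rw [hcord i h0 j]
        have h1 : (1 : ℤ) ≤ v.ord (g i) - m := by omega
        have := mul_le_mul_of_nonneg_left h1 (Int.natCast_nonneg ((w j).ramificationIndex F))
        linarith
  obtain ⟨a, ha⟩ := hk
  obtain ⟨a₀, hunit, hmin, hne, hord⟩ := core_block hy c hc k ⟨a, (hunit_iff _).mpr ha⟩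
  have hsum : ∑ i', c i' * y i' = algebraMap F F' τ * ∑ i', g i' • y i' := by
    rw [Finset.mul_sum]
    refine Finset.sum_congr rfl fun i' _ => ?_
    simp only [hcdef]
    rw [Algebra.smul_def, map_mul, mul_assoc]
  rw [hsum] at hne hord
  have hz0 : (∑ i', g i' • y i') ≠ 0 := right_ne_zero_of_mul hne
  have hτ0' : algebraMap F F' τ ≠ 0 := (map_ne_zero (algebraMap F F')).mpr hτ0
  refine ⟨a₀, (hunit_iff _).mp hunit, fun b hb => ?_, hz0, ?_⟩
  · rcases eq_or_ne (g ⟨k, b⟩) 0 with h0 | h0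
    · exact Or.inl h0
    · refine Or.inr ?_
      have h1 : m ≤ v.ord (g ⟨k, b⟩) := (hg _).le h0
      have h2 : v.ord (g ⟨k, b⟩) ≠ m := fun h => hmin b hb ((hunit_iff _).mpr ⟨h0, h⟩)
      omega
  · rw [(w k).ord_mul hτ0' hz0, hordF k, hτord] at hord
    linarith

/-- Coordinates of an element which is integral at all `w j` are integral at `v`. -/
theorem coords_integral (hw : ∀ j, (w j).restrict F = v)
    {y : (Σ k : ι, Fin ((w k).ramificationIndex F)) → F'}
    (hy : LocalBasis w (fun j => (w j).ramificationIndex F) y)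
    (g : (Σ k : ι, Fin ((w k).ramificationIndex F)) → F)
    (hz : ∀ j, OrdGe (w j) 0 (∑ i', g i' • y i')) (i : Σ k : ι, Fin ((w k).ramificationIndex F)) :
    OrdGe v 0 (g i) := by
  classical
  by_contra hcon
  have hi0 : g i ≠ 0 := fun h => hcon (Or.inl h)
  have hineg : v.ord (g i) < 0 := by
    by_contra h
    exact hcon (Or.inr (not_lt.mp h))
  -- a coefficient of minimal order
  have hne : (Finset.univ.filter fun i => g i ≠ 0).Nonempty :=
    ⟨i, Finset.mem_filter.mpr ⟨Finset.mem_univ _, hi0⟩⟩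
  obtain ⟨i₀, hi₀mem, hi₀⟩ := Finset.exists_min_image _ (fun i => v.ord (g i)) hne
  have hi₀ne : g i₀ ≠ 0 := (Finset.mem_filter.mp hi₀mem).2
  set m := v.ord (g i₀) with hm
  have hmneg : m < 0 := lt_of_le_of_lt
    (hi₀ i (Finset.mem_filter.mpr ⟨Finset.mem_univ _, hi0⟩)) hineg
  have hg : ∀ i', OrdGe v m (g i') := by
    intro i'
    rcases eq_or_ne (g i') 0 with h0 | h0
    · exact Or.inl h0
    · exact Or.inr (hi₀ i' (Finset.mem_filter.mpr ⟨Finset.mem_univ _, h0⟩))
  obtain ⟨k, a⟩ := i₀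
  obtain ⟨a₀, -, -, hz0, hord⟩ := coords_block hw hy g m hg k ⟨a, hi₀ne, rfl⟩
  have h1 := (hz k).le hz0
  rw [hord] at h1
  have h2 : ((a₀ : ℕ) : ℤ) < ((w k).ramificationIndex F : ℤ) := by exact_mod_cast a₀.2
  have h3 : ((w k).ramificationIndex F : ℤ) * m ≤ ((w k).ramificationIndex F : ℤ) * (-1) :=
    mul_le_mul_of_nonneg_left (by omega) (Int.natCast_nonneg _)
  linarith

/-- Coordinates of an element of order `≥ a` at `w k` and `≥ e j` at the `w j`, `j ≠ k`: those
outside of the block `k`, and those of index `< a` in the block `k`, are divisible. -/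
theorem coords_divisible (hw : ∀ j, (w j).restrict F = v)
    {y : (Σ k : ι, Fin ((w k).ramificationIndex F)) → F'}
    (hy : LocalBasis w (fun j => (w j).ramificationIndex F) y)
    (g : (Σ k : ι, Fin ((w k).ramificationIndex F)) → F) (k : ι) (a : ℕ)
    (hzk : OrdGe (w k) a (∑ i', g i' • y i'))
    (hz : ∀ j, j ≠ k → OrdGe (w j) ((w j).ramificationIndex F) (∑ i', g i' • y i'))
    (i : Σ k : ι, Fin ((w k).ramificationIndex F)) (hi : i.1 ≠ k ∨ (i.2 : ℕ) < a) :
    OrdGe v 1 (g i) := by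
  classical
  have hz0 : ∀ j, OrdGe (w j) 0 (∑ i', g i' • y i') := by
    intro j
    by_cases hjk : j = k
    · subst hjk
      exact hzk.mono (Int.natCast_nonneg _)
    · exact (hz j hjk).mono (Int.natCast_nonneg _)
  have hint : ∀ i', OrdGe v 0 (g i') := coords_integral hw hy g hz0
  by_contra hcon
  have hi0 : g i ≠ 0 := fun h => hcon (Or.inl h)
  have hord0 : v.ord (g i) = 0 := by
    have h1 := (hint i).le hi0
    have h2 : ¬ (1 ≤ v.ord (g i)) := fun h => hcon (Or.inr h)
    omega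
  obtain ⟨j, b⟩ := i
  obtain ⟨a₀, -, hmin, hne, hord⟩ := coords_block hw hy g 0 hint j ⟨b, hi0, hord0⟩
  rw [mul_zero, add_zero] at hord
  have hab : a₀ ≤ b := by
    by_contra hlt
    have h1 := hmin b (not_le.mp hlt)
    rw [zero_add] at h1
    have := h1.le hi0
    omega
  rcases hi with hjk | hba
  · have h1 := (hz j hjk).le hne
    rw [hord] at h1
    have h2 : ((a₀ : ℕ) : ℤ) < ((w j).ramificationIndex F : ℤ) := by exact_mod_cast a₀.2
    omega
  · by_cases hjk : j = k
    · subst hjk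
      have h1 := hzk.le hne
      rw [hord] at h1
      have h2 : ((a₀ : ℕ) : ℤ) ≤ ((b : ℕ) : ℤ) := by exact_mod_cast hab
      have h3 : ((b : ℕ) : ℤ) < (a : ℤ) := by exact_mod_cast hba
      omega
    · have h1 := (hz j hjk).le hne
      rw [hord] at h1
      have h2 : ((a₀ : ℕ) : ℤ) < ((w j).ramificationIndex F : ℤ) := by exact_mod_cast a₀.2
      omega

end Rel

end Fermat.Agent.S27.REDu.H51
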