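import Mathlib
import Fermat.Agent.S27.REDu.H51_NormStmt
import Fermat.Agent.S27.REDu.H12_ZeroAll

/-!
# FF-B (helper51): final assembly, unconditional

The zeros theorem in any characteristic (`zerosAll`, from helper12's existence of zeros, helper42's
`≥` half and the `≤` half `zerosLeAll`), and with it all six `Stmt_FFB_*`, the three `Stmt_FFR_*`
(helper42's proofs).  `Stmt_HKA` is in `H51_HKA.lean`.
-/

set_option autoImplicit false

universe uC uCf uK uR uF uL uE uk ukap uFp uFt uFtp uiot uEp uKp ux3b1

noncomputable section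

open AlgebraicCurve IntermediateField

namespace Fermat.Agent.S27.REDu.H51

/-- **The zeros theorem** for function fields over algebraically closed fields of any
characteristic: a non-constant `x` has finitely many zeros and `∑ v(x) = [F : K(x)]`. -/
theorem zerosAll : Fermat.Agent.S27.REDu.H42.ZerosAll.{uK, uF} :=
  Fermat.Agent.S27.REDu.H42.zerosAll_of Fermat.Agent.S27.REDu.H12.existsZeroAll zerosLeAll

/-- Every nonzero function has a divisor, of degree `0`. -/
theorem stmt_FFB_principal : Fermat.Agent.S27.REDu.Stmt_FFB_principal.{uK, uF} :=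
  Fermat.Agent.S27.REDu.H42.stmt_FFB_principal_of zerosAll

/-- The fundamental identity. -/
theorem stmt_FFB_fundamental : Fermat.Agent.S27.REDu.Stmt_FFB_fundamental.{uK, uF, uFp} :=
  stmt_FFB_fundamental_of zerosAll zerosAll

/-- The norm formula. -/
theorem stmt_FFB_norm : Fermat.Agent.S27.REDu.Stmt_FFB_norm.{uK, uF, uFp} :=
  stmt_FFB_norm_of zerosAll zerosAll

/-- `L(D)` is finite dimensional. -/
theorem stmt_FFR_finite : Fermat.Agent.S27.REDu.Stmt_FFR_finite.{uK, uF} :=
  Fermat.Agent.S27.REDu.H42.stmt_FFR_finite_of zerosAll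

/-- `l(D) ≤ deg D + 1`. -/
theorem stmt_FFR_le : Fermat.Agent.S27.REDu.Stmt_FFR_le.{uK, uF} :=
  Fermat.Agent.S27.REDu.H42.stmt_FFR_le_of zerosAll

/-- Riemann's theorem. -/
theorem stmt_FFR_riemann : Fermat.Agent.S27.REDu.Stmt_FFR_riemann.{uK, uF} :=
  Fermat.Agent.S27.REDu.H42.stmt_FFR_riemann_of zerosAll

end Fermat.Agent.S27.REDu.H51
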