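import Mathlib

/-!
# G-RED package IG (helper34): interface definitions for "good reduction of an affine chart"

Abstract setting (no modular forms): `F/C` a function field, `V` a valuation ring of `F` of
"Gauss type" (value group of `V` = value group of `O = V ∩ C`), `Ft` its residue field,
`x ∈ V` with transcendental reduction `xt`.  `B` = integral closure of `C[x]` in `F`,
`Bt` = integral closure of `k[xt]` in `Ft`.

**Chart theorem** (`Stmt_chartNormal.{uC, uF, uk, uFt}`): if `[Ft : k(xt)] = [F : C(x)]`, `Ft/k(xt)` is separable and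
the branch values of `x` lying in `O` are pairwise distinct modulo the maximal ideal, then every
element of `Bt` is the reduction of an element of `B ∩ V`.

Inputs proved separately (pure algebra):
* `Stmt_rootRed.{uC, uk}`   : reduction of roots of polynomials over a valuation ring of an alg. closed field;
* `Stmt_tameDiscr.{uK, uR, uL, uiot}` : tame discriminant bound `ord_π disc(B/R) ≤ n - #{primes over π}`.
-/

set_option autoImplicit false

universe uC uCf uK uR uF uL uE uk ukap uFp uFt uFtp uiot uEp uKp ux3b1

noncomputable section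

open IntermediateField

namespace Fermat.Agent.S27.REDu.H34

/-- Abstract reduction setting: a valuation ring `V` of `F` with residue field `Ft`, such that
`O = V ∩ C` has residue field `k` and the value group of `V` is that of `O`. -/
structure RedSetting (C : Type uC) (F : Type uF) (k : Type uk) (Ft : Type uFt) [Field C] [Field F] [Algebra C F] [Field k] [Field Ft]
    [Algebra k Ft] where
  /-- the valuation ring -/
  V : ValuationSubring F
  /-- the reduction map -/
  red : ↥V →+* Ft
  red_surj : Function.Surjective red
  /-- the reduction map on constants -/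
  resO : ↥(V.comap (algebraMap C F)) →+* k
  resO_surj : Function.Surjective resO
  red_algebraMap : ∀ a : ↥(V.comap (algebraMap C F)),
    red ⟨algebraMap C F (a : C), a.2⟩ = algebraMap k Ft (resO a)
  scale : ∀ f : F, f ≠ 0 → ∃ c : C, c ≠ 0 ∧ ∃ u : (↥V)ˣ, f = algebraMap C F c * ((u : ↥V) : F)

/-- The maximal ideals of the integral closure `B` of `C[x]` in `F` lying over `x = ρ`. -/
def ptsOver {C : Type uC} {F : Type uF} [Field C] [Field F] [Algebra C F] (x : F) (ρ : C) :
    Set (Ideal ↥(integralClosure ↥(Algebra.adjoin C {x}) F)) :=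
  {P | P.IsMaximal ∧ ∀ b : ↥(integralClosure ↥(Algebra.adjoin C {x}) F),
    (b : F) = x - algebraMap C F ρ → b ∈ P}

/-- `ρ` is a branch value of `x`: fewer than `[F : C(x)]` points lie over `x = ρ`. -/
def IsBranchValue {C : Type uC} {F : Type uF} [Field C] [Field F] [Algebra C F] (x : F) (ρ : C) : Prop :=
  (ptsOver x ρ).ncard < Module.finrank C⟮x⟯ F

/-- **Chart theorem**: the reduction of the integral closure is the integral closure of the
reduction. -/
def Stmt_chartNormal : Prop :=
  ∀ (C : Type uC) (F : Type uF) (k : Type uk) (Ft : Type uFt) [Field C] [Field F] [Algebra C F] [Field k] [Field Ft] [Algebra k Ft]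
    [IsAlgClosed C] [CharZero C] [IsAlgClosed k] (S : RedSetting C F k Ft)
    (x : F) (hx : x ∈ S.V), Transcendental k (S.red ⟨x, hx⟩) →
    FiniteDimensional C⟮x⟯ F →
    Module.finrank k⟮S.red ⟨x, hx⟩⟯ Ft = Module.finrank C⟮x⟯ F →
    Algebra.IsSeparable k⟮S.red ⟨x, hx⟩⟯ Ft →
    (∀ ρ ρ' : ↥(S.V.comap (algebraMap C F)), IsBranchValue x (ρ : C) → IsBranchValue x (ρ' : C) →
      S.resO ρ = S.resO ρ' → ρ = ρ') →
    ∀ y : Ft, IsIntegral ↥(Algebra.adjoin k {S.red ⟨x, hx⟩}) y →
      ∃ f : ↥S.V, IsIntegral ↥(Algebra.adjoin C {x}) (f : F) ∧ S.red f = y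

/-- **Reduction of roots.**  `O` a valuation ring of an algebraically closed field, `res` its
residue map, `D ∈ O[X]` with nonzero reduction.  Every root `γ` of the reduction is the reduction
of a root `ρ ∈ O` of `D`, and if `ρ` is the only root of `D` in `O` reducing to `γ`, the
multiplicities agree. -/
def Stmt_rootRed : Prop :=
  ∀ (C : Type uC) (k : Type uk) [Field C] [IsAlgClosed C] [Field k] (O : ValuationSubring C) (res : ↥O →+* k),
    Function.Surjective res → (∀ a : ↥O, res a = 0 ↔ ¬ IsUnit a) →
    ∀ D : Polynomial ↥O, D.map res ≠ 0 → ∀ γ : k, (D.map res).IsRoot γ →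
      ∃ ρ : ↥O, res ρ = γ ∧ D.IsRoot ρ ∧
        ((∀ ρ' : ↥O, res ρ' = γ → D.IsRoot ρ' → ρ' = ρ) →
          (D.map res).rootMultiplicity γ = D.rootMultiplicity ρ)

/-- **Tame discriminant bound.**  `R` a PID, `B` the integral closure of `R` in a finite separable
extension `L` of `K = Frac R`, `π` a prime of `R` of residue characteristic `0` such that all
primes of `B` over `π` have residue degree one.  Then `ord_π disc(B/R) ≤ n - r`, `r` the number of
primes of `B` over `π`. -/
def Stmt_tameDiscr : Prop :=
  ∀ (R : Type uR) (K : Type uK) (L : Type uL) [CommRing R] [IsDomain R] [IsPrincipalIdealRing R] [Field K] [Field L]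
    [Algebra R K] [IsFractionRing R K] [Algebra K L] [Algebra R L] [IsScalarTower R K L]
    [FiniteDimensional K L] [Algebra.IsSeparable K L]
    (ι : Type uiot) [Fintype ι] [DecidableEq ι] (c : Module.Basis ι R ↥(integralClosure R L))
    (π : R), Prime π → (∀ m : ℕ, m ≠ 0 → ¬ π ∣ (m : R)) →
    (∀ P : Ideal ↥(integralClosure R L), P.IsMaximal →
      algebraMap R ↥(integralClosure R L) π ∈ P →
        Function.Surjective (algebraMap R (↥(integralClosure R L) ⧸ P))) →
    ¬ π ^ (Fintype.card ι -
        Set.ncard {P : Ideal ↥(integralClosure R L) |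
          P.IsMaximal ∧ algebraMap R ↥(integralClosure R L) π ∈ P} + 1) ∣ Algebra.discr R c

end Fermat.Agent.S27.REDu.H34
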