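import Mathlib
import Fermat.Agent.S27.REDu.H34_IGDefs

/-!
# G-RED package IG-P2 (helper82): the tame discriminant bound `Stmt_tameDiscr.{uK, uR, uL, uiot}`

`R` a PID, `B` the integral closure of `R` in a finite separable extension `L` of `K = Frac R`,
`c` an `R`-basis of `B` (`n` elements), `π` a prime of `R` of residue characteristic `0`.
Then `ord_π disc(c) ≤ n - r`, `r` the number of maximal ideals of `B` containing `π`.
(The residue-degree hypothesis of the statement is not used.)

Proof.  Let `J` be the radical of `π B`.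
* `h82_F1`: if `π ∣ Tr(z b)` for all `b` then `z ∈ J` (matrices over the residue field of
  characteristic zero: vanishing traces of all positive powers force nilpotency).
* `h82_F2`: if `π ^ 2 ∣ Tr(y w)` for all `w ∈ J` then `π ∣ y` (descending induction on `J ^ i`,
  using that `B` is integrally closed).
* Smith normal form of the trace pairing `B → Rⁿ`: a basis `b'` of `B` and a basis `bM` of `Rⁿ`
  with `Tr(b'_i ·) = a_i • bM_i`, so `disc = unit * ∏ a_i`.  By `F2` no `a_i` is divisible by
  `π ^ 2`; by `F1` the `b'_i` with `π ∣ a_i` lie in `J`, and there are at most `n - r` of them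
  (`h82_count`).
-/

universe uC uCf uK uR uF uL uE uk ukap uFp uFt uFtp uiot uEp uKp ux3b1

namespace Fermat.Agent.S27.REDu.H82

open Polynomial

/-- The trace of `aeval M (X * r)` vanishes when the traces of all positive powers vanish. -/
theorem h82_trace_aeval_X_mul {κ ι : Type*} [Field κ] [Fintype ι] [DecidableEq ι]
    (M : Matrix ι ι κ) (h : ∀ k : ℕ, (M ^ (k + 1)).trace = 0) (r : κ[X]) :
    (aeval M (X * r)).trace = 0 := by
  induction r using Polynomial.induction_on' with
  | add p q hp hq => rw [mul_add, map_add, Matrix.trace_add, hp, hq, add_zero]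
  | monomial n a =>
    have : (X : κ[X]) * monomial n a = monomial (n + 1) a := by
      rw [← C_mul_X_pow_eq_monomial, ← C_mul_X_pow_eq_monomial, pow_succ]; ring
    rw [this, aeval_monomial, ← Algebra.smul_def, Matrix.trace_smul, h, smul_zero]

/-- Over a field of characteristic zero, a square matrix all of whose positive powers have
trace zero is nilpotent. -/
theorem h82_isNilpotent_of_trace_pow {κ ι : Type*} [Field κ] [CharZero κ] [Fintype ι]
    [DecidableEq ι] (M : Matrix ι ι κ) (h : ∀ k : ℕ, (M ^ (k + 1)).trace = 0) :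
    IsNilpotent M := by
  have hint : IsIntegral κ M := Algebra.IsIntegral.isIntegral M
  have hp0 : minpoly κ M ≠ 0 := minpoly.ne_zero hint
  obtain ⟨q, hq, hXq⟩ :=
    Polynomial.exists_eq_pow_rootMultiplicity_mul_and_not_dvd (minpoly κ M) hp0 0
  set m := (minpoly κ M).rootMultiplicity 0 with hm
  rw [C_0, sub_zero] at hq hXq
  have hq0 : q.coeff 0 ≠ 0 := fun h0 => hXq (X_dvd_iff.mpr h0)
  set r : κ[X] := C (-(q.coeff 0)⁻¹) * q.divX with hr
  set P : κ[X] := X * r with hP
  -- X^m * (P - 1) = - C q₀⁻¹ * minpoly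
  have key : X ^ m * (P - 1) = C (-(q.coeff 0)⁻¹) * minpoly κ M := by
    have aux : ∀ (D : κ[X]) (c0 : κ), c0 ≠ 0 →
        X ^ m * (X * (C (-c0⁻¹) * D) - 1) = C (-c0⁻¹) * (X ^ m * (D * X + C c0)) := by
      intro D c0 hc0
      have hC : C (-c0⁻¹) * C c0 = (-1 : κ[X]) := by
        rw [← C_mul, neg_mul, inv_mul_cancel₀ hc0]; simp
      have : C (-c0⁻¹) * (X ^ m * (D * X + C c0))
          = X ^ m * (X * (C (-c0⁻¹) * D)) + X ^ m * (C (-c0⁻¹) * C c0) := by
        ring
      rw [this, hC]; ring
    rw [hP, hr, aux q.divX (q.coeff 0) hq0, divX_mul_X_add, ← hq]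
  have hdiv1 : minpoly κ M ∣ X ^ (m + 1) * (P - 1) := by
    have : X ^ (m + 1) * (P - 1) = X * (X ^ m * (P - 1)) := by ring
    rw [this, key]
    exact (Dvd.intro_left _ rfl).mul_left _
  set Q : κ[X] := P ^ (m + 1) with hQ
  have hPQ : P - 1 ∣ Q - 1 := by
    have := sub_dvd_pow_sub_pow P 1 (m + 1)
    rwa [one_pow] at this
  have hdiv2 : minpoly κ M ∣ X ^ (m + 1) * (Q - 1) :=
    hdiv1.trans (mul_dvd_mul_left _ hPQ)
  have hdiv3 : minpoly κ M ∣ Q * Q - Q := by
    have : Q * Q - Q = r ^ (m + 1) * (X ^ (m + 1) * (Q - 1)) := by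
      rw [hQ, hP]; ring
    rw [this]
    exact hdiv2.mul_left _
  set e : Matrix ι ι κ := aeval M Q with he
  have hee : e * e = e := by
    have := minpoly.dvd_iff.mp hdiv3
    rw [map_sub, map_mul, sub_eq_zero] at this
    exact this
  have hMe : M ^ (m + 1) * e = M ^ (m + 1) := by
    have := minpoly.dvd_iff.mp hdiv2
    rw [map_mul, map_sub, map_pow, aeval_X, map_one, mul_sub, mul_one, sub_eq_zero] at this
    exact this
  have htr : e.trace = 0 := by
    have : Q = X * (X ^ m * r ^ (m + 1)) := by rw [hQ, hP]; ring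
    rw [he, this]
    exact h82_trace_aeval_X_mul M h _
  -- idempotent of trace zero vanishes
  have he0 : e = 0 := by
    have hid : IsIdempotentElem (Matrix.toLin' e) := by
      unfold IsIdempotentElem
      rw [Module.End.mul_eq_comp, ← Matrix.toLin'_mul, hee]
    have htr' : LinearMap.trace κ (ι → κ) (Matrix.toLin' e) = 0 := by
      rw [LinearMap.trace_eq_matrix_trace κ (Pi.basisFun κ ι), LinearMap.toMatrix_eq_toMatrix',
        LinearMap.toMatrix'_toLin', htr]
    have := LinearMap.IsIdempotentElem.eq_zero_of_trace_eq_zero hid htr'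
    exact Matrix.toLin'.injective (by rw [this, map_zero])
  refine ⟨m + 1, ?_⟩
  rw [← hMe, he0, mul_zero]


section F1

variable {R B ι : Type*} [CommRing R] [IsDomain R] [IsPrincipalIdealRing R] [CommRing B]
  [Algebra R B] [Fintype ι] [DecidableEq ι]

/-- Coordinatewise divisibility implies divisibility. -/
theorem h82_dvd_of_repr (c : Module.Basis ι R B) (π : R) (x : B)
    (h : ∀ i, π ∣ c.repr x i) : algebraMap R B π ∣ x := by
  choose t ht using h
  refine ⟨∑ i, t i • c i, ?_⟩
  conv_lhs => rw [← c.sum_repr x]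
  rw [Finset.mul_sum]
  refine Finset.sum_congr rfl fun i _ => ?_
  rw [ht i, mul_smul, Algebra.smul_def π]

/-- Divisibility implies coordinatewise divisibility. -/
theorem h82_repr_dvd (c : Module.Basis ι R B) (π : R) (x : B)
    (h : algebraMap R B π ∣ x) (i : ι) : π ∣ c.repr x i := by
  obtain ⟨y, rfl⟩ := h
  rw [← Algebra.smul_def, map_smul]
  exact ⟨c.repr y i, by simp⟩

theorem h82_dvd_smul (π : R) (r : R) (x : B) (h : algebraMap R B π ∣ x) :
    algebraMap R B π ∣ r • x := by
  rw [Algebra.smul_def]; exact h.mul_left _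

/-- **F1**: an element whose trace form against everything is divisible by `π` is nilpotent
modulo `π` (residue characteristic zero). -/
theorem h82_F1 (c : Module.Basis ι R B) (π : R) (hπ : Prime π)
    (hchar : ∀ m : ℕ, m ≠ 0 → ¬ π ∣ (m : R)) (z : B)
    (hz : ∀ b : B, π ∣ Algebra.trace R B (z * b)) : ∃ k, algebraMap R B π ∣ z ^ k := by
  haveI hmax : (Ideal.span {π}).IsMaximal :=
    PrincipalIdealRing.isMaximal_of_irreducible hπ.irreducible
  letI := Ideal.Quotient.field (Ideal.span {π})
  haveI : CharZero (R ⧸ Ideal.span {π}) := charZero_of_inj_zero (by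
    intro n hn
    by_contra h0
    apply hchar n h0
    have : (Ideal.Quotient.mk (Ideal.span {π})) (n : R) = 0 := by
      rw [map_natCast]; exact hn
    rwa [Ideal.Quotient.eq_zero_iff_mem, Ideal.mem_span_singleton] at this)
  set φ : B →+* Matrix ι ι (R ⧸ Ideal.span {π}) :=
    (Ideal.Quotient.mk (Ideal.span {π})).mapMatrix.comp (Algebra.leftMulMatrix c).toRingHom
    with hφ
  have hφa : ∀ x : B, ∀ i j, φ x i j = Ideal.Quotient.mk (Ideal.span {π}) (c.repr (x * c j) i) := by
    intro x i j
    simp [hφ, Algebra.leftMulMatrix_eq_repr_mul]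
  have htr : ∀ x : B, (φ x).trace = Ideal.Quotient.mk (Ideal.span {π}) (Algebra.trace R B x) := by
    intro x
    rw [Algebra.trace_eq_matrix_trace c, AddMonoidHom.map_trace]; rfl
  have hnil : IsNilpotent (φ z) := by
    apply h82_isNilpotent_of_trace_pow
    intro k
    rw [← map_pow, htr, pow_succ', Ideal.Quotient.eq_zero_iff_mem, Ideal.mem_span_singleton]
    exact hz _
  obtain ⟨k, hk⟩ := hnil
  refine ⟨k, ?_⟩
  rw [← map_pow] at hk
  have hent : ∀ i j, π ∣ c.repr (z ^ k * c j) i := by
    intro i j
    have := congrFun (congrFun hk i) j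
    rw [hφa, Matrix.zero_apply, Ideal.Quotient.eq_zero_iff_mem, Ideal.mem_span_singleton] at this
    exact this
  have h1 : ∀ j, algebraMap R B π ∣ z ^ k * c j :=
    fun j => h82_dvd_of_repr c π _ (fun i => hent i j)
  have : z ^ k = ∑ j, c.repr 1 j • (z ^ k * c j) := by
    conv_lhs => rw [← mul_one (z ^ k), ← c.sum_repr 1, Finset.mul_sum]
    refine Finset.sum_congr rfl fun j _ => ?_
    rw [mul_smul_comm]
  rw [this]
  exact Finset.dvd_sum fun j _ => h82_dvd_smul π _ _ (h1 j)

end F1

section F2

variable {R L ι : Type*} [CommRing R] [IsDomain R] [IsPrincipalIdealRing R] [Field L]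
  [Algebra R L] [Fintype ι] [DecidableEq ι]

/-- The radical of `π B`. -/
def h82J (R L : Type*) [CommRing R] [Field L] [Algebra R L] (π : R) :
    Ideal ↥(integralClosure R L) :=
  (Ideal.span {algebraMap R ↥(integralClosure R L) π}).radical

theorem h82_mem_J (π : R) (w : ↥(integralClosure R L)) :
    w ∈ h82J R L π ↔ ∃ k, algebraMap R ↥(integralClosure R L) π ∣ w ^ k := by
  unfold h82J
  constructor
  · rintro ⟨k, hk⟩
    exact ⟨k, Ideal.mem_span_singleton.mp hk⟩
  · rintro ⟨k, hk⟩
    exact ⟨k, Ideal.mem_span_singleton.mpr hk⟩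

/-- The integrality step of F2. -/
theorem h82_F2_step (hinj : Function.Injective (algebraMap R L))
    (c : Module.Basis ι R ↥(integralClosure R L)) (π : R) (hπ : Prime π)
    (hchar : ∀ m : ℕ, m ≠ 0 → ¬ π ∣ (m : R)) (y : ↥(integralClosure R L))
    (hy : ∀ w ∈ h82J R L π, π ^ 2 ∣ Algebra.trace R ↥(integralClosure R L) (y * w))
    (I : Ideal ↥(integralClosure R L))
    (hI : ∀ u ∈ I, ∀ w ∈ h82J R L π, algebraMap R ↥(integralClosure R L) π ∣ y * (u * w))
    (u : ↥(integralClosure R L)) (hu : u ∈ I) :
    algebraMap R ↥(integralClosure R L) π ∣ y * u := by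
  have hπ0 : π ≠ 0 := hπ.ne_zero
  have hπL : algebraMap R L π ≠ 0 := fun h => hπ0 (hinj (by rw [h, map_zero]))
  haveI : Module.Finite R ↥(integralClosure R L) := Module.Finite.of_basis c
  haveI hnoeth : IsNoetherian R ↥(integralClosure R L) :=
    isNoetherian_of_isNoetherianRing_of_finite R _
  -- the submodule N
  set N : Submodule R L :=
    Submodule.map ((integralClosure R L).val.toLinearMap) ((h82J R L π).restrictScalars R)
    with hN
  have hNmem : ∀ n : L, n ∈ N ↔ ∃ w ∈ h82J R L π, (w : L) = n := by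
    intro n
    rw [hN, Submodule.mem_map]
    rfl
  have hπJ : algebraMap R ↥(integralClosure R L) π ∈ h82J R L π :=
    (h82_mem_J π _).mpr ⟨1, by rw [pow_one]⟩
  have hNbot : N ≠ ⊥ := by
    intro h
    have : algebraMap R L π ∈ N := (hNmem _).mpr ⟨_, hπJ, rfl⟩
    rw [h, Submodule.mem_bot] at this
    exact hπL this
  have hNfg : N.FG := (IsNoetherian.noetherian _).map _
  set x : L := (algebraMap R L π)⁻¹ * ((y * u : ↥(integralClosure R L)) : L) with hx
  have hxN : ∀ n ∈ N, x • n ∈ N := by
    intro n hn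
    obtain ⟨w, hw, rfl⟩ := (hNmem n).mp hn
    obtain ⟨v, hv⟩ := hI u hu w hw
    have hvJ : v ∈ h82J R L π := by
      rw [h82_mem_J]
      apply h82_F1 c π hπ hchar
      intro b
      have huwb : u * w * b ∈ h82J R L π :=
        Ideal.mul_mem_right _ _ (Ideal.mul_mem_left _ _ hw)
      obtain ⟨s, hs⟩ := hy _ huwb
      have h1 : π * Algebra.trace R ↥(integralClosure R L) (v * b) = π * (π * s) := by
        rw [← smul_eq_mul, ← map_smul, Algebra.smul_def, ← mul_assoc, ← hv,
          show y * (u * w) * b = y * (u * w * b) by ring, hs]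
        ring
      exact ⟨s, mul_left_cancel₀ hπ0 h1⟩
    refine (hNmem _).mpr ⟨v, hvJ, ?_⟩
    have hv' : ((y * u : ↥(integralClosure R L)) : L) * (w : L) = algebraMap R L π * (v : L) := by
      have := congrArg (fun z : ↥(integralClosure R L) => (z : L)) hv
      simpa [mul_assoc] using this
    rw [smul_eq_mul, hx, mul_assoc, hv', inv_mul_cancel_left₀ hπL]
  have hxint : IsIntegral R x := isIntegral_of_smul_mem_submodule N hNbot hNfg x hxN
  refine ⟨⟨x, hxint⟩, ?_⟩
  apply Subtype.ext
  show ((y * u : ↥(integralClosure R L)) : L) = algebraMap R L π * x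
  rw [hx, mul_inv_cancel_left₀ hπL]

/-- **F2**: an element whose trace form against the radical `J` of `π B` is divisible by `π ^ 2`
is divisible by `π`. -/
theorem h82_F2 (hinj : Function.Injective (algebraMap R L))
    (c : Module.Basis ι R ↥(integralClosure R L)) (π : R) (hπ : Prime π)
    (hchar : ∀ m : ℕ, m ≠ 0 → ¬ π ∣ (m : R)) (y : ↥(integralClosure R L))
    (hy : ∀ w ∈ h82J R L π, π ^ 2 ∣ Algebra.trace R ↥(integralClosure R L) (y * w)) :
    algebraMap R ↥(integralClosure R L) π ∣ y := by
  haveI : Module.Finite R ↥(integralClosure R L) := Module.Finite.of_basis c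
  haveI hnoeth : IsNoetherian R ↥(integralClosure R L) :=
    isNoetherian_of_isNoetherianRing_of_finite R _
  haveI : IsNoetherianRing ↥(integralClosure R L) := isNoetherian_of_tower R hnoeth
  obtain ⟨m, hm⟩ := Ideal.exists_radical_pow_le_of_fg
    (Ideal.span {algebraMap R ↥(integralClosure R L) π}) (IsNoetherian.noetherian _)
  have hP : ∀ j, j ≤ m → ∀ u ∈ (h82J R L π) ^ (m - j),
      algebraMap R ↥(integralClosure R L) π ∣ y * u := by
    intro j
    induction j with
    | zero =>
      intro _ u hu
      have := hm hu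
      rw [Ideal.mem_span_singleton] at this
      exact this.mul_left y
    | succ j ih =>
      intro hj u hu
      have ih' := ih (by omega)
      have hmj : m - j = (m - (j + 1)) + 1 := by omega
      rw [hmj] at ih'
      refine h82_F2_step hinj c π hπ hchar y hy _ ?_ u hu
      intro u' hu' w hw
      apply ih'
      rw [pow_succ]
      exact Ideal.mul_mem_mul hu' hw
  have := hP m le_rfl 1 (by simp)
  rwa [mul_one] at this

end F2

section Prod

variable {R ι : Type*} [CommRing R] [IsDomain R] [DecidableEq ι]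

open Classical in
/-- If no factor is divisible by `π ^ 2`, the order of `π` in a product is at most the number of
factors divisible by `π`. -/
theorem h82_pow_dvd_prod (π : R) (hπ : Prime π) (a : ι → R) (ha : ∀ i, ¬ π ^ 2 ∣ a i)
    (s : Finset ι) : ∀ k : ℕ, π ^ k ∣ ∏ i ∈ s, a i → k ≤ (s.filter (fun i => π ∣ a i)).card := by
  classical
  induction s using Finset.induction_on with
  | empty =>
    intro k hk
    rcases Nat.eq_zero_or_pos k with h0 | h0
    · simp [h0]
    · exfalso
      rw [Finset.prod_empty] at hk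
      exact hπ.not_isUnit (isUnit_of_dvd_one ((dvd_pow_self π h0.ne').trans hk))
  | insert i s his ih =>
    intro k hk
    rw [Finset.prod_insert his] at hk
    by_cases hi : π ∣ a i
    · rw [Finset.filter_insert, if_pos hi, Finset.card_insert_of_notMem (by simp [his])]
      rcases Nat.eq_zero_or_pos k with h0 | h0
      · omega
      · obtain ⟨k', rfl⟩ : ∃ k', k = k' + 1 := ⟨k - 1, by omega⟩
        obtain ⟨a', ha'⟩ := hi
        have hna' : ¬ π ∣ a' := by
          rintro ⟨a'', rfl⟩
          exact ha i ⟨a'', by rw [ha']; ring⟩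
        have h1 : π ^ k' ∣ a' * ∏ i ∈ s, a i := by
          rw [ha', pow_succ', mul_assoc] at hk
          exact (mul_dvd_mul_iff_left hπ.ne_zero).mp hk
        have h2 := hπ.pow_dvd_of_dvd_mul_left k' hna' h1
        have := ih k' h2
        omega
    · rw [Finset.filter_insert, if_neg hi]
      exact ih k (hπ.pow_dvd_of_dvd_mul_left k hi hk)

end Prod

section Count

variable {R B ι : Type*} [CommRing R] [IsDomain R] [IsPrincipalIdealRing R] [CommRing B]
  [Algebra R B] [Fintype ι] [DecidableEq ι]

/-- Counting: basis vectors that are nilpotent modulo `π`, plus maximal ideals over `π`, number at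
most the rank. -/
theorem h82_count (b' : Module.Basis ι R B) (π : R) (hπ : Prime π) (T : Finset ι)
    (hT : ∀ i ∈ T, ∃ k, algebraMap R B π ∣ (b' i) ^ k)
    (Ps : Finset (Ideal B)) (hPs : ∀ P ∈ Ps, P.IsMaximal ∧ algebraMap R B π ∈ P) :
    T.card + Ps.card ≤ Fintype.card ι := by
  classical
  haveI hmax : (Ideal.span {π}).IsMaximal :=
    PrincipalIdealRing.isMaximal_of_irreducible hπ.irreducible
  letI := Ideal.Quotient.field (Ideal.span {π})
  -- the elements ε_P
  have hε : ∀ P ∈ Ps, ∃ ε : B, ε ∉ P ∧ ∀ P' ∈ Ps, P' ≠ P → ε ∈ P' := by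
    intro P hP
    have hnle : ¬ (∏ P' ∈ Ps.erase P, P') ≤ P := by
      intro hle
      obtain ⟨P', hP', hle'⟩ := ((hPs P hP).1.isPrime.prod_le).mp hle
      have hP'mem := Finset.mem_erase.mp hP'
      exact hP'mem.1 ((hPs P' hP'mem.2).1.eq_of_le (hPs P hP).1.ne_top hle')
    obtain ⟨ε, hε1, hε2⟩ := SetLike.not_le_iff_exists.mp hnle
    refine ⟨ε, hε2, fun P' hP' hne => ?_⟩
    have h1 : (∏ P'' ∈ Ps.erase P, P'') ≤ P' :=
      Ideal.prod_le_inf.trans (Finset.inf_le (Finset.mem_erase.mpr ⟨hne, hP'⟩))
    exact h1 hε1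
  choose! ε hε1 hε2 using hε
  -- the family of vectors
  set v : Ps → ((↥(Tᶜ : Finset ι)) → R ⧸ Ideal.span {π}) :=
    fun P j => Ideal.Quotient.mk (Ideal.span {π}) (b'.repr (ε P.1) j.1) with hv
  have hli : LinearIndependent (R ⧸ Ideal.span {π}) v := by
    rw [Fintype.linearIndependent_iff]
    intro g hg P₀
    -- lift g
    have hsurj := Ideal.Quotient.mk_surjective (I := Ideal.span {π})
    choose β hβ using fun P => hsurj (g P)
    set x : B := ∑ P : Ps, β P • ε P.1 with hx
    have hxc : ∀ j ∉ T, π ∣ b'.repr x j := by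
      intro j hj
      have := congrFun hg ⟨j, Finset.mem_compl.mpr hj⟩
      rw [Finset.sum_apply] at this
      simp only [Pi.smul_apply, hv, smul_eq_mul, Pi.zero_apply] at this
      rw [← Ideal.mem_span_singleton, ← Ideal.Quotient.eq_zero_iff_mem, hx, map_sum,
        Finsupp.coe_finsetSum, Finset.sum_apply, map_sum, ← this]
      refine Finset.sum_congr rfl fun P _ => ?_
      rw [map_smul, Finsupp.smul_apply, smul_eq_mul, map_mul, hβ]
    -- x lies in every P ∈ Ps
    have hxP : ∀ P ∈ Ps, x ∈ P := by
      intro P hP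
      rw [← b'.sum_repr x]
      refine Ideal.sum_mem _ fun j _ => ?_
      by_cases hj : j ∈ T
      · obtain ⟨k, hk⟩ := hT j hj
        have : (b' j) ^ k ∈ P := Ideal.mem_of_dvd _ hk (hPs P hP).2
        have := (hPs P hP).1.isPrime.mem_of_pow_mem k this
        rw [Algebra.smul_def]
        exact Ideal.mul_mem_left _ _ this
      · obtain ⟨t, ht⟩ := hxc j hj
        rw [ht, mul_smul, Algebra.smul_def]
        exact Ideal.mul_mem_right _ _ (hPs P hP).2
    -- isolate P₀
    have hP₀ := hPs P₀.1 P₀.2
    have hsplit : β P₀ • ε P₀.1 ∈ P₀.1 := by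
      have h1 : x = β P₀ • ε P₀.1 + ∑ P ∈ Finset.univ.erase P₀, β P • ε P.1 := by
        rw [hx, ← Finset.add_sum_erase _ _ (Finset.mem_univ P₀)]
      have h2 : ∑ P ∈ Finset.univ.erase P₀, β P • ε P.1 ∈ P₀.1 := by
        refine Ideal.sum_mem _ fun P hP => ?_
        rw [Algebra.smul_def]
        refine Ideal.mul_mem_left _ _ (hε2 P.1 P.2 P₀.1 P₀.2 ?_)
        intro h
        exact (Finset.mem_erase.mp hP).1 (Subtype.ext h.symm)
      have h3 := hxP P₀.1 P₀.2
      rw [h1] at h3
      exact (Ideal.add_mem_iff_left _ h2).mp h3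
    rw [Algebra.smul_def] at hsplit
    have hβP : algebraMap R B (β P₀) ∈ P₀.1 :=
      (hP₀.1.isPrime.mem_or_mem hsplit).resolve_right (hε1 P₀.1 P₀.2)
    -- comap is span π
    have hcomap : Ideal.span {π} = Ideal.comap (algebraMap R B) P₀.1 := by
      apply hmax.eq_of_le
      · exact (Ideal.comap_ne_top _ hP₀.1.ne_top)
      · rw [Ideal.span_singleton_le_iff_mem]
        exact hP₀.2
    have : β P₀ ∈ Ideal.span {π} := by rw [hcomap]; exact hβP
    rw [← hβ P₀]
    exact Ideal.Quotient.eq_zero_iff_mem.mpr this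
  have h1 := hli.fintype_card_le_finrank
  rw [Module.finrank_fintype_fun_eq_card, Fintype.card_coe, Fintype.card_coe,
    Finset.card_compl] at h1
  have h2 : T.card ≤ Fintype.card ι := Finset.card_le_univ T
  omega

end Count

section Main

/-- The discriminant of an integral basis is nonzero. -/
theorem h82_discr_ne_zero (R : Type uR) (K : Type uK) (L : Type uL) [CommRing R] [IsDomain R]
    [Field K] [Field L]
    [Algebra R K] [IsFractionRing R K] [Algebra K L] [Algebra R L] [IsScalarTower R K L]
    [FiniteDimensional K L] [Algebra.IsSeparable K L]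
    (ι : Type uiot) [Fintype ι] [DecidableEq ι] (c : Module.Basis ι R ↥(integralClosure R L)) :
    Algebra.discr R c ≠ 0 := by
  haveI : IsLocalization (Algebra.algebraMapSubmonoid ↥(integralClosure R L) (nonZeroDivisors R)) L :=
    IsIntegralClosure.isLocalization R K L ↥(integralClosure R L)
  have h1 := Algebra.discr_localizationLocalization R (Rₘ := K) (nonZeroDivisors R) L c
  have h2 := Algebra.discr_not_zero_of_basis K
    (Module.Basis.localizationLocalization K (nonZeroDivisors R) L c)
  intro h0
  rw [h1, h0, map_zero] at h2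
  exact h2 rfl

open Classical in
/-- **Tame discriminant bound**, the residue-degree hypothesis is not needed. -/
theorem h82_tameDiscr (R : Type uR) (K : Type uK) (L : Type uL) [CommRing R] [IsDomain R] [IsPrincipalIdealRing R]
    [Field K] [Field L]
    [Algebra R K] [IsFractionRing R K] [Algebra K L] [Algebra R L] [IsScalarTower R K L]
    [FiniteDimensional K L] [Algebra.IsSeparable K L]
    (ι : Type uiot) [Fintype ι] [DecidableEq ι] (c : Module.Basis ι R ↥(integralClosure R L))
    (π : R) (hπ : Prime π) (hchar : ∀ m : ℕ, m ≠ 0 → ¬ π ∣ (m : R)) :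
    ¬ π ^ (Fintype.card ι -
        Set.ncard {P : Ideal ↥(integralClosure R L) |
          P.IsMaximal ∧ algebraMap R ↥(integralClosure R L) π ∈ P} + 1) ∣ Algebra.discr R c := by
  have hinj : Function.Injective (algebraMap R L) := by
    rw [IsScalarTower.algebraMap_eq R K L]
    exact (algebraMap K L).injective.comp (IsFractionRing.injective R K)
  have hd : Algebra.discr R c ≠ 0 := h82_discr_ne_zero R K L ι c
  -- the linear map g
  set g : ↥(integralClosure R L) →ₗ[R] (ι → R) :=
    LinearMap.pi fun i => (Algebra.traceForm R ↥(integralClosure R L)) (c i) with hg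
  have hgapp : ∀ b i, g b i = Algebra.trace R ↥(integralClosure R L) (c i * b) := by
    intro b i
    rfl
  have hGmat : LinearMap.toMatrix c (Pi.basisFun R ι) g = Algebra.traceMatrix R c := by
    ext i j
    rw [LinearMap.toMatrix_apply, Pi.basisFun_repr, hgapp, Algebra.traceMatrix_apply,
      Algebra.traceForm_apply]
  have hdet : (LinearMap.toMatrix c (Pi.basisFun R ι) g).det ≠ 0 := by
    rw [hGmat, ← Algebra.discr_def]; exact hd
  have hginj : Function.Injective g := by
    rw [injective_iff_map_eq_zero]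
    intro b hb
    have h1 := LinearMap.toMatrix_mulVec_repr c (Pi.basisFun R ι) g b
    rw [hb, map_zero] at h1
    have h2 := Matrix.eq_zero_of_mulVec_eq_zero hdet h1
    exact c.repr.map_eq_zero_iff.mp (by ext i; rw [h2]; rfl)
  have hrank : Module.finrank R ↥(LinearMap.range g) = Module.finrank R (ι → R) := by
    rw [LinearMap.finrank_range_of_inj hginj, Module.finrank_eq_card_basis c,
      Module.finrank_fintype_fun_eq_card]
  obtain ⟨bM, a, bN, hsnf⟩ :=
    Submodule.exists_smith_normal_form_of_rank_eq (Pi.basisFun R ι) hrank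
  set e : ↥(integralClosure R L) ≃ₗ[R] ↥(LinearMap.range g) :=
    LinearEquiv.ofInjective g hginj with he
  set b' : Module.Basis ι R ↥(integralClosure R L) := bN.map e.symm with hb'
  have hgb' : ∀ i, g (b' i) = a i • bM i := by
    intro i
    rw [← hsnf i, hb', Module.Basis.map_apply]
    have := LinearEquiv.ofInjective_apply g (h := hginj) (e.symm (bN i))
    rw [← this, ← he, LinearEquiv.apply_symm_apply]
  -- matrix identity
  have hdiag : LinearMap.toMatrix b' bM g = Matrix.diagonal a := by
    ext i j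
    rw [LinearMap.toMatrix_apply, hgb', map_smul, Module.Basis.repr_self, Finsupp.smul_apply,
      Finsupp.single_apply, Matrix.diagonal_apply]
    by_cases hij : i = j
    · subst hij; simp
    · rw [if_neg (Ne.symm hij), if_neg hij, smul_zero]
  have hfact := basis_toMatrix_mul_linearMap_toMatrix_mul_basis_toMatrix
    c b' (Pi.basisFun R ι) bM g
  have hdvd : Algebra.discr R c ∣ ∏ i, a i := by
    have h1 : Algebra.discr R c
        = (Pi.basisFun R ι).det bM * (∏ i, a i) * b'.det c := by
      rw [Algebra.discr_def, ← hGmat, ← hfact, hdiag, Matrix.det_mul, Matrix.det_mul,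
        Matrix.det_diagonal, Module.Basis.det_apply, Module.Basis.det_apply]
    rw [h1]
    exact ((Module.Basis.isUnit_det b' c).mul_right_dvd).mpr
      (((Module.Basis.isUnit_det (Pi.basisFun R ι) bM).mul_left_dvd).mpr dvd_rfl)
  -- trace divisibility
  have htr : ∀ i b, a i ∣ Algebra.trace R ↥(integralClosure R L) (b' i * b) := by
    intro i b
    have h1 : ∀ j, Algebra.trace R ↥(integralClosure R L) (c j * b' i) = a i * bM i j := by
      intro j
      rw [← hgapp, hgb', Pi.smul_apply, smul_eq_mul]
    rw [← c.sum_repr b, Finset.mul_sum, map_sum]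
    refine Finset.dvd_sum fun j _ => ?_
    rw [mul_smul_comm, map_smul, smul_eq_mul, mul_comm (b' i) (c j), h1]
    exact ⟨(c.repr b) j * bM i j, by ring⟩
  -- Claim 1
  have hcl1 : ∀ i, ¬ π ^ 2 ∣ a i := by
    intro i hi
    have h1 : ∀ b, π ^ 2 ∣ Algebra.trace R ↥(integralClosure R L) (b' i * b) :=
      fun b => hi.trans (htr i b)
    have h2 : algebraMap R ↥(integralClosure R L) π ∣ b' i :=
      h82_F2 hinj c π hπ hchar (b' i) (fun w _ => h1 w)
    have h3 := h82_repr_dvd b' π (b' i) h2 i
    rw [Module.Basis.repr_self, Finsupp.single_eq_same] at h3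
    exact hπ.not_isUnit (isUnit_of_dvd_one h3)
  -- the set T
  set T : Finset ι := Finset.univ.filter (fun i => π ∣ a i) with hT
  have hTJ : ∀ i ∈ T, ∃ k, algebraMap R ↥(integralClosure R L) π ∣ (b' i) ^ k := by
    intro i hi
    have hi' : π ∣ a i := (Finset.mem_filter.mp hi).2
    exact h82_F1 c π hπ hchar (b' i) (fun b => hi'.trans (htr i b))
  -- counting
  have hcount : T.card + Set.ncard {P : Ideal ↥(integralClosure R L) |
          P.IsMaximal ∧ algebraMap R ↥(integralClosure R L) π ∈ P} ≤ Fintype.card ι := by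
    by_cases hfin : Set.Finite {P : Ideal ↥(integralClosure R L) |
          P.IsMaximal ∧ algebraMap R ↥(integralClosure R L) π ∈ P}
    · rw [Set.ncard_eq_toFinset_card _ hfin]
      apply h82_count b' π hπ T hTJ
      intro P hP
      exact (Set.Finite.mem_toFinset hfin).mp hP
    · rw [Set.Infinite.ncard hfin, add_zero]
      exact Finset.card_le_univ T
  intro hdiv
  have h1 := h82_pow_dvd_prod π hπ a hcl1 Finset.univ _ (hdiv.trans hdvd)
  rw [← hT] at h1
  omega

end Main

/-- **IG-P2**: the tame discriminant bound. -/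
theorem stmt_tameDiscr : H34.Stmt_tameDiscr.{uK, uR, uL, uiot} := by
  intro R K L _ _ _ _ _ _ _ _ _ _ _ _ ι _ _ c π hπ hchar _
  exact h82_tameDiscr R K L ι c π hπ hchar

end Fermat.Agent.S27.REDu.H82
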