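import Fermat.Agent.S27.REDu.H34_ChartNil
import Fermat.Agent.S27.REDu.H82_TameDiscr
import Fermat.Agent.S27.REDu.H82_RootRed

/-!
# G-RED package IG (helper34): the chart theorem

`stmt_chartNormal_of_notDvdDet : Stmt_notDvdDet.{uC, uF, uk, uFt} → Stmt_chartNormal.{uC, uF, uk, uFt}`.

Inputs: `H82.stmt_rootRed` (reduction of roots), `H82.h82_tameDiscr` (tame discriminant bound),
`span_eq_of_discr_bound_order` (IG-core), `exists_good_basis`, `exists_discr_lift` (S6),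
`exists_pow_eq_smul` (NIL), and (S5) = `Stmt_notDvdDet.{uC, uF, uk, uFt}`.
-/

set_option autoImplicit false

universe uC uCf uK uR uF uL uE uk ukap uFp uFt uFtp uiot uEp uKp ux3b1

noncomputable section

open Polynomial IntermediateField Module Matrix
open scoped IntermediateField.algebraAdjoinAdjoin nonZeroDivisors

namespace Fermat.Agent.S27.REDu.H34

variable {C : Type uC} {F : Type uF} {k : Type uk} {Ft : Type uFt} [Field C] [Field F] [Algebra C F] [Field k] [Field Ft] [Algebra k Ft]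

section Abstract

variable {x : F}

/-- Finitely many points lie over `x = ρ`. -/
theorem finite_ptsOver (hxC : Transcendental C x) {m : ℕ}
    (c : Module.Basis (Fin m) ↥(Algebra.adjoin C {x}) ↥(Bx (C := C) x)) (ρ : C) :
    (ptsOver x ρ).Finite := by
  classical
  have : IsPrincipalIdealRing ↥(Algebra.adjoin C {x}) := isPrincipalIdealRing_adjoin hxC
  by_contra hinf
  obtain ⟨t, ht, htc⟩ := Set.Infinite.exists_subset_card_eq hinf (m + 1)
  have h := H82.h82_count (R := ↥(Algebra.adjoin C {x})) (B := ↥(Bx (C := C) x)) c (piRho x ρ)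
    (prime_piRho hxC ρ) (∅ : Finset (Fin m)) (fun i hi => absurd hi (Finset.notMem_empty i)) t
    (fun P hP => (mem_ptsOver_iff x ρ P).1 (ht hP))
  rw [htc, Finset.card_empty, Fintype.card_fin] at h
  omega

theorem not_piRho_dvd_natCast [CharZero C] (hxC : Transcendental C x) (ρ : C) (n : ℕ)
    (hn : n ≠ 0) : ¬ piRho x ρ ∣ (n : ↥(Algebra.adjoin C {x})) := by
  rw [← evAt_eq_zero_iff hxC, map_natCast]
  exact_mod_cast hn

/-- The tame bound at `x = ρ`. -/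
theorem not_pow_dvd_discr [CharZero C] (hxC : Transcendental C x) [FiniteDimensional ↥C⟮x⟯ F]
    [Algebra.IsSeparable ↥C⟮x⟯ F] {m : ℕ}
    (c : Module.Basis (Fin m) ↥(Algebra.adjoin C {x}) ↥(Bx (C := C) x)) (ρ : C) :
    ¬ piRho x ρ ^ (m - (ptsOver x ρ).ncard + 1) ∣ Algebra.discr ↥(Algebra.adjoin C {x}) c := by
  have : IsPrincipalIdealRing ↥(Algebra.adjoin C {x}) := isPrincipalIdealRing_adjoin hxC
  have h := H82.h82_tameDiscr ↥(Algebra.adjoin C {x}) ↥C⟮x⟯ F (Fin m) c (piRho x ρ)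
    (prime_piRho hxC ρ) (not_piRho_dvd_natCast hxC ρ)
  have hset : {P : Ideal ↥(integralClosure ↥(Algebra.adjoin C {x}) F) |
      P.IsMaximal ∧ algebraMap ↥(Algebra.adjoin C {x}) ↥(integralClosure ↥(Algebra.adjoin C {x}) F)
        (piRho x ρ) ∈ P} = ptsOver x ρ := by
    ext P
    exact (mem_ptsOver_iff x ρ P).symm
  rw [hset, Fintype.card_fin] at h
  exact h

end Abstract

/-- (S5), to be supplied: the transition matrix from a basis of `B` to the lifted good basis has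
determinant prime to `x - ρ` for `ρ ∈ O`. -/
def Stmt_notDvdDet : Prop :=
  ∀ (C : Type uC) (F : Type uF) (k : Type uk) (Ft : Type uFt) [Field C] [Field F] [Algebra C F] [Field k] [Field Ft] [Algebra k Ft]
    [CharZero C] (S : RedSetting C F k Ft) (x : F) (hx : x ∈ S.V)
    (_ : Transcendental k (S.red ⟨x, hx⟩)) [FiniteDimensional ↥C⟮x⟯ F]
    (_ : Module.finrank ↥k⟮S.red ⟨x, hx⟩⟯ Ft = Module.finrank ↥C⟮x⟯ F)
    (m : ℕ) (bF : Module.Basis (Fin m) ↥C⟮x⟯ F) (hbV : ∀ i, bF i ∈ S.V)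
    (hbB : ∀ i, IsIntegral ↥(Algebra.adjoin C {x}) (bF i))
    (bt : Module.Basis (Fin m) ↥k⟮S.red ⟨x, hx⟩⟯ Ft) (_ : ∀ i, bt i = S.red ⟨bF i, hbV i⟩)
    (_ : ∀ y ∈ S.Bbar hx,
      y ∈ Submodule.span ↥(Algebra.adjoin k {S.red ⟨x, hx⟩}) (Set.range bt))
    (c : Module.Basis (Fin m) ↥(Algebra.adjoin C {x}) ↥(Bx (C := C) x))
    (P : Matrix (Fin m) (Fin m) ↥(Algebra.adjoin C {x}))
    (_ : ∀ i, (⟨bF i, hbB i⟩ : ↥(Bx (C := C) x)) = ∑ j, P i j • c j)
    (ρ : C) (_ : ρ ∈ S.O), ¬ piRho x ρ ∣ P.det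

namespace RedSetting

variable {S : RedSetting C F k Ft} {x : F} (hx : x ∈ S.V)

/-- The chart theorem, from (S5). -/
theorem chartNormal_aux [IsAlgClosed C] [CharZero C] [IsAlgClosed k] (hND : Stmt_notDvdDet.{uC, uF, uk, uFt})
    (hxt : Transcendental k (S.red ⟨x, hx⟩)) [FiniteDimensional ↥C⟮x⟯ F]
    (hdeg : Module.finrank ↥k⟮S.red ⟨x, hx⟩⟯ Ft = Module.finrank ↥C⟮x⟯ F)
    [Algebra.IsSeparable ↥k⟮S.red ⟨x, hx⟩⟯ Ft]
    (hD : ∀ ρ ρ' : ↥(S.V.comap (algebraMap C F)), IsBranchValue x (ρ : C) →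
      IsBranchValue x (ρ' : C) → S.resO ρ = S.resO ρ' → ρ = ρ')
    (y : Ft) (hy : IsIntegral ↥(Algebra.adjoin k {S.red ⟨x, hx⟩}) y) :
    ∃ f : ↥S.V, IsIntegral ↥(Algebra.adjoin C {x}) (f : F) ∧ S.red f = y := by
  classical
  have hxC := transcendental_x hx hxt
  have hfdt := finiteDimensional_red hx hdeg
  have hpidt : IsPrincipalIdealRing ↥(Algebra.adjoin k {S.red ⟨x, hx⟩}) :=
    isPrincipalIdealRing_adjoin hxt
  have hpid : IsPrincipalIdealRing ↥(Algebra.adjoin C {x}) := isPrincipalIdealRing_adjoin hxC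
  have hcz : CharZero ↥C⟮x⟯ := charZero_of_injective_algebraMap (algebraMap C ↥C⟮x⟯).injective
  have hsepC : Algebra.IsSeparable ↥C⟮x⟯ F := inferInstance
  obtain ⟨m, bF, hbV, bt, hbB, hbt, hspan⟩ := exists_good_basis hx hxt hdeg
  obtain ⟨c, P, hP, hdisc⟩ :=
    exists_transition (R := ↥(Algebra.adjoin C {x})) (K := ↥C⟮x⟯) (L := F) bF hbB
  obtain ⟨D₀, hD₀, hd, hD₀ne⟩ := exists_discr_lift hx hxt bF hbV bt hbt _ hdisc
  have hm : Module.finrank ↥C⟮x⟯ F = m := by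
    rw [Module.finrank_eq_card_basis bF, Fintype.card_fin]
  have hdet : ∀ ρ : ↥S.O, ¬ piRho x (ρ : C) ∣ P.det := fun ρ =>
    hND C F k Ft S x hx hxt hdeg m bF hbV hbB bt hbt hspan c P hP ρ ρ.2
  have hD₀0 : D₀ ≠ 0 := by
    rintro rfl
    exact hD₀ne (Polynomial.map_zero _)
  -- roots of `D₀` in `O` are branch values
  have hroot_dvd : ∀ (ρ : ↥S.O) (N : ℕ), (Polynomial.X - Polynomial.C ρ) ^ N ∣ D₀ →
      piRho x (ρ : C) ^ N ∣ Algebra.discr ↥(Algebra.adjoin C {x}) c := by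
    intro ρ N hN
    have h1 : piRho x (ρ : C) ^ N ∣ P.det ^ 2 * Algebra.discr ↥(Algebra.adjoin C {x}) c := by
      rw [← hD₀, psiR_eq, pow_dvd_polyEquiv_iff]
      have h2 := Polynomial.map_dvd S.O.subtype hN
      rwa [Polynomial.map_pow, Polynomial.map_sub, Polynomial.map_X, Polynomial.map_C] at h2
    refine (prime_piRho hxC (ρ : C)).pow_dvd_of_dvd_mul_left N ?_ h1
    intro h3
    exact hdet ρ ((prime_piRho hxC (ρ : C)).dvd_of_dvd_pow h3)
  have hbranch : ∀ ρ : ↥S.O, D₀.IsRoot ρ → IsBranchValue x (ρ : C) := by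
    intro ρ hρ
    have h1 := hroot_dvd ρ 1 (by rw [pow_one]; exact Polynomial.dvd_iff_isRoot.2 hρ)
    have h2 := not_pow_dvd_discr hxC c (ρ : C)
    unfold IsBranchValue
    rw [hm]
    by_contra hlt
    rw [not_lt] at hlt
    rw [Nat.sub_eq_zero_of_le hlt, zero_add] at h2
    exact h2 h1
  have hbtint : ∀ i, IsIntegral ↥(Algebra.adjoin k {S.red ⟨x, hx⟩}) (bt i) := by
    intro i
    rw [hbt i]
    exact red_isIntegral hx hxt hdeg _ (hbB i) (hbV i)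
  -- the main claim
  have hmain : ∀ y : Ft, IsIntegral ↥(Algebra.adjoin k {S.red ⟨x, hx⟩}) y →
      y ∈ Submodule.span ↥(Algebra.adjoin k {S.red ⟨x, hx⟩}) (Set.range bt) := by
    refine span_eq_of_discr_bound_order (R := ↥(Algebra.adjoin k {S.red ⟨x, hx⟩}))
      (K := ↥k⟮S.red ⟨x, hx⟩⟯) (L := Ft) bt hbtint (S.psiT hx D₀) hd ?_
    intro π hπ hπd
    obtain ⟨γ, a, ha, rfl⟩ := exists_eq_of_prime hxt π hπ
    have hdvdπ : piRho (S.red ⟨x, hx⟩) γ ∣
        algebraMap k ↥(Algebra.adjoin k {S.red ⟨x, hx⟩}) a * piRho (S.red ⟨x, hx⟩) γ :=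
      Dvd.intro_left _ rfl
    have hγroot : (D₀.map S.resO).IsRoot γ := by
      rw [← dvd_polyEquiv_iff hxt, ← psiT_eq hx hxt]
      exact hdvdπ.trans hπd
    obtain ⟨ρ₀, rfl, hρroot, hmult⟩ := H82.stmt_rootRed C k S.O S.resO S.resO_surj
      S.resO_eq_zero_iff D₀ hD₀ne γ hγroot
    have hmult' := hmult (fun ρ' hρ' hroot' =>
      hD ρ' ρ₀ (hbranch ρ' hroot') (hbranch ρ₀ hρroot) hρ')
    -- enumerate the points
    have hfin := finite_ptsOver hxC c (ρ₀ : C)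
    have : Finite ↥(ptsOver x (ρ₀ : C)) := hfin
    set r := (ptsOver x (ρ₀ : C)).ncard with hr
    have hcard : Nat.card ↥(ptsOver x (ρ₀ : C)) = r := Nat.card_coe_set_eq _
    let e : ↥(ptsOver x (ρ₀ : C)) ≃ Fin r := (Finite.equivFin _).trans (finCongr hcard)
    let pt : Fin r → Ideal ↥(Bx (C := C) x) := fun t => ((e.symm t : ↥(ptsOver x (ρ₀ : C))) : _)
    have hpt : ∀ t, pt t ∈ ptsOver x (ρ₀ : C) := fun t => (e.symm t).2
    have hall : ∀ Q ∈ ptsOver x (ρ₀ : C), ∃ t, pt t = Q := fun Q hQ =>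
      ⟨e ⟨Q, hQ⟩, by simp [pt]⟩
    let Λ : Matrix (Fin r) (Fin m) ↥(Algebra.adjoin k {S.red ⟨x, hx⟩}) :=
      Matrix.of fun t i => algebraMap k ↥(Algebra.adjoin k {S.red ⟨x, hx⟩})
        (S.resO ⟨evP (hpt t) ⟨bF i, hbB i⟩,
          evP_mem_O hx hxt hdeg ρ₀.2 (hpt t) ⟨bF i, hbB i⟩ (hbV i)⟩)
    refine ⟨r, Λ, ?_, ?_⟩
    · intro v hv
      obtain ⟨n, z, hz, hpow⟩ := exists_pow_eq_smul hx hxt hdeg (fun i => bF i) hbV hbB (ρ₀ : C)
        ρ₀.2 pt hpt hall v (fun t => hdvdπ.trans (hv t))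
      refine ⟨n, algebraMap k ↥(Algebra.adjoin k {S.red ⟨x, hx⟩}) a⁻¹ • z, hz.smul _, ?_⟩
      have h1 : (∑ i, v i • bt i) = ∑ i, v i • S.red ⟨bF i, hbV i⟩ :=
        Finset.sum_congr rfl fun i _ => by rw [hbt i]
      rw [h1, hpow, smul_smul]
      congr 1
      rw [mul_comm, ← mul_assoc, ← map_mul, inv_mul_cancel₀ ha, map_one, one_mul]
    · intro hpow
      rw [Fintype.card_fin] at hpow
      have h1 : piRho (S.red ⟨x, hx⟩) (S.resO ρ₀) ^ (m - r + 1) ∣ S.psiT hx D₀ :=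
        (pow_dvd_pow_of_dvd hdvdπ _).trans hpow
      rw [psiT_eq hx hxt, pow_dvd_polyEquiv_iff, ← Polynomial.le_rootMultiplicity_iff hD₀ne,
        hmult', Polynomial.le_rootMultiplicity_iff hD₀0] at h1
      exact not_pow_dvd_discr hxC c (ρ₀ : C) (hroot_dvd ρ₀ _ h1)
  -- conclusion
  have hle : Submodule.span ↥(Algebra.adjoin k {S.red ⟨x, hx⟩}) (Set.range bt) ≤ S.Bbar hx := by
    rw [Submodule.span_le]
    rintro _ ⟨i, rfl⟩
    exact (mem_Bbar hx _).2 ⟨bF i, hbV i, hbB i, (hbt i).symm⟩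
  obtain ⟨f, hf, hfi, hfr⟩ := (mem_Bbar hx y).1 (hle (hmain y hy))
  exact ⟨⟨f, hf⟩, hfi, hfr⟩

end RedSetting

/-- **Chart theorem** (modulo (S5)). -/
theorem stmt_chartNormal_of_notDvdDet (hND : Stmt_notDvdDet.{uC, uF, uk, uFt}) : Stmt_chartNormal.{uC, uF, uk, uFt} := by
  intro C F k Ft _ _ _ _ _ _ _ _ _ S x hx hxt hfin hdeg hsep hD y hy
  exact RedSetting.chartNormal_aux hx hND hxt hdeg hD y hy

end Fermat.Agent.S27.REDu.H34
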