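import Fermat.Agent.S27.REDu.H79_ConsC4
import Fermat.Agent.S27.REDu.H51_Det

/-!
# G-RED package CONS, C5 (helper79): the pointwise inequality

`stmt_C5 : Stmt_C5.{uC, uF, uk, uFt}`: for a Gauss unit `f ∈ R = B ∩ V` with divisor `D` and a place `Q` of `Ft`
finite over `xt`:  `ord_Q (red f) ≤ Σ_{P in the chart, r P = Q} ord_P f`.

Proof (helper10's C5): for every zero `P` of `f` finite over `x` choose `g_P ∈ R` vanishing at `P`
with `ord_Q (red g_P) = 1` if `P` is in the chart and `r P = Q`, and `= 0` otherwise.  Then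
`g = Π g_P ^ ord_P f` is divisible by `f` in `R`.
-/

set_option autoImplicit false
set_option linter.style.haveILetI false

universe uC uCf uK uR uF uL uE uk ukap uFp uFt uFtp uiot uEp uKp ux3b1

noncomputable section

open AlgebraicCurve IsDedekindDomain WithZero IntermediateField
open scoped IntermediateField.algebraAdjoinAdjoin

namespace Fermat.Agent.S27.REDu.H79

open Fermat.Agent.S27.REDu.H34 Fermat.Agent.S27.REDu.H51

section C5

variable {C : Type uC} {F : Type uF} {k : Type uk} {Ft : Type uFt} [Field C] [Field F] [Algebra C F] [Field k] [Field Ft] [Algebra k Ft]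
variable (S : RedSetting C F k Ft) {x : F} (hx : x ∈ S.V)

/-- A constant outside `O` has its inverse in the maximal ideal of `O`. -/
theorem exists_inv_of_not_mem {a : C} (ha : algebraMap C F a ∉ S.V) :
    ∃ b : ↥S.O, (b : C) = a⁻¹ ∧ S.resO b = 0 := by
  have hinv : algebraMap C F a⁻¹ ∈ S.V := by
    rw [map_inv₀]
    exact (S.V.mem_or_inv_mem _).resolve_left ha
  refine ⟨⟨a⁻¹, hinv⟩, rfl, ?_⟩
  rw [S.resO_eq_zero_iff]
  rintro ⟨u, hu⟩
  apply ha
  have ha0 : a ≠ 0 := by
    rintro rfl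
    apply ha
    rw [map_zero]
    exact zero_mem _
  have h1 : ((u⁻¹ : (↥S.O)ˣ) : ↥S.O) * ⟨a⁻¹, hinv⟩ = 1 := by
    rw [← hu]
    exact u.inv_mul
  have h2 : (((u⁻¹ : (↥S.O)ˣ) : ↥S.O) : C) * a⁻¹ = 1 := congrArg Subtype.val h1
  have h3 : (((u⁻¹ : (↥S.O)ˣ) : ↥S.O) : C) = a := (mul_inv_eq_one₀ ha0).1 h2
  have h4 := ((u⁻¹ : (↥S.O)ˣ) : ↥S.O).2
  rw [h3] at h4
  exact h4

/-- Case (i): a place finite over `x` outside the chart: `g = 1 - x / x(P)`. -/
theorem exists_g_out [IsAlgClosed C] (hx : x ∈ S.V) (hxC : Transcendental C x)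
    [FiniteDimensional C⟮x⟯ F] (P : Place C F) (hxP : x ∈ P.toValuationSubring) (hP : ¬ InChart S x P) :
    ∃ g : ↥S.V, IsIntegral ↥(Algebra.adjoin C {x}) (g : F) ∧ OrdGe P 1 (g : F) ∧
      S.red g = 1 := by
  have hdeg : P.deg = 1 := Fermat.Agent.S24.ff_deg_eq_one x hxC P
  obtain ⟨a, ha⟩ := exists_value P hdeg ((ordGe_zero_iff_mem P x).2 hxP)
  have haV : algebraMap C F a ∉ S.V := fun h => hP ⟨a, h, ha⟩
  obtain ⟨b, hb, hb0⟩ := exists_inv_of_not_mem S haV
  have ha0 : a ≠ 0 := by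
    rintro rfl
    apply haV
    rw [map_zero]
    exact zero_mem _
  refine ⟨1 - S.inclO b * ⟨x, hx⟩, ?_, ?_, ?_⟩
  · have : ((1 - S.inclO b * ⟨x, hx⟩ : ↥S.V) : F) = 1 - algebraMap C F (b : C) * x := rfl
    rw [this]
    exact isIntegral_one.sub ((isIntegral_const x _).mul (isIntegral_gen x))
  · have : ((1 - S.inclO b * ⟨x, hx⟩ : ↥S.V) : F)
        = algebraMap C F (-a⁻¹) * (x - algebraMap C F a) := by
      show 1 - algebraMap C F (b : C) * x = _
      rw [hb, map_neg, map_inv₀]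
      have : algebraMap C F a ≠ 0 := by
        rwa [ne_eq, map_eq_zero_iff _ (algebraMap C F).injective]
      field_simp
      ring
    rw [this]
    have := (ordGe_algebraMap P (-a⁻¹)).mul ha
    simpa using this
  · rw [map_sub, map_mul, S.red_inclO, hb0, map_one, map_zero, zero_mul, sub_zero]

/-- Cases (ii), (iii): lift of an element of `Bt` vanishing at the reduction of `P`. -/
theorem exists_g_lift (hN : ChartNormal S x hx) (hI : ChartIntegral S x hx)
    (P : Place C F) (hP : InChart S x P) (Q' : Place k Ft) (hPQ : RedTo S x hx P Q')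
    (b : Ft) (hb : IsIntegral ↥(Algebra.adjoin k {S.red ⟨x, hx⟩}) b) (hbQ : OrdGe Q' 1 b) :
    ∃ g : ↥S.V, IsIntegral ↥(Algebra.adjoin C {x}) (g : F) ∧ OrdGe P 1 (g : F) ∧
      S.red g = b := by
  obtain ⟨t, ht, htb⟩ := hN b hb
  obtain ⟨a, ha⟩ := (hI t ht).2 P hP
  have h1 := hPQ.2 t ht a ha
  rw [htb] at h1
  have h2 : OrdGe Q' 1 (algebraMap k Ft (S.resO a)) := by
    have := hbQ.sub h1
    rwa [sub_sub_cancel] at this
  have h3 : S.resO a = 0 := const_eq_zero_of_ordGe_one Q' _ h2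
  refine ⟨t - S.inclO a, ?_, ha, ?_⟩
  · have : ((t - S.inclO a : ↥S.V) : F) = (t : F) - algebraMap C F (a : C) := rfl
    rw [this]
    exact ht.sub (isIntegral_const x _)
  · rw [map_sub, S.red_inclO, h3, map_zero, sub_zero, htb]

open Classical in
/-- The functions `g_P`. -/
theorem exists_gP [IsAlgClosed C] (G : GoodChart S x hx) (hI : ChartIntegral S x hx)
    (r : Place C F → Place k Ft) (hr : ∀ P, InChart S x P → RedTo S x hx P (r P))
    (Q : Place k Ft) (hQ : S.red ⟨x, hx⟩ ∈ Q.toValuationSubring)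
    (P : Place C F) (hxP : x ∈ P.toValuationSubring) :
    ∃ g : ↥S.V, IsIntegral ↥(Algebra.adjoin C {x}) (g : F) ∧ OrdGe P 1 (g : F) ∧
      S.red g ≠ 0 ∧ Q.ord (S.red g) = if InChart S x P ∧ r P = Q then 1 else 0 := by
  haveI := G.fin
  haveI := G.sep
  haveI := G.finite_red
  haveI := G.sept
  have hxC : Transcendental C x := RedSetting.transcendental_x hx G.transc
  haveI := isDedekind_Bx (K := k) (S.red ⟨x, hx⟩) G.transc
  haveI := isFractionRing_Bx (K := k) (F := Ft) (S.red ⟨x, hx⟩)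
  obtain ⟨wQ, hwQ⟩ := exists_eq_ofH_of_mem (S.red ⟨x, hx⟩) G.transc Q hQ
  by_cases hP : InChart S x P
  · by_cases hrQ : r P = Q
    · obtain ⟨b, -, hb1⟩ := exists_ord_eq_one (K := k) (F := Ft) wQ
      rw [← hwQ] at hb1
      have hrP : RedTo S x hx P Q := hrQ ▸ hr P hP
      obtain ⟨g, hg1, hg2, hg3⟩ := exists_g_lift S hx G.normal hI P hP Q hrP
        (algebraMap _ Ft b) b.2 (Or.inr hb1.ge)
      refine ⟨g, hg1, hg2, ?_, ?_⟩
      · rw [hg3]
        exact ne_zero_of_ord_ne_zero Q (by rw [hb1]; norm_num)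
      · rw [hg3, if_pos ⟨hP, hrQ⟩]
        exact hb1
    · have hrP := hr P hP
      obtain ⟨w', hw'⟩ := exists_eq_ofH_of_mem (S.red ⟨x, hx⟩) G.transc (r P) hrP.1
      have hne : wQ ≠ w' := by
        rintro rfl
        exact hrQ (hw'.trans hwQ.symm)
      obtain ⟨b, hb', hbQ⟩ := exists_mem_not_mem_of_ne hne
      have h1 : OrdGe (r P) 1 (algebraMap _ Ft b) := by
        rw [hw']
        exact (ordGe_one_algebraMap_iff (K := k) (F := Ft) w' b).2 hb'
      obtain ⟨g, hg1, hg2, hg3⟩ := exists_g_lift S hx G.normal hI P hP (r P) hrP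
        (algebraMap _ Ft b) b.2 h1
      have h0 : Q.ord (algebraMap _ Ft b) = 0 := by
        rw [hwQ]
        exact ord_eq_zero_of_not_mem (K := k) (F := Ft) wQ hbQ
      refine ⟨g, hg1, hg2, ?_, ?_⟩
      · rw [hg3]
        intro h
        apply hbQ
        have : b = 0 := Subtype.ext h
        rw [this]
        exact zero_mem _
      · rw [hg3, if_neg (fun h => hrQ h.2)]
        exact h0
  · obtain ⟨g, hg1, hg2, hg3⟩ := exists_g_out S hx hxC P hxP hP
    refine ⟨g, hg1, hg2, by rw [hg3]; exact one_ne_zero, ?_⟩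
    rw [hg3, if_neg (fun h => hP h.1)]
    exact Q.ord_one

open Classical in
/-- **C5**: the pointwise inequality. -/
theorem stmt_C5 : Stmt_C5.{uC, uF, uk, uFt} := by
  intro C F k Ft _ _ _ _ _ _ _ _ S x hx G hI r hr f hfu hfint D hD Q hQ
  haveI := G.fin
  haveI := G.sep
  have hxC : Transcendental C x := RedSetting.transcendental_x hx G.transc
  have hf0 : (f : F) ≠ 0 := by
    intro h
    have : f = 0 := Subtype.ext h
    rw [this] at hfu
    exact not_isUnit_zero hfu
  choose! g hg1 hg2 hg3 hg4 using exists_gP S hx G hI r hr Q hQ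
  -- the finite zeros of `f`
  set Zf : Finset (Place C F) := D.support.filter (fun P => x ∈ P.toValuationSubring) with hZf
  have hZfin : ∀ P ∈ Zf, x ∈ P.toValuationSubring := fun P hP => (Finset.mem_filter.1 hP).2
  -- orders of `f` at finite places are nonnegative
  have hDnn : ∀ P : Place C F, x ∈ P.toValuationSubring → 0 ≤ D P := by
    intro P hxP
    rw [hD P]
    exact (mem_iff_ord_nonneg P hf0).1 (mem_of_isIntegral P hxP hfint)
  set Gp : ↥S.V := ∏ P ∈ Zf, g P ^ (D P).toNat with hGp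
  have hGpF : ∀ T : Finset (Place C F),
      ((∏ P ∈ T, g P ^ (D P).toNat : ↥S.V) : F) = ∏ P ∈ T, (g P : F) ^ (D P).toNat := by
    intro T
    simp
  have hintT : ∀ T : Finset (Place C F), (∀ P ∈ T, x ∈ P.toValuationSubring) →
      IsIntegral ↥(Algebra.adjoin C {x}) (∏ P ∈ T, (g P : F) ^ (D P).toNat) := by
    intro T hT
    exact IsIntegral.prod _ fun P hP => (hg1 P (hT P hP)).pow _
  have hGint : IsIntegral ↥(Algebra.adjoin C {x}) (Gp : F) := by
    rw [hGp, hGpF]
    exact hintT Zf hZfin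
  have hredG : S.red Gp = ∏ P ∈ Zf, S.red (g P) ^ (D P).toNat := by
    rw [hGp, map_prod]
    exact Finset.prod_congr rfl fun P _ => map_pow _ _ _
  have hredG0 : S.red Gp ≠ 0 := by
    rw [hredG, Finset.prod_ne_zero_iff]
    exact fun P hP => pow_ne_zero _ (hg3 P (hZfin P hP))
  have hGp0 : (Gp : F) ≠ 0 := by
    intro h
    have : Gp = 0 := Subtype.ext h
    rw [this, map_zero] at hredG0
    exact hredG0 rfl
  -- (d) `ord_P G ≥ ord_P f` at finite places
  have hord : ∀ P : Place C F, x ∈ P.toValuationSubring → OrdGe P (D P) (Gp : F) := by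
    intro P hxP
    by_cases hPD : P ∈ D.support
    · have hPZ : P ∈ Zf := Finset.mem_filter.2 ⟨hPD, hxP⟩
      rw [hGp, hGpF, ← Finset.mul_prod_erase Zf _ hPZ]
      have h1 : OrdGe P (((D P).toNat : ℤ) * 1) ((g P : F) ^ (D P).toNat) :=
        ordGe_pow (hg2 P hxP) _
      have h2 : OrdGe P 0 (∏ P' ∈ Zf.erase P, (g P' : F) ^ (D P').toNat) :=
        (ordGe_zero_iff_mem P _).2 (mem_of_isIntegral P hxP
          (hintT _ fun P' hP' => hZfin P' (Finset.mem_of_mem_erase hP')))
      have h3 := h1.mul h2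
      refine h3.mono ?_
      have := Int.self_le_toNat (D P)
      omega
    · have : D P = 0 := Finsupp.notMem_support_iff.1 hPD
      rw [this]
      exact (ordGe_zero_iff_mem P _).2 (mem_of_isIntegral P hxP hGint)
  -- (e) `h = G / f ∈ R`
  set h : ↥S.V := Gp * ((hfu.unit⁻¹ : (↥S.V)ˣ) : ↥S.V) with hh
  have hGhf : Gp = h * f := by
    rw [hh, mul_assoc]
    have : ((hfu.unit⁻¹ : (↥S.V)ˣ) : ↥S.V) * f = 1 := by
      have := hfu.unit.inv_mul
      rwa [IsUnit.unit_spec] at this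
    rw [this, mul_one]
  have hhF : (h : F) = (Gp : F) * (f : F)⁻¹ := by
    have : (Gp : F) = (h : F) * (f : F) := congrArg Subtype.val hGhf
    rw [this, mul_assoc, mul_inv_cancel₀ hf0, mul_one]
  have hhint : IsIntegral ↥(Algebra.adjoin C {x}) (h : F) := by
    apply isIntegral_of_forall_ordGe x hxC
    intro P hxP
    rw [hhF]
    refine Or.inr ?_
    rw [P.ord_mul hGp0 (inv_ne_zero hf0), P.ord_inv, ← hD P]
    have := (hord P hxP).le hGp0
    omega
  -- (f) orders at `Q`
  have hredh0 : S.red h ≠ 0 := by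
    intro h0
    rw [hGhf, map_mul, h0, zero_mul] at hredG0
    exact hredG0 rfl
  have hredf0 : S.red f ≠ 0 := (hfu.map S.red).ne_zero
  have hQh : 0 ≤ Q.ord (S.red h) :=
    (mem_iff_ord_nonneg Q hredh0).1 (mem_of_isIntegral Q hQ (hI h hhint).1)
  have hQG : Q.ord (S.red Gp) = Q.ord (S.red h) + Q.ord (S.red f) := by
    rw [hGhf, map_mul, Q.ord_mul hredh0 hredf0]
  have hQG' : Q.ord (S.red Gp)
      = ∑ P ∈ Zf, ((D P).toNat : ℤ) * (if InChart S x P ∧ r P = Q then 1 else 0) := by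
    rw [hredG, ord_prod Q Zf _ fun P hP => pow_ne_zero _ (hg3 P (hZfin P hP))]
    refine Finset.sum_congr rfl fun P hP => ?_
    rw [ord_pow, hg4 P (hZfin P hP)]
  -- (g) the sum
  have hsum : ∑ P ∈ Zf, ((D P).toNat : ℤ) * (if InChart S x P ∧ r P = Q then 1 else 0)
      = ∑ P ∈ D.support.filter (fun P => InChart S x P ∧ r P = Q), D P := by
    have hfilt : D.support.filter (fun P => InChart S x P ∧ r P = Q)
        = Zf.filter (fun P => InChart S x P ∧ r P = Q) := by
      ext P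
      simp only [Finset.mem_filter, hZf]
      constructor
      · rintro ⟨h1, h2⟩
        exact ⟨⟨h1, InChart.mem S h2.1⟩, h2⟩
      · rintro ⟨⟨h1, -⟩, h2⟩
        exact ⟨h1, h2⟩
    rw [hfilt, Finset.sum_filter (s := Zf) (p := fun P => InChart S x P ∧ r P = Q)]
    refine Finset.sum_congr rfl fun P hP => ?_
    have := Int.toNat_of_nonneg (hDnn P (hZfin P hP))
    split_ifs <;> simp [this]
  rw [← hsum, ← hQG', hQG]
  omega

end C5

end Fermat.Agent.S27.REDu.H79
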