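import Fermat.Agent.S27.REDu.H79_ConsGlueDefs
import Fermat.Agent.S27.REDu.H79_ConsC5

/-!
# G-RED package CONS, C7 (helper79): glueing of two charts

Charts `x` and `x'` with `x' * (x - c₀) = 1`, `c₀ ∈ O`.  Given reductions `r₁`, `r₂` on the two
charts (`RedTo`) with conservation on each chart (`ChartCons`), the map
`r P := if InChart S x P then r₁ P else r₂ P` satisfies the conservation law `IsRedAbs S r`.
No consistency on the overlap is needed.
-/

set_option autoImplicit false
set_option linter.style.haveILetI false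

universe uC uCf uK uR uF uL uE uk ukap uFp uFt uFtp uiot uEp uKp ux3b1

noncomputable section

open AlgebraicCurve IsDedekindDomain WithZero IntermediateField

namespace Fermat.Agent.S27.REDu.H79

open Fermat.Agent.S27.REDu.H34 Fermat.Agent.S27.REDu.H51

open Classical in
theorem mapDomain_apply_eq_sum {α β : Type*} (r : α → β) (D : α →₀ ℤ) (Q : β) :
    Finsupp.mapDomain r D Q = ∑ P ∈ D.support, if r P = Q then D P else 0 := by
  classical
  rw [Finsupp.mapDomain, Finsupp.sum, Finsupp.finsetSum_apply]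
  refine Finset.sum_congr rfl fun P _ => ?_
  rw [Finsupp.single_apply]

section Glue

variable {C : Type uC} {F : Type uF} {k : Type uk} {Ft : Type uFt} [Field C] [Field F] [Algebra C F] [Field k] [Field Ft] [Algebra k Ft]
variable (S : RedSetting C F k Ft) {x x' : F} (hx : x ∈ S.V) (hx' : x' ∈ S.V) (c₀ : ↥S.O)

/-- (A) A place outside the chart `x` lies in the chart `x'`, with value in `m_O`. -/
theorem inChart_inv_of_not_inChart [IsAlgClosed C] (hxC : Transcendental C x)
    [FiniteDimensional C⟮x⟯ F] (hxx' : x' * (x - algebraMap C F (c₀ : C)) = 1)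
    (P : Place C F) (hP : ¬ InChart S x P) :
    ∃ a' : ↥S.O, S.resO a' = 0 ∧ OrdGe P 1 (x' - algebraMap C F (a' : C)) := by
  have hx'inv : x' = (x - algebraMap C F (c₀ : C))⁻¹ := eq_inv_of_mul_eq_one_left hxx'
  have hne : x - algebraMap C F (c₀ : C) ≠ 0 := by
    intro h
    rw [h, mul_zero] at hxx'
    exact zero_ne_one hxx'
  by_cases hxP : x ∈ P.toValuationSubring
  · have hdeg : P.deg = 1 := Fermat.Agent.S24.ff_deg_eq_one x hxC P
    obtain ⟨a, ha⟩ := exists_value P hdeg ((ordGe_zero_iff_mem P x).2 hxP)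
    have haV : algebraMap C F a ∉ S.V := fun h => hP ⟨a, h, ha⟩
    have haV' : algebraMap C F (a - c₀) ∉ S.V := by
      intro h
      apply haV
      have : algebraMap C F a = algebraMap C F (a - c₀) + algebraMap C F (c₀ : C) := by
        rw [← map_add, sub_add_cancel]
      rw [this]
      exact add_mem h c₀.2
    obtain ⟨b, hb, hb0⟩ := exists_inv_of_not_mem S haV'
    have hac : a - (c₀ : C) ≠ 0 := by
      intro h
      apply haV'
      rw [h, map_zero]
      exact zero_mem _
    have hacF : algebraMap C F (a - c₀) ≠ 0 := by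
      rwa [ne_eq, map_eq_zero_iff _ (algebraMap C F).injective]
    refine ⟨b, hb0, ?_⟩
    -- `ord_P (x - c₀) = 0`
    have h0 : P.ord (x - algebraMap C F (c₀ : C)) = 0 := by
      have e : x - algebraMap C F (c₀ : C)
          = algebraMap C F (a - c₀) + (x - algebraMap C F a) := by
        rw [map_sub]; ring
      rw [e, (ord_add_eq P hacF (by rw [ord_algebraMap]; simpa using ha)).2, ord_algebraMap]
    have h1 : OrdGe P 0 x' := by
      refine Or.inr ?_
      rw [hx'inv, P.ord_inv, h0]
      simp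
    have e : x' - algebraMap C F (b : C)
        = (algebraMap C F (-(b : C)) * x') * (x - algebraMap C F a) := by
      have hb' : algebraMap C F (b : C) * algebraMap C F (a - c₀) = 1 := by
        rw [hb, ← map_mul, inv_mul_cancel₀ hac, map_one]
      rw [map_sub] at hb'
      rw [map_neg]
      linear_combination (algebraMap C F (b : C)) * hxx' - x' * hb'
    rw [e]
    have := ((ordGe_algebraMap P (-(b : C))).mul h1).mul ha
    simpa using this
  · refine ⟨0, map_zero _, ?_⟩
    have h1 : x - algebraMap C F (c₀ : C) ∉ P.toValuationSubring := by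
      intro h
      apply hxP
      have : x = (x - algebraMap C F (c₀ : C)) + algebraMap C F (c₀ : C) := by ring
      rw [this]
      exact add_mem h (P.algebraMap_mem' _)
    have h2 := (not_mem_iff_ord_neg P).1 h1
    refine Or.inr ?_
    simp only [ZeroMemClass.coe_zero, map_zero, sub_zero]
    rw [hx'inv, P.ord_inv]
    omega

/-- `red x' * (xt - c₀~) = 1`. -/
theorem red_mul_eq_one (hxx' : x' * (x - algebraMap C F (c₀ : C)) = 1) :
    S.red ⟨x', hx'⟩ * (S.red ⟨x, hx⟩ - algebraMap k Ft (S.resO c₀)) = 1 := by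
  have h : (⟨x', hx'⟩ : ↥S.V) * (⟨x, hx⟩ - S.inclO c₀) = 1 := Subtype.ext hxx'
  have := congrArg S.red h
  rwa [map_mul, map_sub, S.red_inclO, map_one] at this

/-- (C) If `Q` is not finite over `xt`, then `red x'` vanishes at `Q`. -/
theorem ordGe_red_inv (hxx' : x' * (x - algebraMap C F (c₀ : C)) = 1) (Q : Place k Ft)
    (hQ : S.red ⟨x, hx⟩ ∉ Q.toValuationSubring) : OrdGe Q 1 (S.red ⟨x', hx'⟩) := by
  have h1 : S.red ⟨x, hx⟩ - algebraMap k Ft (S.resO c₀) ∉ Q.toValuationSubring := by
    intro h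
    apply hQ
    have : S.red ⟨x, hx⟩ = (S.red ⟨x, hx⟩ - algebraMap k Ft (S.resO c₀))
        + algebraMap k Ft (S.resO c₀) := by ring
    rw [this]
    exact add_mem h (Q.algebraMap_mem' _)
  have h2 := (not_mem_iff_ord_neg Q).1 h1
  have h3 : S.red ⟨x', hx'⟩ = (S.red ⟨x, hx⟩ - algebraMap k Ft (S.resO c₀))⁻¹ :=
    eq_inv_of_mul_eq_one_left (red_mul_eq_one S hx hx' c₀ hxx')
  refine Or.inr ?_
  rw [h3, Q.ord_inv]
  omega

/-- (B) If `red x'` vanishes at `Q`, then `Q` is not finite over `xt`. -/
theorem not_mem_of_ordGe_red_inv (hxx' : x' * (x - algebraMap C F (c₀ : C)) = 1)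
    (Q : Place k Ft) (hQ : OrdGe Q 1 (S.red ⟨x', hx'⟩)) :
    S.red ⟨x, hx⟩ ∉ Q.toValuationSubring := by
  intro h
  have h1 : OrdGe Q 0 (S.red ⟨x, hx⟩ - algebraMap k Ft (S.resO c₀)) :=
    ((ordGe_zero_iff_mem Q _).2 h).sub (ordGe_algebraMap Q _)
  have h2 := hQ.mul h1
  rw [red_mul_eq_one S hx hx' c₀ hxx'] at h2
  rcases h2 with h2 | h2
  · exact one_ne_zero h2
  · rw [Q.ord_one] at h2
    omega

/-- (B') The reduction on the chart `x'` of a place outside the chart `x` is not finite
over `xt`. -/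
theorem not_mem_of_redTo [IsAlgClosed C] (hxC : Transcendental C x)
    [FiniteDimensional C⟮x⟯ F] (hxx' : x' * (x - algebraMap C F (c₀ : C)) = 1)
    (P : Place C F) (hP : ¬ InChart S x P) (Q : Place k Ft) (hPQ : RedTo S x' hx' P Q) :
    S.red ⟨x, hx⟩ ∉ Q.toValuationSubring := by
  obtain ⟨a', ha'0, ha'⟩ := inChart_inv_of_not_inChart S c₀ hxC hxx' P hP
  have h1 := hPQ.2 ⟨x', hx'⟩ (isIntegral_gen x') a' ha'
  rw [ha'0, map_zero, sub_zero] at h1
  exact not_mem_of_ordGe_red_inv S hx hx' c₀ hxx' Q h1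

/-- (D) A place in both charts does not reduce, on the chart `x'`, to a place which is not
finite over `xt`. -/
theorem mem_of_redTo_of_inChart (hxx' : x' * (x - algebraMap C F (c₀ : C)) = 1)
    (P : Place C F) (hP : InChart S x P) (hP' : InChart S x' P) (Q : Place k Ft)
    (hPQ : RedTo S x' hx' P Q) : S.red ⟨x, hx⟩ ∈ Q.toValuationSubring := by
  by_contra hQ
  obtain ⟨a, haV, ha⟩ := hP
  obtain ⟨a', haV', ha'⟩ := hP'
  -- `a' (a - c₀) = 1`
  have h1 : OrdGe P 1 (algebraMap C F (1 - a' * (a - (c₀ : C)))) := by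
    have e : algebraMap C F (1 - a' * (a - (c₀ : C)))
        = (x' - algebraMap C F a') * (x - algebraMap C F (c₀ : C))
          + algebraMap C F a' * (x - algebraMap C F a) := by
      rw [map_sub, map_one, map_mul, map_sub]
      linear_combination (-1 : F) * hxx'
    rw [e]
    have hx0 : OrdGe P 0 (x - algebraMap C F (c₀ : C)) := by
      have h1 : OrdGe P 0 (x - algebraMap C F a) := ha.mono (by norm_num)
      have h2 : OrdGe P 0 (algebraMap C F (a - (c₀ : C))) := ordGe_algebraMap P _
      have := h1.add h2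
      rw [map_sub] at this
      have e2 : x - algebraMap C F a + (algebraMap C F a - algebraMap C F (c₀ : C))
          = x - algebraMap C F (c₀ : C) := by ring
      rwa [e2] at this
    have t1 := ha'.mul hx0
    have t2 := (ordGe_algebraMap P a').mul ha
    have := t1.add (t2.mono (by norm_num : (1 : ℤ) + 0 ≤ 0 + 1))
    simpa using this
  have h2 := const_eq_zero_of_ordGe_one P _ h1
  have h3 := hPQ.2 ⟨x', hx'⟩ (isIntegral_gen x') ⟨a', haV'⟩ ha'
  have h4 := ordGe_red_inv S hx hx' c₀ hxx' Q hQ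
  have h5 : OrdGe Q 1 (algebraMap k Ft (S.resO ⟨a', haV'⟩)) := by
    have := h4.sub h3
    rwa [sub_sub_cancel] at this
  have h6 := const_eq_zero_of_ordGe_one Q _ h5
  have h7 : (⟨a', haV'⟩ : ↥S.O) * (⟨a, haV⟩ - c₀) = 1 := by
    apply Subtype.ext
    show a' * (a - (c₀ : C)) = 1
    linear_combination -h2
  have h8 := congrArg S.resO h7
  rw [map_mul, h6, zero_mul, map_one] at h8
  exact zero_ne_one h8

open Classical in
/-- **C7**: glueing of the charts `x` and `x'`, `x' (x - c₀) = 1`. -/
theorem isRedAbs_glue [IsAlgClosed C] (hxC : Transcendental C x)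
    [FiniteDimensional C⟮x⟯ F] (hxx' : x' * (x - algebraMap C F (c₀ : C)) = 1)
    (r₁ r₂ : Place C F → Place k Ft)
    (hr₁ : ∀ P, InChart S x P → RedTo S x hx P (r₁ P))
    (hr₂ : ∀ P, InChart S x' P → RedTo S x' hx' P (r₂ P))
    (hc₁ : ChartCons S x hx r₁) (hc₂ : ChartCons S x' hx' r₂) :
    IsRedAbs S (fun P => if InChart S x P then r₁ P else r₂ P) := by
  intro f hfu D hD Q
  rw [mapDomain_apply_eq_sum, ← Finset.sum_filter]
  have hin2 : ∀ P, ¬ InChart S x P → InChart S x' P := by
    intro P hP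
    obtain ⟨a', -, ha'⟩ := inChart_inv_of_not_inChart S c₀ hxC hxx' P hP
    exact ⟨a', a'.2, ha'⟩
  by_cases hQ : S.red ⟨x, hx⟩ ∈ Q.toValuationSubring
  · rw [← hc₁ f hfu D hD Q hQ]
    refine Finset.sum_congr ?_ fun _ _ => rfl
    ext P
    simp only [Finset.mem_filter]
    constructor
    · rintro ⟨h1, h2⟩
      by_cases hP : InChart S x P
      · rw [if_pos hP] at h2
        exact ⟨h1, hP, h2⟩
      · rw [if_neg hP] at h2
        exfalso
        have := not_mem_of_redTo S hx hx' c₀ hxC hxx' P hP (r₂ P) (hr₂ P (hin2 P hP))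
        rw [h2] at this
        exact this hQ
    · rintro ⟨h1, hP, h2⟩
      exact ⟨h1, by rw [if_pos hP]; exact h2⟩
  · have hQ' : S.red ⟨x', hx'⟩ ∈ Q.toValuationSubring :=
      (ordGe_zero_iff_mem Q _).1 ((ordGe_red_inv S hx hx' c₀ hxx' Q hQ).mono (by norm_num))
    rw [← hc₂ f hfu D hD Q hQ']
    refine Finset.sum_congr ?_ fun _ _ => rfl
    ext P
    simp only [Finset.mem_filter]
    constructor
    · rintro ⟨h1, h2⟩
      by_cases hP : InChart S x P
      · rw [if_pos hP] at h2
        exfalso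
        have := (hr₁ P hP).1
        rw [h2] at this
        exact hQ this
      · rw [if_neg hP] at h2
        exact ⟨h1, hin2 P hP, h2⟩
    · rintro ⟨h1, hP', h2⟩
      refine ⟨h1, ?_⟩
      by_cases hP : InChart S x P
      · exfalso
        have := mem_of_redTo_of_inChart S hx hx' c₀ hxx' P hP hP' (r₂ P) (hr₂ P hP')
        rw [h2] at this
        exact hQ this
      · rw [if_neg hP]
        exact h2

end Glue

end Fermat.Agent.S27.REDu.H79
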