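import Fermat.Agent.S27.REDu.H34_Bbar

/-!
# G-RED package IG, lemma (S5) of the chart theorem (helper82 for helper34): `not_dvd_det`

`bF` a `C(x)`-basis of `F` of integral elements of `V` reducing to a basis `bt` that spans
`Bbar = red (B ∩ V)` over `k[xt]`, `c` a `C[x]`-basis of `B`, `bF = P c`.  Then `det P` has no
root `ρ ∈ O`: a root gives `y = Σ μ_i b_i = (x - ρ) y'` with `μ_i ∈ O`, `μ_{i₀} = 1`, `y' ∈ B ∩ V`,
and comparing the `bt`-coordinates of `red y` at `i₀` makes `xt - γ` a unit of `k[xt]`.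
-/

set_option autoImplicit false
set_option linter.unusedVariables false

universe uC uCf uK uR uF uL uE uk ukap uFp uFt uFtp uiot uEp uKp ux3b1

noncomputable section

open Polynomial IntermediateField Module Matrix
open scoped IntermediateField.algebraAdjoinAdjoin nonZeroDivisors
open Fermat.Agent.S27.REDu.H34 Fermat.Agent.S27.REDu.H34.RedSetting

namespace Fermat.Agent.S27.REDu.H82

variable {C : Type uC} {F : Type uF} {k : Type uk} {Ft : Type uFt} [Field C] [Field F] [Algebra C F] [Field k] [Field Ft] [Algebra k Ft]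
variable {S : RedSetting C F k Ft} {x : F} (hx : x ∈ S.V)

theorem evAt_algebraMap (hxC : Transcendental C x) (ρ a : C) :
    evAt hxC ρ (algebraMap C ↥(Algebra.adjoin C {x}) a) = a := by
  rw [← polyEquiv_C hxC, evAt_polyEquiv, Polynomial.eval_C]

/-- `x - ρ` as an element of `V`, for `ρ ∈ O`. -/
theorem coe_psi_X_sub_C (ρ : C) (hρ : ρ ∈ S.O) :
    ((psi hx (Polynomial.X - Polynomial.C (⟨ρ, hρ⟩ : ↥S.O)) : ↥S.V) : F)
      = x - algebraMap C F ρ := by
  rw [coe_psi]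
  simp

theorem isUnit_psi_X_sub_C (hxt : Transcendental k (S.red ⟨x, hx⟩)) (ρ : C) (hρ : ρ ∈ S.O) :
    IsUnit (psi hx (Polynomial.X - Polynomial.C (⟨ρ, hρ⟩ : ↥S.O))) := by
  apply isUnit_psi hx hxt
  rw [Polynomial.map_sub, Polynomial.map_X, Polynomial.map_C]
  exact Polynomial.X_sub_C_ne_zero _

theorem not_dvd_det [CharZero C] (hxt : Transcendental k (S.red ⟨x, hx⟩))
    [FiniteDimensional ↥C⟮x⟯ F]
    (hdeg : Module.finrank ↥k⟮S.red ⟨x, hx⟩⟯ Ft = Module.finrank ↥C⟮x⟯ F)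
    {m : ℕ} (bF : Module.Basis (Fin m) ↥C⟮x⟯ F) (hbV : ∀ i, bF i ∈ S.V)
    (hbB : ∀ i, IsIntegral ↥(Algebra.adjoin C {x}) (bF i))
    (bt : Module.Basis (Fin m) ↥k⟮S.red ⟨x, hx⟩⟯ Ft) (hbt : ∀ i, bt i = S.red ⟨bF i, hbV i⟩)
    (hspan : ∀ y ∈ S.Bbar hx,
      y ∈ Submodule.span ↥(Algebra.adjoin k {S.red ⟨x, hx⟩}) (Set.range bt))
    (c : Module.Basis (Fin m) ↥(Algebra.adjoin C {x}) ↥(Bx (C := C) x))
    (P : Matrix (Fin m) (Fin m) ↥(Algebra.adjoin C {x}))
    (hP : ∀ i, (⟨bF i, hbB i⟩ : ↥(Bx (C := C) x)) = ∑ j, P i j • c j)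
    (ρ : C) (hρ : ρ ∈ S.O) : ¬ piRho x ρ ∣ P.det := by
  classical
  intro hdvd
  have hxC := transcendental_x hx hxt
  -- Step 1: a nonzero vector in the left kernel of `P(ρ)`
  have hev : evAt hxC ρ P.det = 0 := (evAt_eq_zero_iff hxC ρ _).2 hdvd
  have hdet0 : (P.map (evAt hxC ρ)).det = 0 := by
    rw [← RingHom.mapMatrix_apply, ← RingHom.map_det, hev]
  obtain ⟨lam, hlam0, hlam⟩ := Matrix.exists_vecMul_eq_zero_iff.2 hdet0
  -- Step 2: scaling
  have hne : ∃ i, lam i ≠ 0 := by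
    by_contra h
    push Not at h
    exact hlam0 (funext h)
  obtain ⟨i₁, hi₁⟩ := hne
  obtain ⟨i₀, -, hi₀⟩ := Finset.exists_max_image Finset.univ
    (fun i => S.O.valuation (lam i)) ⟨i₁, Finset.mem_univ _⟩
  have hlam_i₀ : lam i₀ ≠ 0 := by
    intro h0
    have h1 := hi₀ i₁ (Finset.mem_univ _)
    simp only [h0, map_zero] at h1
    exact hi₁ ((map_eq_zero _).1 (le_antisymm h1 zero_le))
  set μ : Fin m → C := fun i => lam i / lam i₀ with hμ
  have hμi₀ : μ i₀ = 1 := div_self hlam_i₀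
  have hμO : ∀ i, μ i ∈ S.O := by
    intro i
    rw [← ValuationSubring.valuation_le_one_iff, hμ]
    simp only [map_div₀]
    have hpos : 0 < S.O.valuation (lam i₀) := by
      rw [pos_iff_ne_zero]
      exact fun h => hlam_i₀ ((map_eq_zero _).1 h)
    exact (div_le_one₀ hpos).2 (hi₀ i (Finset.mem_univ _))
  have hμker : ∀ j, ∑ i, μ i * evAt hxC ρ (P i j) = 0 := by
    intro j
    have h1 := congrFun hlam j
    simp only [Matrix.vecMul, dotProduct, Matrix.map_apply, Pi.zero_apply] at h1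
    simp only [hμ, div_mul_eq_mul_div]
    rw [← Finset.sum_div, h1, zero_div]
  -- Step 3: divide by `x - ρ` inside `B`
  have hr : ∀ j, piRho x ρ ∣ ∑ i, algebraMap C ↥(Algebra.adjoin C {x}) (μ i) * P i j := by
    intro j
    rw [← evAt_eq_zero_iff hxC ρ, map_sum]
    simp only [map_mul, evAt_algebraMap]
    exact hμker j
  choose q hq using hr
  set y' : ↥(Bx (C := C) x) := ∑ j, q j • c j with hy'
  have hyB : ∑ i, algebraMap C ↥(Algebra.adjoin C {x}) (μ i) • (⟨bF i, hbB i⟩ : ↥(Bx (C := C) x))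
      = piRho x ρ • y' := by
    simp only [hP, Finset.smul_sum, smul_smul]
    rw [Finset.sum_comm]
    rw [hy', Finset.smul_sum]
    refine Finset.sum_congr rfl fun j _ => ?_
    rw [← Finset.sum_smul, hq j, smul_smul]
  have hyF : ∑ i, algebraMap C F (μ i) * bF i = (x - algebraMap C F ρ) * (y' : F) := by
    have hsm : ∀ (a : ↥(Algebra.adjoin C {x})) (b : ↥(Bx (C := C) x)),
        ((a • b : ↥(Bx (C := C) x)) : F) = (a : F) * (b : F) := fun a b => rfl
    have h1 := congrArg (fun z : ↥(Bx (C := C) x) => (z : F)) hyB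
    simp only [AddSubmonoidClass.coe_finsetSum, hsm] at h1
    exact h1
  -- Step 4: `y'` lies in `V`
  set u : ↥S.V := psi hx (Polynomial.X - Polynomial.C (⟨ρ, hρ⟩ : ↥S.O)) with hu
  have huu : IsUnit u := isUnit_psi_X_sub_C hx hxt ρ hρ
  have hucoe : (u : F) = x - algebraMap C F ρ := coe_psi_X_sub_C hx ρ hρ
  have hu0 : (x - algebraMap C F ρ) ≠ 0 := by
    rw [← hucoe]
    intro h0
    have : u = 0 := Subtype.ext h0
    rw [this] at huu
    exact not_isUnit_zero huu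
  set yV : ↥S.V := ∑ i, S.inclO ⟨μ i, hμO i⟩ * ⟨bF i, hbV i⟩ with hyV
  have hyVcoe : (yV : F) = ∑ i, algebraMap C F (μ i) * bF i := by
    rw [hyV, AddSubmonoidClass.coe_finsetSum]
    rfl
  obtain ⟨w, hw⟩ := huu.exists_right_inv
  have hy'V : (y' : F) = ((w * yV : ↥S.V) : F) := by
    apply mul_left_cancel₀ hu0
    rw [← hyF, ← hyVcoe, ← hucoe]
    have : u * (w * yV) = yV := by rw [← mul_assoc, hw, one_mul]
    exact (congrArg (fun z : ↥S.V => (z : F)) this).symm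
  have hy'mem : (y' : F) ∈ S.V := by rw [hy'V]; exact (w * yV).2
  have hredy' : S.red ⟨(y' : F), hy'mem⟩ ∈ S.Bbar hx :=
    (mem_Bbar hx _).2 ⟨(y' : F), hy'mem, y'.2, rfl⟩
  obtain ⟨β, hβ⟩ := (Submodule.mem_span_range_iff_exists_fun _).1 (hspan _ hredy')
  -- Step 5: compare coordinates at `i₀`
  set γ : k := S.resO ⟨ρ, hρ⟩ with hγ
  have hredu : S.red u = S.red ⟨x, hx⟩ - algebraMap k Ft γ := by
    rw [hu, red_psi]
    simp [hγ]
  have hyVfac : yV = u * ⟨(y' : F), hy'mem⟩ := by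
    apply Subtype.ext
    show (yV : F) = (u : F) * (y' : F)
    rw [hyVcoe, hyF, hucoe]
  have hred1 : S.red yV = ∑ i, algebraMap k Ft (S.resO ⟨μ i, hμO i⟩) * bt i := by
    rw [hyV, map_sum]
    refine Finset.sum_congr rfl fun i _ => ?_
    rw [map_mul, red_inclO, hbt i]
  have hred2 : S.red yV = (S.red ⟨x, hx⟩ - algebraMap k Ft γ) * ∑ i, β i • bt i := by
    rw [hyVfac, map_mul, hredu, hβ]
  -- coefficients in `k(xt)`
  set a : Fin m → ↥k⟮S.red ⟨x, hx⟩⟯ :=
    fun i => algebraMap k ↥k⟮S.red ⟨x, hx⟩⟯ (S.resO ⟨μ i, hμO i⟩) with ha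
  set b : Fin m → ↥k⟮S.red ⟨x, hx⟩⟯ :=
    fun i => algebraMap ↥(Algebra.adjoin k {S.red ⟨x, hx⟩}) ↥k⟮S.red ⟨x, hx⟩⟯
      (piRho (S.red ⟨x, hx⟩) γ * β i) with hb
  have hsum : ∑ i, a i • bt i = ∑ i, b i • bt i := by
    have h1 : ∑ i, a i • bt i = S.red yV := by
      rw [hred1]
      refine Finset.sum_congr rfl fun i _ => ?_
      rw [IntermediateField.smul_def, smul_eq_mul]
      rfl
    have h2 : ∑ i, b i • bt i = S.red yV := by
      rw [hred2, Finset.mul_sum]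
      refine Finset.sum_congr rfl fun i _ => ?_
      rw [IntermediateField.smul_def, smul_eq_mul]
      show ((piRho (S.red ⟨x, hx⟩) γ * β i : ↥(Algebra.adjoin k {S.red ⟨x, hx⟩})) : Ft) * bt i
        = (S.red ⟨x, hx⟩ - algebraMap k Ft γ) * (((β i : ↥(Algebra.adjoin k {S.red ⟨x, hx⟩})) : Ft) * bt i)
      rw [Subalgebra.coe_mul, mul_assoc]
      rfl
    rw [h1, h2]
  have hab : a = b := by
    have h1 := congrArg (fun z => (bt.repr z : Fin m → ↥k⟮S.red ⟨x, hx⟩⟯)) hsum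
    simp only [Module.Basis.repr_sum_self] at h1
    exact h1
  have hai₀ : a i₀ = 1 := by
    rw [ha]
    have : (⟨μ i₀, hμO i₀⟩ : ↥S.O) = 1 := Subtype.ext hμi₀
    simp only [this, map_one]
  have h1 : piRho (S.red ⟨x, hx⟩) γ * β i₀ = 1 := by
    have h2 : b i₀ = 1 := by rw [← hab]; exact hai₀
    apply Subtype.ext
    have h3 := congrArg (fun z : ↥k⟮S.red ⟨x, hx⟩⟯ => (z : Ft)) h2
    exact h3
  exact (prime_piRho hxt γ).not_isUnit (IsUnit.of_mul_eq_one _ h1)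

end Fermat.Agent.S27.REDu.H82
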