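import Fermat.Agent.S27.REDu.H34_Chart
import Fermat.Agent.S27.REDu.H82_NotDvdDet

/-!
# G-RED package IG: the chart theorem, unconditional

`stmt_notDvdDet : H34.Stmt_notDvdDet.{uC, uF, uk, uFt}` (from `H82.not_dvd_det`) and
`stmt_chartNormal : H34.Stmt_chartNormal.{uC, uF, uk, uFt}` (helper34's `stmt_chartNormal_of_notDvdDet`).
-/

set_option autoImplicit false

universe uC uCf uK uR uF uL uE uk ukap uFp uFt uFtp uiot uEp uKp ux3b1

namespace Fermat.Agent.S27.REDu.H82

/-- (S5) in the packaged form of `RED/H34_Chart.lean`. -/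
theorem stmt_notDvdDet : H34.Stmt_notDvdDet.{uC, uF, uk, uFt} := by
  intro C F k Ft _ _ _ _ _ _ _ S x hx hxt _ hdeg m bF hbV hbB bt hbt hspan c P hP ρ hρ
  exact not_dvd_det hx hxt hdeg bF hbV hbB bt hbt hspan c P hP ρ hρ

/-- **The chart theorem** (helper34), unconditional. -/
theorem stmt_chartNormal : H34.Stmt_chartNormal.{uC, uF, uk, uFt} :=
  H34.stmt_chartNormal_of_notDvdDet stmt_notDvdDet

end Fermat.Agent.S27.REDu.H82
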