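import Fermat.Agent.S27.REDu.H10_ConsC6
import Fermat.Agent.S27.REDu.H79_ConsGlue
import Fermat.Agent.S27.REDu.H79_ConsC4
import Fermat.Agent.S27.REDu.H12_Zero
import Fermat.Agent.S27.REDu.H82_ChartFinal
import Fermat.Agent.S27.REDu.H42_Gen9

/-!
# S27 / REDu: the abstract assembly of CONS (universe polymorphic copy of the section `Abs` of
`RED/H79_DRabs.lean`, helper79), and the three exports of the copy

* `exists_isRedAbs` : two good charts `x`, `x'` with `x' (x - c₀) = 1` give a reduction map of
  places with the conservation law;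
* `REDu.H82.stmt_chartNormal` : helper34's chart theorem;
* `REDu.H42.genusLE_of_charts` : helper42's GEN.
-/

set_option autoImplicit false
set_option linter.style.haveILetI false
set_option synthInstance.maxHeartbeats 400000
set_option maxHeartbeats 1000000

noncomputable section

open AlgebraicCurve IntermediateField

universe uC uF uk uFt

namespace Fermat.Agent.S27.REDu.H79

open Fermat.Agent.S27.REDu.H34 Fermat.Agent.S27.REDu.H51 Fermat.Agent.S27.REDu.H34.RedSetting

variable {C : Type uC} {F : Type uF} {k : Type uk} {Ft : Type uFt} [Field C] [Field F]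
  [Algebra C F] [Field k] [Field Ft] [Algebra k Ft]

/-- **CONS** (abstract): two good charts `x`, `x'` with `x' (x - c₀) = 1`, `c₀ ∈ O`, give a
reduction map of places with the conservation law. -/
theorem exists_isRedAbs [IsAlgClosed C] [CharZero C] [IsAlgClosed k]
    (hFF : IsFF C F) (hFFt : IsFF k Ft)
    (S : RedSetting C F k Ft) (x x' : F) (hx : x ∈ S.V) (hx' : x' ∈ S.V) (c₀ : ↥S.O)
    (hxx' : x' * (x - algebraMap C F (c₀ : C)) = 1)
    (G : GoodChart S x hx) (G' : GoodChart S x' hx') :
    ∃ r : Place C F → Place k Ft, IsRedAbs S r := by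
  classical
  haveI := G.fin
  have hxC : Transcendental C x := transcendental_x hx G.transc
  have hI : ChartIntegral S x hx := Fermat.Agent.S27.REDu.H10.chartIntegral hx hFF G
  have hI' : ChartIntegral S x' hx' := Fermat.Agent.S27.REDu.H10.chartIntegral hx' hFF G'
  -- a place of `Ft`
  obtain ⟨P₀, hP₀⟩ := Fermat.Agent.S27.REDu.H12.exists_place_ord_pos
    (fun y hy => Fermat.Agent.S24.ff_finite_of_transcendental x hxC y hy) x hxC
  have hP₀in : InChart S x P₀ := by
    refine ⟨0, ?_, ?_⟩
    · rw [map_zero]; exact zero_mem _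
    · rw [map_zero, sub_zero]; exact Or.inr hP₀
  obtain ⟨Q₀, -⟩ := stmt_C4 C F k Ft S x hx G hI P₀ hP₀in
  haveI : Nonempty (Place k Ft) := ⟨Q₀⟩
  choose! r₁ hr₁ using stmt_C4 C F k Ft S x hx G hI
  choose! r₂ hr₂ using stmt_C4 C F k Ft S x' hx' G' hI'
  refine ⟨_, isRedAbs_glue S hx hx' c₀ hxC hxx' r₁ r₂ hr₁ hr₂ ?_ ?_⟩
  · intro f hfu D hD Q hQ
    exact Fermat.Agent.S27.REDu.H10.chart_conservation hx hFF hFFt G r₁ hr₁ f hfu D hD Q hQ
  · intro f hfu D hD Q hQ
    exact Fermat.Agent.S27.REDu.H10.chart_conservation hx' hFF hFFt G' r₂ hr₂ f hfu D hD Q hQ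

end Fermat.Agent.S27.REDu.H79
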