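import Fermat.Agent.S27.REDu.H34_Lattice

/-!
# G-RED package CONS (helper10), part C1: norm and characteristic polynomial commute with reduction

Setting of helper34's `H34_Lattice`: `S : RedSetting C F k Ft`, `x ∈ V` with transcendental
reduction `xt`, `bF` a `C(x)`-basis of `F` contained in `V` whose reduction `bt` is a
`k(xt)`-basis of `Ft`.

* `mulMat`       : the matrix of multiplication by `f ∈ V`, with entries in `Vx = V ∩ C(x)`;
* `mulMat_map_subtype`, `mulMat_map_redx` : it maps to the matrices of `f` and of `red f`;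
* `norm_red`     : `N f ∈ Vx` and `red (N f) = N (red f)`;
* `charpoly_red` : the same for the characteristic polynomial.
-/

set_option autoImplicit false

universe uC uCf uK uR uF uL uE uk ukap uFp uFt uFtp uiot uEp uKp ux3b1

noncomputable section

open Polynomial IntermediateField

namespace Fermat.Agent.S27.REDu.H10

open Fermat.Agent.S27.REDu.H34 Fermat.Agent.S27.REDu.H34.RedSetting

variable {C : Type uC} {F : Type uF} {k : Type uk} {Ft : Type uFt} [Field C] [Field F] [Algebra C F] [Field k] [Field Ft] [Algebra k Ft]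
variable {S : RedSetting C F k Ft} {x : F} (hx : x ∈ S.V)
variable {ι : Type uiot} [Fintype ι] [DecidableEq ι]
variable (bF : Module.Basis ι ↥C⟮x⟯ F) (hbV : ∀ i, bF i ∈ S.V)
variable (bt : Module.Basis ι ↥k⟮S.red ⟨x, hx⟩⟯ Ft) (hbt : ∀ i, bt i = S.red ⟨bF i, hbV i⟩)

/-- The matrix of multiplication by `f ∈ V` in the basis `bF`, with entries in `Vx`. -/
def mulMat (hxt : Transcendental k (S.red ⟨x, hx⟩)) (f : F) (hf : f ∈ S.V) :
    Matrix ι ι ↥(S.Vx x) :=
  Matrix.of fun i j => ⟨bF.repr (f * bF j) i,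
    repr_mem_V hx bF hbV bt hbt hxt _ (mul_mem hf (hbV j)) i⟩

theorem mulMat_map_subtype (hxt : Transcendental k (S.red ⟨x, hx⟩)) (f : F) (hf : f ∈ S.V) :
    (S.Vx x).subtype.mapMatrix (mulMat hx bF hbV bt hbt hxt f hf) =
      Algebra.leftMulMatrix bF f := by
  refine Matrix.ext fun i j => ?_
  rw [Algebra.leftMulMatrix_eq_repr_mul]
  rfl

theorem mulMat_map_redx (hxt : Transcendental k (S.red ⟨x, hx⟩)) (f : F) (hf : f ∈ S.V) :
    (redx hx hxt).mapMatrix (mulMat hx bF hbV bt hbt hxt f hf) =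
      Algebra.leftMulMatrix bt (S.red ⟨f, hf⟩) := by
  refine Matrix.ext fun i j => ?_
  rw [Algebra.leftMulMatrix_eq_repr_mul, hbt j, ← map_mul]
  exact (repr_red hx bF hbV bt hbt hxt (f * bF j) (mul_mem hf (hbV j)) i).symm

include hbt in
/-- The norm of an element of `V` lies in `Vx`, and reduces to the norm of the reduction. -/
theorem norm_red (hxt : Transcendental k (S.red ⟨x, hx⟩)) (f : F) (hf : f ∈ S.V) :
    ∃ t : ↥(S.Vx x), (t : ↥C⟮x⟯) = Algebra.norm ↥C⟮x⟯ f ∧
      redx hx hxt t = Algebra.norm ↥k⟮S.red ⟨x, hx⟩⟯ (S.red ⟨f, hf⟩) := by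
  refine ⟨(mulMat hx bF hbV bt hbt hxt f hf).det, ?_, ?_⟩
  · rw [Algebra.norm_eq_matrix_det bF, ← mulMat_map_subtype hx bF hbV bt hbt hxt f hf,
      ← RingHom.map_det]
    rfl
  · rw [Algebra.norm_eq_matrix_det bt, ← mulMat_map_redx hx bF hbV bt hbt hxt f hf,
      ← RingHom.map_det]

include hbt in
/-- The characteristic polynomial of an element of `V` has coefficients in `Vx`, and reduces to
the characteristic polynomial of the reduction. -/
theorem charpoly_red (hxt : Transcendental k (S.red ⟨x, hx⟩)) (f : F) (hf : f ∈ S.V) :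
    ∃ χ : (↥(S.Vx x))[X], χ.Monic ∧
      χ.map (S.Vx x).subtype = (Algebra.leftMulMatrix bF f).charpoly ∧
      χ.map (redx hx hxt) = (Algebra.leftMulMatrix bt (S.red ⟨f, hf⟩)).charpoly := by
  refine ⟨(mulMat hx bF hbV bt hbt hxt f hf).charpoly, Matrix.charpoly_monic _, ?_, ?_⟩
  · rw [← mulMat_map_subtype hx bF hbV bt hbt hxt f hf, RingHom.mapMatrix_apply,
      Matrix.charpoly_map]
  · rw [← mulMat_map_redx hx bF hbV bt hbt hxt f hf, RingHom.mapMatrix_apply,
      Matrix.charpoly_map]

end Fermat.Agent.S27.REDu.H10
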