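import Fermat.Agent.S27.REDu.H34_Points

/-!
# G-RED package IG (helper34): the ring `C[x]` for a transcendental `x`

`x : F` transcendental over the field `C`.  `C[x] = Algebra.adjoin C {x}` is a PID, isomorphic to
the polynomial ring; evaluation at `ρ`; primes are associated to `x - ρ` if `C` is algebraically
closed.
-/

set_option autoImplicit false

universe uC uCf uK uR uF uL uE uk ukap uFp uFt uFtp uiot uEp uKp ux3b1

noncomputable section

open Polynomial IntermediateField

namespace Fermat.Agent.S27.REDu.H34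

variable {C : Type uC} {F : Type uF} [Field C] [Field F] [Algebra C F] {x : F}

/-- `C[X] ≃ C[x]`. -/
abbrev polyEquiv (hx : Transcendental C x) : C[X] ≃ₐ[C] ↥(Algebra.adjoin C {x}) :=
  Polynomial.algEquivOfTranscendental C x hx

theorem polyEquiv_X (hx : Transcendental C x) : polyEquiv hx Polynomial.X = genX x := by
  simp [polyEquiv, genX]

theorem polyEquiv_C (hx : Transcendental C x) (c : C) :
    polyEquiv hx (Polynomial.C c) = algebraMap C _ c := by
  simp [polyEquiv]

theorem polyEquiv_X_sub_C (hx : Transcendental C x) (ρ : C) :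
    polyEquiv hx (Polynomial.X - Polynomial.C ρ) = piRho x ρ := by
  rw [map_sub, polyEquiv_X, polyEquiv_C, piRho_eq]

theorem coe_polyEquiv (hx : Transcendental C x) (p : C[X]) :
    ((polyEquiv hx p : ↥(Algebra.adjoin C {x})) : F) = Polynomial.aeval x p := by
  have : (polyEquiv hx p : ↥(Algebra.adjoin C {x})) = Polynomial.aeval (genX x) p := rfl
  rw [this, ← Subalgebra.coe_val, ← Polynomial.aeval_algHom_apply]
  rfl

theorem isPrincipalIdealRing_adjoin (hx : Transcendental C x) :
    IsPrincipalIdealRing ↥(Algebra.adjoin C {x}) :=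
  IsPrincipalIdealRing.of_surjective (polyEquiv hx).toRingEquiv.toRingHom
    (polyEquiv hx).surjective

/-- Evaluation at `ρ`. -/
def evAt (hx : Transcendental C x) (ρ : C) : ↥(Algebra.adjoin C {x}) →+* C :=
  (Polynomial.evalRingHom ρ).comp (polyEquiv hx).symm.toRingEquiv.toRingHom

theorem evAt_polyEquiv (hx : Transcendental C x) (ρ : C) (p : C[X]) :
    evAt hx ρ (polyEquiv hx p) = p.eval ρ := by
  simp [evAt]

theorem pow_dvd_polyEquiv_iff (hx : Transcendental C x) (ρ : C) (m : ℕ) (p : C[X]) :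
    piRho x ρ ^ m ∣ polyEquiv hx p ↔ (Polynomial.X - Polynomial.C ρ) ^ m ∣ p := by
  rw [← polyEquiv_X_sub_C hx, ← map_pow]
  exact map_dvd_iff (polyEquiv hx)

theorem dvd_polyEquiv_iff (hx : Transcendental C x) (ρ : C) (p : C[X]) :
    piRho x ρ ∣ polyEquiv hx p ↔ p.IsRoot ρ := by
  have := pow_dvd_polyEquiv_iff hx ρ 1 p
  rw [pow_one, pow_one] at this
  rw [this, Polynomial.dvd_iff_isRoot]

theorem evAt_eq_zero_iff (hx : Transcendental C x) (ρ : C) (r : ↥(Algebra.adjoin C {x})) :
    evAt hx ρ r = 0 ↔ piRho x ρ ∣ r := by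
  obtain ⟨p, rfl⟩ := (polyEquiv hx).surjective r
  rw [evAt_polyEquiv, dvd_polyEquiv_iff]
  rfl

theorem prime_piRho (hx : Transcendental C x) (ρ : C) : Prime (piRho x ρ) := by
  rw [← polyEquiv_X_sub_C hx]
  exact (MulEquiv.prime_iff (polyEquiv hx).toMulEquiv).2 (Polynomial.prime_X_sub_C ρ)

/-- Primes of `C[x]` are associated to `x - γ` (`C` algebraically closed). -/
theorem exists_eq_of_prime [IsAlgClosed C] (hx : Transcendental C x)
    (π : ↥(Algebra.adjoin C {x})) (hπ : Prime π) :
    ∃ (γ : C) (a : C), a ≠ 0 ∧ π = algebraMap C _ a * piRho x γ := by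
  obtain ⟨p, rfl⟩ := (polyEquiv hx).surjective π
  have hp : Prime p := (MulEquiv.prime_iff (polyEquiv hx).toMulEquiv).1 hπ
  have hdeg : p.degree = 1 := IsAlgClosed.degree_eq_one_of_irreducible C hp.irreducible
  have hp2 := Polynomial.eq_X_add_C_of_degree_eq_one hdeg
  have ha : p.leadingCoeff ≠ 0 := Polynomial.leadingCoeff_ne_zero.2 hp.ne_zero
  refine ⟨-(p.coeff 0 / p.leadingCoeff), p.leadingCoeff, ha, ?_⟩
  rw [← polyEquiv_X_sub_C hx, ← polyEquiv_C hx, ← map_mul]
  congr 1
  conv_lhs => rw [hp2]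
  rw [Polynomial.C_neg, sub_neg_eq_add, mul_add, ← Polynomial.C_mul, mul_div_cancel₀ _ ha]

end Fermat.Agent.S27.REDu.H34
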