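import Fermat.Agent.S27.REDu.H79_ConsDefs

/-!
# G-RED package CONS (helper79 + helper10): interface of C6 (conservation on a chart) and
C7 (glueing of the charts `x`, `x' = 1/(x - c₀)`)

* `ChartCons S x hx r` : conservation on the chart `x` for all Gauss units
  (= conclusion of helper10's `H10.chart_conservation`, C6 = C3 + C5).
* `IsRedAbs S r` : the conservation law `r_* (div f) = div (red f)` for all Gauss units
  (`IsRed O h r` of `RED/Core.lean` is `IsRedAbs (redSetting O h) r`).
This file contains no `sorry`.
-/

set_option autoImplicit false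

universe uC uCf uK uR uF uL uE uk ukap uFp uFt uFtp uiot uEp uKp ux3b1

noncomputable section

open AlgebraicCurve IntermediateField

namespace Fermat.Agent.S27.REDu.H79

open Fermat.Agent.S27.REDu.H34 Fermat.Agent.S27.REDu.H51

variable {C : Type uC} {F : Type uF} {k : Type uk} {Ft : Type uFt} [Field C] [Field F] [Algebra C F] [Field k] [Field Ft] [Algebra k Ft]

open Classical in
/-- **(C6)** conservation on the chart `x`: for a Gauss unit `f` with divisor `D` and a place `Q`
of `Ft` finite over `xt`: `Σ_{P in the chart, r P = Q} ord_P f = ord_Q (red f)`. -/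
def ChartCons (S : RedSetting C F k Ft) (x : F) (hx : x ∈ S.V)
    (r : Place C F → Place k Ft) : Prop :=
  ∀ f : ↥S.V, IsUnit f → ∀ D : Divisor C F, (∀ P, D P = P.ord (f : F)) →
    ∀ Q : Place k Ft, S.red ⟨x, hx⟩ ∈ Q.toValuationSubring →
      ∑ P ∈ D.support.filter (fun P => InChart S x P ∧ r P = Q), D P = Q.ord (S.red f)

/-- The conservation law `r_* (div f) = div (red f)` for every Gauss unit `f`. -/
def IsRedAbs (S : RedSetting C F k Ft) (r : Place C F → Place k Ft) : Prop :=
  ∀ f : ↥S.V, IsUnit f → ∀ D : Divisor C F, (∀ P, D P = P.ord (f : F)) →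
    ∀ Q : Place k Ft, Finsupp.mapDomain r D Q = Q.ord (S.red f)

end Fermat.Agent.S27.REDu.H79
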