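import Fermat.Agent.S27.REDu.H10_ConsChart
import Fermat.Agent.S27.REDu.H79_ConsC5

/-!
# G-RED package CONS (helper10), part C6: conservation on a chart

`S : RedSetting C F k Ft`, `x` a good chart, `r` a map on places with `RedTo P (r P)` for the
places `P` of the chart.

* `chart_conservation_int` : for a Gauss unit `f ∈ R = B ∩ V` and `Q` finite over `xt`:
  `∑_{P in the chart, r P = Q} ord_P f = ord_Q (red f)`   (C3 + helper79's C5);
* `chart_conservation` : the same for every Gauss unit `f`.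
-/

set_option autoImplicit false

universe uC uCf uK uR uF uL uE uk ukap uFp uFt uFtp uiot uEp uKp ux3b1

noncomputable section

open AlgebraicCurve Polynomial IntermediateField

namespace Fermat.Agent.S27.REDu.H10

open Fermat.Agent.S27.REDu.H34 Fermat.Agent.S27.REDu.H34.RedSetting Fermat.Agent.S27.REDu.H51
  Fermat.Agent.S27.REDu.H79

open scoped IntermediateField.algebraAdjoinAdjoin

variable {C : Type uC} {F : Type uF} {k : Type uk} {Ft : Type uFt} [Field C] [Field F] [Algebra C F] [Field k] [Field Ft] [Algebra k Ft]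
variable {S : RedSetting C F k Ft} {x : F} (hx : x ∈ S.V)

/-- For a place of the chart, `RedTo` gives the value of `xt` at the reduction. -/
theorem RedTo.ordGe_x {P : Place C F} {Q : Place k Ft} (h : RedTo S x hx P Q) (a : ↥S.O)
    (ha : OrdGe P 1 (x - algebraMap C F (a : C))) :
    OrdGe Q 1 (S.red ⟨x, hx⟩ - algebraMap k Ft (S.resO a)) :=
  h.2 ⟨x, hx⟩ (isIntegral_gen x) a ha

open Classical in
/-- **(C6)** for Gauss units of `R = B ∩ V`. -/
theorem chart_conservation_int [IsAlgClosed C] [CharZero C] [IsAlgClosed k]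
    (hFF : IsFF C F) (hFFt : IsFF k Ft) (gc : GoodChart S x hx)
    (r : Place C F → Place k Ft) (hr : ∀ P, InChart S x P → RedTo S x hx P (r P))
    (f : ↥S.V) (hfu : IsUnit f) (hfi : IsIntegral ↥(Algebra.adjoin C {x}) (f : F))
    (D : Divisor C F) (hD : ∀ P, D P = P.ord (f : F))
    (Q : Place k Ft) (hQ : S.red ⟨x, hx⟩ ∈ Q.toValuationSubring) :
    ∑ P ∈ D.support.filter (fun P => InChart S x P ∧ r P = Q), D P = Q.ord (S.red f) := by
  have hxt := gc.transc
  have hfin := gc.fin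
  have hI : ChartIntegral S x hx := chartIntegral hx hFF gc
  have hQdeg : Q.deg = 1 := H51.stmt_FFB_deg k Ft hFFt Q
  set γ : k := valHom Q hQdeg ⟨S.red ⟨x, hx⟩, hQ⟩ with hγ
  have hQγ : OrdGe Q 1 (S.red ⟨x, hx⟩ - algebraMap k Ft γ) :=
    ordGe_sub_valHom Q hQdeg ⟨S.red ⟨x, hx⟩, hQ⟩
  have hfinT : FiniteDimensional ↥k⟮S.red ⟨x, hx⟩⟯ Ft :=
    Module.finite_of_finrank_pos (gc.deg ▸ Module.finrank_pos)
  obtain ⟨T', hT', -⟩ := fibre_norm hFFt (S.red ⟨x, hx⟩) hxt γ
  have hC3 := fibre_conservation hx hFF hFFt hxt gc.deg f hfu hfi D hD γ T' hT'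
  have hC5 : ∀ Q' ∈ T', Q'.ord (S.red f) ≤
      ∑ P ∈ D.support.filter (fun P => InChart S x P ∧ r P = Q'), D P := by
    intro Q' hQ'
    exact stmt_C5 C F k Ft S x hx gc hI r hr f hfu hfi D hD Q'
      (mem_of_ordGe_one_sub Q' ((hT' Q').mp hQ'))
  -- fibrewise decomposition of the left hand side of C3
  set φ : Place C F → Prop := fun P => ∃ a : ↥S.O, S.resO a = γ ∧
    OrdGe P 1 (x - algebraMap C F (a : C)) with hφ
  have hφin : ∀ P, φ P → InChart S x P := fun P ⟨a, _, ha⟩ => ⟨(a : C), a.2, ha⟩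
  have hmaps : ∀ P ∈ D.support.filter φ, r P ∈ T' := by
    intro P hP
    rw [Finset.mem_filter] at hP
    obtain ⟨a, ha1, ha2⟩ := hP.2
    rw [hT', ← ha1]
    exact RedTo.ordGe_x hx (hr P (hφin P hP.2)) a ha2
  have hfib : ∀ Q' ∈ T', (D.support.filter φ).filter (fun P => r P = Q') =
      D.support.filter (fun P => InChart S x P ∧ r P = Q') := by
    intro Q' hQ'
    ext P
    simp only [Finset.mem_filter]
    constructor
    · rintro ⟨⟨h1, h2⟩, h3⟩
      exact ⟨h1, hφin P h2, h3⟩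
    · rintro ⟨h1, h2, h3⟩
      refine ⟨⟨h1, ?_⟩, h3⟩
      obtain ⟨a, haV, ha⟩ := h2
      have h4 := RedTo.ordGe_x hx (hr P ⟨a, haV, ha⟩) ⟨a, haV⟩ ha
      rw [h3] at h4
      have h5 := value_unique_ordGe Q' h4 ((hT' Q').mp hQ')
      exact ⟨⟨a, haV⟩, h5, ha⟩
  have hsum : ∑ Q' ∈ T', ∑ P ∈ D.support.filter (fun P => InChart S x P ∧ r P = Q'), D P =
      ∑ Q' ∈ T', Q'.ord (S.red f) := by
    rw [← hC3, ← Finset.sum_fiberwise_of_maps_to hmaps]
    exact Finset.sum_congr rfl fun Q' hQ' => by rw [hfib Q' hQ']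
  have hQT : Q ∈ T' := (hT' Q).mpr hQγ
  have hzero : ∀ Q' ∈ T', (∑ P ∈ D.support.filter (fun P => InChart S x P ∧ r P = Q'), D P) -
      Q'.ord (S.red f) = 0 := by
    refine (Finset.sum_eq_zero_iff_of_nonneg ?_).mp ?_
    · intro Q' hQ'
      have := hC5 Q' hQ'
      omega
    · rw [Finset.sum_sub_distrib, hsum, sub_self]
  have := hzero Q hQT
  omega

/-- Sums over the support of a divisor can be taken over any larger finite set. -/
theorem sum_support_filter_eq {α : Type ux3b1} (D : α →₀ ℤ) (U : Finset α) (hU : D.support ⊆ U)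
    (ψ : α → Prop) [DecidablePred ψ] :
    ∑ P ∈ D.support.filter ψ, D P = ∑ P ∈ U.filter ψ, D P := by
  refine Finset.sum_subset (Finset.filter_subset_filter ψ hU) ?_
  intro P hP hPn
  rw [Finset.mem_filter] at hP hPn
  by_contra hne
  exact hPn ⟨Finsupp.mem_support_iff.mpr hne, hP.2⟩

open Classical in
/-- **(C6)** conservation on a chart, for every Gauss unit. -/
theorem chart_conservation [IsAlgClosed C] [CharZero C] [IsAlgClosed k]
    (hFF : IsFF C F) (hFFt : IsFF k Ft) (gc : GoodChart S x hx)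
    (r : Place C F → Place k Ft) (hr : ∀ P, InChart S x P → RedTo S x hx P (r P))
    (f : ↥S.V) (hfu : IsUnit f)
    (D : Divisor C F) (hD : ∀ P, D P = P.ord (f : F))
    (Q : Place k Ft) (hQ : S.red ⟨x, hx⟩ ∈ Q.toValuationSubring) :
    ∑ P ∈ D.support.filter (fun P => InChart S x P ∧ r P = Q), D P = Q.ord (S.red f) := by
  have hxt := gc.transc
  have hfin := gc.fin
  have hxC := transcendental_x hx hxt
  -- a denominator
  have halgK : IsAlgebraic ↥C⟮x⟯ (f : F) := Algebra.IsAlgebraic.isAlgebraic _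
  have halg : IsAlgebraic ↥(Algebra.adjoin C {x}) (f : F) :=
    (IsFractionRing.isAlgebraic_iff ↥(Algebra.adjoin C {x}) ↥C⟮x⟯ F).mpr halgK
  obtain ⟨y, hy0, hyint⟩ := halg.exists_integral_multiple
  obtain ⟨p, rfl⟩ := (polyEquiv hxC).surjective y
  have hp : p ≠ 0 := fun h => hy0 (by rw [h, map_zero])
  obtain ⟨c, hc, p₀, hp₀, hu₂, -, he⟩ := exists_decomp hx hxt p hp
  set f₂ : ↥S.V := psi hx p₀ with hf₂
  have hf₂i : IsIntegral ↥(Algebra.adjoin C {x}) (f₂ : F) := by
    have h1 : (f₂ : F) = algebraMap ↥(Algebra.adjoin C {x}) F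
        (polyEquiv hxC (p₀.map S.O.subtype)) := by
      rw [hf₂, coe_psi]
      exact (coe_polyEquiv hxC _).symm
    rw [h1]
    exact isIntegral_algebraMap
  have hyF : ((polyEquiv hxC p : ↥(Algebra.adjoin C {x})) : F) =
      algebraMap C F c * (f₂ : F) := by
    rw [coe_polyEquiv, he]
  have hf₁u : IsUnit (f * f₂) := hfu.mul hu₂
  have hf₁i : IsIntegral ↥(Algebra.adjoin C {x}) ((f * f₂ : ↥S.V) : F) := by
    have h1 : ((f * f₂ : ↥S.V) : F) = algebraMap C F c⁻¹ * (polyEquiv hxC p • (f : F)) := by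
      rw [Algebra.smul_def]
      show (f : F) * (f₂ : F) = algebraMap C F c⁻¹ *
        (((polyEquiv hxC p : ↥(Algebra.adjoin C {x})) : F) * (f : F))
      rw [hyF, map_inv₀]
      have hc' : algebraMap C F c ≠ 0 := (map_ne_zero (algebraMap C F)).mpr hc
      field_simp
    rw [h1]
    exact (isIntegral_const x c⁻¹).mul hyint
  -- the divisors
  have hne : ∀ g : ↥S.V, IsUnit g → (g : F) ≠ 0 := by
    intro g hg h0
    have : g = 0 := Subtype.ext h0
    rw [this] at hg
    exact not_isUnit_zero hg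
  have hP : HasPrincipalDivisors C F := stmt_FFB_principal C F hFF
  obtain ⟨D₁, hD₁, -⟩ := hP.exists_divisor _ (hne _ hf₁u)
  obtain ⟨D₂, hD₂, -⟩ := hP.exists_divisor _ (hne _ hu₂)
  have h1 := chart_conservation_int hx hFF hFFt gc r hr (f * f₂) hf₁u hf₁i D₁ hD₁ Q hQ
  have h2 := chart_conservation_int hx hFF hFFt gc r hr f₂ hu₂ hf₂i D₂ hD₂ Q hQ
  have hDD : ∀ P, D P = D₁ P - D₂ P := by
    intro P
    rw [hD, hD₁, hD₂]
    show P.ord (f : F) = P.ord ((f : F) * (f₂ : F)) - P.ord (f₂ : F)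
    rw [P.ord_mul (hne _ hfu) (hne _ hu₂)]
    ring
  set U : Finset (Place C F) := D.support ∪ D₁.support ∪ D₂.support with hU
  rw [sum_support_filter_eq D U (by rw [hU]; intro a ha; simp [ha])
    (fun P => InChart S x P ∧ r P = Q)]
  rw [sum_support_filter_eq D₁ U (by rw [hU]; intro a ha; simp [ha])
    (fun P => InChart S x P ∧ r P = Q)] at h1
  rw [sum_support_filter_eq D₂ U (by rw [hU]; intro a ha; simp [ha])
    (fun P => InChart S x P ∧ r P = Q)] at h2
  have h3 : S.red (f * f₂) = S.red f * S.red f₂ := map_mul _ _ _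
  have hr0 : S.red f ≠ 0 := (hfu.map S.red).ne_zero
  have hr2 : S.red f₂ ≠ 0 := (hu₂.map S.red).ne_zero
  rw [h3, Q.ord_mul hr0 hr2] at h1
  have h4 : ∑ P ∈ U.filter (fun P => InChart S x P ∧ r P = Q), D P =
      ∑ P ∈ U.filter (fun P => InChart S x P ∧ r P = Q), D₁ P -
        ∑ P ∈ U.filter (fun P => InChart S x P ∧ r P = Q), D₂ P := by
    rw [← Finset.sum_sub_distrib]
    exact Finset.sum_congr rfl fun P _ => hDD P
  rw [h4, h1, h2]
  ring

end Fermat.Agent.S27.REDu.H10
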