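import Fermat.Agent.S27.REDu.H51_Final
import Fermat.Agent.S27.REDu.H51_ZerosLe

/-!
# G-RED package CONS (helper10), DICT (a): the norm formula on the fibres of a coordinate

`F / K` a function field over an algebraically closed field (any characteristic), `x ∈ F`
transcendental with `[F : K(x)] < ∞`.

* `adjoin_gen_eq_top` : `K(x)` is generated by `x`, as a field of its own;
* `exists_unique_zero_of_top` : a generator of a rational function field has exactly one zero,
  and it is simple (char-free version of helper72's `h72_exists_unique_zero`);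
* `fibre_norm` : for `ρ ∈ K` there is a finite set `T` of places, `P ∈ T ↔ x(P) = ρ`, with
  `∑_{P ∈ T} ord_P f = rootMultiplicity ρ p` whenever `N_{F/K(x)} f = p(x)`.
-/

set_option autoImplicit false

universe uC uCf uK uR uF uL uE uk ukap uFp uFt uFtp uiot uEp uKp ux3b1

noncomputable section

open AlgebraicCurve Polynomial IntermediateField

namespace Fermat.Agent.S27.REDu.H10

open Fermat.Agent.S27.REDu.H51 Fermat.Agent.S24

section Gen

variable {K : Type uK} {F : Type uF} [Field K] [Field F] [Algebra K F]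

theorem adjoin_gen_eq_top (x : F) :
    K⟮AdjoinSimple.gen K x⟯ = (⊤ : IntermediateField K ↥K⟮x⟯) := by
  have h1 : (K⟮AdjoinSimple.gen K x⟯ : IntermediateField K ↥K⟮x⟯).map (K⟮x⟯.val) =
      (⊤ : IntermediateField K ↥K⟮x⟯).map (K⟮x⟯.val) := by
    rw [IntermediateField.adjoin_map, Set.image_singleton]
    rw [← AlgHom.fieldRange_eq_map, IntermediateField.fieldRange_val]
    rfl
  exact IntermediateField.map_injective _ h1

theorem finrank_of_eq_top (S : IntermediateField K F) (hS : S = ⊤) :
    FiniteDimensional ↥S F ∧ Module.finrank ↥S F = 1 := by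
  subst hS
  exact ⟨Module.finite_of_finrank_pos (by rw [IntermediateField.finrank_top]; exact one_pos),
    IntermediateField.finrank_top⟩

/-- A generator of a rational function field has exactly one zero, and it is simple. -/
theorem exists_unique_zero_of_top (hz : H59.ZerosStmt K F) (y : F) (hy : Transcendental K y)
    (htop : K⟮y⟯ = ⊤) :
    ∃ v : Place K F, v.ord y = 1 ∧ ∀ v' : Place K F, 0 < v'.ord y → v' = v := by
  classical
  obtain ⟨hfd, hrank⟩ := finrank_of_eq_top K⟮y⟯ htop
  obtain ⟨hfin, hsum⟩ := hz y hy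
  rw [hrank, finsum_mem_eq_finite_toFinset_sum _ hfin] at hsum
  have hpos : ∀ v ∈ hfin.toFinset, 0 < v.ord y := fun v hv => by
    simpa using hv
  have hne : hfin.toFinset.Nonempty := by
    by_contra hemp
    rw [Finset.not_nonempty_iff_eq_empty] at hemp
    rw [hemp, Finset.sum_empty] at hsum
    norm_num at hsum
  obtain ⟨v, hv⟩ := hne
  have hle : ∀ v' ∈ hfin.toFinset, v' ≠ v → False := by
    intro v' hv' hne'
    have h2 : v.ord y + v'.ord y ≤ ∑ u ∈ hfin.toFinset, u.ord y := by
      have hsub : ({v, v'} : Finset (Place K F)) ⊆ hfin.toFinset := by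
        intro u hu
        rcases Finset.mem_insert.mp hu with rfl | hu
        · exact hv
        · rw [Finset.mem_singleton.mp hu]; exact hv'
      calc v.ord y + v'.ord y = ∑ u ∈ ({v, v'} : Finset (Place K F)), u.ord y := by
            rw [Finset.sum_pair (Ne.symm hne')]
        _ ≤ ∑ u ∈ hfin.toFinset, u.ord y :=
            Finset.sum_le_sum_of_subset_of_nonneg hsub
              (fun u hu _ => (hpos u hu).le)
    have := hpos v hv
    have := hpos v' hv'
    rw [hsum] at h2
    push_cast at h2
    omega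
  refine ⟨v, ?_, ?_⟩
  · have h1 : v.ord y ≤ ∑ u ∈ hfin.toFinset, u.ord y :=
      Finset.single_le_sum (f := fun u : Place K F => u.ord y)
        (fun u hu => (hpos u hu).le) hv
    have := hpos v hv
    rw [hsum] at h1
    push_cast at h1
    omega
  · intro v' hv'
    by_contra hne'
    exact hle v' (by simpa using hv') hne'

/-- **The norm formula on the fibre `x = ρ`.** -/
theorem fibre_norm [IsAlgClosed K] (hFF : IsFF K F) (x : F) (hx : Transcendental K x)
    [FiniteDimensional ↥K⟮x⟯ F] (ρ : K) :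
    ∃ T : Finset (Place K F), (∀ P, P ∈ T ↔ OrdGe P 1 (x - algebraMap K F ρ)) ∧
      ∀ (f : F) (p : K[X]), f ≠ 0 →
        ((Algebra.norm ↥K⟮x⟯ f : ↥K⟮x⟯) : F) = Polynomial.aeval x p →
        ∑ P ∈ T, P.ord f = (p.rootMultiplicity ρ : ℤ) := by
  classical
  -- the rational function field `E = K(x)` and its generator `y = x - ρ`
  set g : ↥K⟮x⟯ := AdjoinSimple.gen K x with hg
  have hgx : algebraMap ↥K⟮x⟯ F g = x := rfl
  have hgtr : Transcendental K g :=
    (transcendental_algebraMap_iff (algebraMap ↥K⟮x⟯ F).injective).mp (by rw [hgx]; exact hx)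
  have hgtop : K⟮g⟯ = (⊤ : IntermediateField K ↥K⟮x⟯) := adjoin_gen_eq_top x
  have hfinE : FiniteDimensional ↥K⟮g⟯ ↥K⟮x⟯ := (finrank_of_eq_top K⟮g⟯ hgtop).1
  have hFFE : IsFF K ↥K⟮x⟯ := ⟨g, hgtr, hfinE⟩
  have hzE : H59.ZerosStmt K ↥K⟮x⟯ := zerosAll K ↥K⟮x⟯ hFFE
  have hzF : H59.ZerosStmt K F := zerosAll K F hFF
  have : HasPrincipalDivisors K F := stmt_FFB_principal K F hFF
  set y : ↥K⟮x⟯ := g - algebraMap K ↥K⟮x⟯ ρ with hy
  have hytr : Transcendental K y := by
    intro halg
    apply hgtr
    have h1 : g = y + algebraMap K ↥K⟮x⟯ ρ := by rw [hy]; ring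
    rw [h1]
    exact halg.add (isAlgebraic_algebraMap ρ)
  have hytop : K⟮y⟯ = (⊤ : IntermediateField K ↥K⟮x⟯) := by
    rw [eq_top_iff, ← hgtop, adjoin_simple_le_iff]
    have h1 : g = y + algebraMap K ↥K⟮x⟯ ρ := by rw [hy]; ring
    rw [h1]
    exact add_mem (mem_adjoin_simple_self K y) (IntermediateField.algebraMap_mem _ ρ)
  obtain ⟨v₀, hv₀, huniq⟩ := exists_unique_zero_of_top hzE y hytr hytop
  have hyx : algebraMap ↥K⟮x⟯ F y = x - algebraMap K F ρ := by
    rw [hy, map_sub, hgx, ← IsScalarTower.algebraMap_apply]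
  have hxρ : x - algebraMap K F ρ ≠ 0 := by
    rw [← hyx]
    intro h0
    have : y = 0 := (map_eq_zero (algebraMap ↥K⟮x⟯ F)).mp h0
    rw [this] at hv₀
    simp at hv₀
  refine ⟨v₀.fiber F, ?_, ?_⟩
  · intro P
    rw [Place.mem_fiber]
    constructor
    · intro hP
      refine Or.inr ?_
      rw [← hyx, P.ord_restrict y, hP, hv₀, mul_one]
      have := P.ramificationIndex_pos (F := ↥K⟮x⟯)
      omega
    · rintro (h0 | h1)
      · exact absurd h0 hxρ
      · apply huniq
        rw [← hyx, P.ord_restrict y] at h1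
        have hepos := P.ramificationIndex_pos (F := ↥K⟮x⟯)
        by_contra hneg
        rw [not_lt] at hneg
        have : (P.ramificationIndex ↥K⟮x⟯ : ℤ) * (P.restrict ↥K⟮x⟯).ord y ≤ 0 :=
          mul_nonpos_of_nonneg_of_nonpos (by omega) hneg
        omega
  · intro f p hf hN
    have hdegF : ∀ w : Place K F, w.deg = 1 := fun w => ff_deg_eq_one x hx w
    have hsum := sum_ramificationIndex_eq hzE hzF hgtr hx v₀ (v₀.fiber F)
      (fun w => Place.mem_fiber)
    rw [← norm_ord v₀ (v₀.fiber F) (fun w hw => Place.mem_fiber.mp hw) hsum hdegF hf]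
    have hNE : Algebra.norm ↥K⟮x⟯ f = Polynomial.aeval g p := by
      apply (algebraMap ↥K⟮x⟯ F).injective
      rw [← Polynomial.aeval_algebraMap_apply, hgx]
      exact hN
    have hp : p ≠ 0 := by
      rintro rfl
      rw [map_zero] at hNE
      exact hf (Algebra.norm_eq_zero_iff.mp hNE)
    have hcomp : Polynomial.aeval g p = Polynomial.aeval y (p.comp (X + C ρ)) := by
      rw [Polynomial.aeval_comp, map_add, Polynomial.aeval_X, Polynomial.aeval_C, hy,
        sub_add_cancel]
    have hp' : p.comp (X + C ρ) ≠ 0 := by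
      intro h0
      apply hp
      have := congrArg (fun q : K[X] => q.comp (X - C ρ)) h0
      simpa [Polynomial.comp_assoc] using this
    rw [hNE, hcomp, (ord_aeval v₀ (by omega) hp').2, hv₀, mul_one,
      ← Polynomial.rootMultiplicity_eq_rootMultiplicity]

end Gen

end Fermat.Agent.S27.REDu.H10
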