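import Fermat.Agent.S27.REDu.H79_ConsDefs
import Fermat.Agent.S27.REDu.H34_Int
import Fermat.Agent.S27.REDu.H17_Place
import Fermat.Agent.S27.REDu.H51_Basic

/-!
# G-RED package CONS (helper10), part C2: integrality on a chart

* `valHom P hdeg : O_P →+* K` : the value of a regular function at a place of degree one, as a
  ring homomorphism; `ordGe_sub_valHom`, `valHom_eq_of_ordGe`.
* `mem_of_isIntegral_adjoin` : `B ⊂ O_P` if `x ∈ O_P`.
* `chartIntegral` : `GoodChart S x hx → ChartIntegral S x hx` (C2), from helper34's (INT)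
  `H34.RedSetting.exists_monic_of_mem`.
-/

set_option autoImplicit false

universe uC uCf uK uR uF uL uE uk ukap uFp uFt uFtp uiot uEp uKp ux3b1

noncomputable section

open AlgebraicCurve Polynomial IntermediateField

namespace Fermat.Agent.S27.REDu.H10

open Fermat.Agent.S27.REDu.H34 Fermat.Agent.S27.REDu.H34.RedSetting Fermat.Agent.S27.REDu.H51
  Fermat.Agent.S27.REDu.H79

section ValHom

variable {K F : Type*} [Field K] [Field F] [Algebra K F]

theorem ordGe_one_iff_vanAt (v : Place K F) (f : F) : OrdGe v 1 f ↔ H17.VanAt v f := by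
  rw [H17.vanAt_iff_ord]
  unfold OrdGe
  constructor
  · rintro (h | h)
    · exact Or.inl h
    · exact Or.inr (by omega)
  · rintro (h | h)
    · exact Or.inl h
    · exact Or.inr (by omega)

theorem ordGe_one_iff_mem_maximalIdeal (v : Place K F) (a : ↥v.toValuationSubring) :
    OrdGe v 1 (a : F) ↔ a ∈ IsLocalRing.maximalIdeal ↥v.toValuationSubring := by
  rw [ordGe_one_iff_vanAt]
  unfold H17.VanAt
  rw [v.adicValuation_coe]
  exact IsDedekindDomain.HeightOneSpectrum.intValuation_lt_one_iff_mem _ _

/-- The value at a place of degree one, as a ring homomorphism `O_P → K`. -/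
def valHom (v : Place K F) (hdeg : v.deg = 1) : ↥v.toValuationSubring →+* K :=
  ((RingEquiv.ofBijective (algebraMap K v.ResidueField)
    (Algebra.finrank_eq_one_iff_bijective_algebraMap.mp hdeg)).symm : v.ResidueField →+* K).comp
    (IsLocalRing.residue ↥v.toValuationSubring)

theorem algebraMap_valHom (v : Place K F) (hdeg : v.deg = 1) (a : ↥v.toValuationSubring) :
    algebraMap K v.ResidueField (valHom v hdeg a) = IsLocalRing.residue _ a := by
  unfold valHom
  exact (RingEquiv.ofBijective (algebraMap K v.ResidueField)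
    (Algebra.finrank_eq_one_iff_bijective_algebraMap.mp hdeg)).apply_symm_apply _

theorem valHom_algebraMap (v : Place K F) (hdeg : v.deg = 1) (c : K) :
    valHom v hdeg (algebraMap K ↥v.toValuationSubring c) = c := by
  have hinj : Function.Injective (algebraMap K v.ResidueField) :=
    (Algebra.finrank_eq_one_iff_bijective_algebraMap.mp hdeg).1
  apply hinj
  rw [algebraMap_valHom]
  rfl

theorem ordGe_sub_valHom (v : Place K F) (hdeg : v.deg = 1) (a : ↥v.toValuationSubring) :
    OrdGe v 1 ((a : F) - algebraMap K F (valHom v hdeg a)) := by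
  have h1 : (a : F) - algebraMap K F (valHom v hdeg a) =
      ((a - algebraMap K ↥v.toValuationSubring (valHom v hdeg a) : ↥v.toValuationSubring) : F) :=
    rfl
  rw [h1, ordGe_one_iff_mem_maximalIdeal, ← IsLocalRing.residue_eq_zero_iff, map_sub,
    ← algebraMap_valHom v hdeg a, sub_eq_zero]
  rfl

theorem valHom_eq_of_ordGe (v : Place K F) (hdeg : v.deg = 1) (a : ↥v.toValuationSubring)
    {c : K} (h : OrdGe v 1 ((a : F) - algebraMap K F c)) : valHom v hdeg a = c := by
  have h1 := ordGe_sub_valHom v hdeg a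
  rw [ordGe_one_iff_vanAt] at h h1
  exact H17.value_unique v h1 h

theorem mem_of_ordGe_one_sub (v : Place K F) {f : F} {c : K}
    (h : OrdGe v 1 (f - algebraMap K F c)) : f ∈ v.toValuationSubring := by
  rw [ordGe_one_iff_vanAt] at h
  exact (H17.regAt_iff_mem v f).mp (H17.RegAt.of_vanAt_sub h)

end ValHom

section Chart

variable {C : Type uC} {F : Type uF} {k : Type uk} {Ft : Type uFt} [Field C] [Field F] [Algebra C F] [Field k] [Field Ft] [Algebra k Ft]
variable {S : RedSetting C F k Ft} {x : F} (hx : x ∈ S.V)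

/-- The ring hom `O[X] → F`, `X ↦ x`. -/
def phiF (S : RedSetting C F k Ft) (x : F) : (↥S.O)[X] →+* F :=
  ((Polynomial.aeval x : C[X] →ₐ[C] F) : C[X] →+* F).comp (Polynomial.mapRingHom S.O.subtype)

theorem phiF_C (a : ↥S.O) : phiF S x (Polynomial.C a) = algebraMap C F (a : C) := by
  simp [phiF]

theorem phiF_X : phiF S x Polynomial.X = x := by
  simp [phiF]

theorem subtype_comp_psi : S.V.subtype.comp (psi hx) = phiF S x := by
  apply Polynomial.ringHom_ext
  · intro a
    rw [phiF_C]
    simp [psi]
  · rw [phiF_X]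
    simp [psi]

/-- **(INT)** in `F`: an element of `B ∩ V` satisfies a monic equation over `O[x]`. -/
theorem exists_monic_phiF [CharZero C] (hxt : Transcendental k (S.red ⟨x, hx⟩))
    [FiniteDimensional ↥C⟮x⟯ F]
    (hdeg : Module.finrank ↥k⟮S.red ⟨x, hx⟩⟯ Ft = Module.finrank ↥C⟮x⟯ F)
    (f : F) (hfi : IsIntegral ↥(Algebra.adjoin C {x}) f) (hfV : f ∈ S.V) :
    ∃ Φ : ((↥S.O)[X])[X], Φ.Monic ∧ Polynomial.eval₂ (phiF S x) f Φ = 0 := by
  obtain ⟨Φ, hΦ, h0⟩ := exists_monic_of_mem hx hxt hdeg (⟨f, hfi⟩ : ↥(Bx (C := C) x)) hfV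
  refine ⟨Φ, hΦ, ?_⟩
  have h1 := congrArg ((Bx (C := C) x).toSubring.subtype) h0
  rw [Polynomial.hom_eval₂, map_zero] at h1
  have h2 : ((Bx (C := C) x).toSubring.subtype).comp
      ((algebraMap ↥(Algebra.adjoin C {x}) ↥(Bx (C := C) x)).comp
        (S.psiR (transcendental_x hx hxt))) = phiF S x := by
    apply Polynomial.ringHom_ext
    · intro a
      rw [phiF_C]
      show ((S.psiR (transcendental_x hx hxt) (Polynomial.C a) : ↥(Algebra.adjoin C {x})) : F) = _
      rw [coe_psiR hx]
      simp [psi]
    · rw [phiF_X]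
      show ((S.psiR (transcendental_x hx hxt) Polynomial.X : ↥(Algebra.adjoin C {x})) : F) = _
      rw [coe_psiR hx]
      simp [psi]
  rw [h2] at h1
  exact h1

/-- `B ⊂ O_P` for the places `P` finite over `x`. -/
theorem mem_of_isIntegral_adjoin (P : Place C F) (hxP : x ∈ P.toValuationSubring) (f : F)
    (hfi : IsIntegral ↥(Algebra.adjoin C {x}) f) : f ∈ P.toValuationSubring := by
  have hle : ∀ a : ↥(Algebra.adjoin C {x}), (a : F) ∈ P.toValuationSubring := by
    intro a
    have h1 : Algebra.adjoin C {x} ≤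
        { P.toValuationSubring.toSubring with
          algebraMap_mem' := fun c => P.algebraMap_mem' c } := by
      apply Algebra.adjoin_le
      intro y hy
      rw [Set.mem_singleton_iff] at hy
      rw [hy]
      exact hxP
    exact h1 a.2
  let j : ↥(Algebra.adjoin C {x}) →+* ↥P.toValuationSubring :=
    { toFun := fun a => ⟨(a : F), hle a⟩
      map_one' := rfl
      map_mul' := fun _ _ => rfl
      map_zero' := rfl
      map_add' := fun _ _ => rfl }
  obtain ⟨p, hp, h0⟩ := hfi
  have hint : IsIntegral ↥P.toValuationSubring f := by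
    refine ⟨p.map j, hp.map j, ?_⟩
    rw [Polynomial.eval₂_map]
    exact h0
  obtain ⟨y, hy⟩ := IsIntegrallyClosed.isIntegral_iff.mp hint
  rw [← hy]
  exact y.2

/-- **(C2)** integrality on the chart. -/
theorem chartIntegral [IsAlgClosed C] [CharZero C] (hFF : IsFF C F) (gc : GoodChart S x hx) :
    ChartIntegral S x hx := by
  have hxt := gc.transc
  have := gc.fin
  intro f hfi
  obtain ⟨Φ, hΦ, h0⟩ := exists_monic_phiF hx hxt gc.deg (f : F) hfi f.2
  refine ⟨?_, ?_⟩
  · -- the reduction is integral over `k[xt]`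
    have h1 : Polynomial.eval₂ (psi hx) f Φ = 0 := by
      apply Subtype.ext
      have := Polynomial.hom_eval₂ Φ (psi hx) S.V.subtype f
      rw [subtype_comp_psi] at this
      exact this.trans h0
    have h2 := congrArg S.red h1
    rw [Polynomial.hom_eval₂, map_zero] at h2
    let g : (↥S.O)[X] →+* ↥(Algebra.adjoin k {S.red ⟨x, hx⟩}) :=
      ((polyEquiv hxt).toRingEquiv.toRingHom).comp (Polynomial.mapRingHom S.resO)
    have h3 : S.red.comp (psi hx) =
        (algebraMap ↥(Algebra.adjoin k {S.red ⟨x, hx⟩}) Ft).comp g := by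
      refine RingHom.ext fun p₀ => ?_
      show S.red (psi hx p₀) = _
      rw [red_psi]
      exact (coe_polyEquiv hxt _).symm
    rw [h3] at h2
    refine ⟨Φ.map g, hΦ.map g, ?_⟩
    rw [Polynomial.eval₂_map]
    exact h2
  · -- values in `O`
    rintro P ⟨ρ, hρ, hP⟩
    have hdeg : P.deg = 1 := H51.stmt_FFB_deg C F hFF P
    have hxP : x ∈ P.toValuationSubring := mem_of_ordGe_one_sub P hP
    have hfP : (f : F) ∈ P.toValuationSubring := mem_of_isIntegral_adjoin P hxP _ hfi
    -- the ring hom `O[X] → O_P`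
    let ιO : ↥S.O →+* ↥P.toValuationSubring :=
      { toFun := fun a => ⟨algebraMap C F (a : C), P.algebraMap_mem' _⟩
        map_one' := by apply Subtype.ext; simp
        map_mul' := fun _ _ => by apply Subtype.ext; simp
        map_zero' := by apply Subtype.ext; simp
        map_add' := fun _ _ => by apply Subtype.ext; simp }
    let ψP : (↥S.O)[X] →+* ↥P.toValuationSubring := Polynomial.eval₂RingHom ιO ⟨x, hxP⟩
    have hψ : P.toValuationSubring.subtype.comp ψP = phiF S x := by
      apply Polynomial.ringHom_ext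
      · intro a
        rw [phiF_C]
        simp [ψP, ιO]
      · rw [phiF_X]
        simp [ψP]
    have h1 : Polynomial.eval₂ ψP (⟨(f : F), hfP⟩ : ↥P.toValuationSubring) Φ = 0 := by
      apply Subtype.ext
      have := Polynomial.hom_eval₂ Φ ψP P.toValuationSubring.subtype ⟨(f : F), hfP⟩
      rw [hψ] at this
      exact this.trans h0
    have h2 := congrArg (valHom P hdeg) h1
    rw [Polynomial.hom_eval₂, map_zero] at h2
    set a : C := valHom P hdeg ⟨(f : F), hfP⟩ with ha
    have h3 : (valHom P hdeg).comp ψP =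
        S.O.subtype.comp (Polynomial.evalRingHom (⟨ρ, hρ⟩ : ↥S.O)) := by
      apply Polynomial.ringHom_ext
      · intro c
        simp only [RingHom.comp_apply, Polynomial.coe_evalRingHom, Polynomial.eval_C]
        have : ψP (Polynomial.C c) = algebraMap C ↥P.toValuationSubring (c : C) := by
          apply Subtype.ext
          simp [ψP, ιO]
        rw [this, valHom_algebraMap]
        rfl
      · simp only [RingHom.comp_apply, Polynomial.coe_evalRingHom, Polynomial.eval_X]
        have : ψP Polynomial.X = ⟨x, hxP⟩ := by simp [ψP]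
        rw [this]
        exact valHom_eq_of_ordGe P hdeg ⟨x, hxP⟩ hP
    rw [h3] at h2
    have hint : IsIntegral ↥S.O a := by
      refine ⟨Φ.map (Polynomial.evalRingHom (⟨ρ, hρ⟩ : ↥S.O)), hΦ.map _, ?_⟩
      rw [Polynomial.eval₂_map]
      exact h2
    obtain ⟨y, hy⟩ := IsIntegrallyClosed.isIntegral_iff.mp hint
    refine ⟨y, ?_⟩
    have : ((y : ↥S.O) : C) = a := hy
    rw [this, ha]
    exact ordGe_sub_valHom P hdeg ⟨(f : F), hfP⟩

end Chart

end Fermat.Agent.S27.REDu.H10
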