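import Fermat.Agent.S27.REDu.H10_ConsNorm
import Fermat.Agent.S27.REDu.H10_ConsInt
import Fermat.Agent.S27.REDu.H10_ConsFibre
import Fermat.Agent.S27.REDu.H10_ConsRoots

/-!
# G-RED package CONS (helper10), part C3: fibre-wise conservation on a chart

`S : RedSetting C F k Ft`, chart `x ∈ V` with `[Ft : k(xt)] = [F : C(x)]`.

* `exists_norm_poly` : for `f ∈ R = B ∩ V` the norm `N f` is `p(x)` with `p ∈ O[X]`, and
  `N (red f) = (p mod m)(xt)`.
* `fibre_conservation` (C3) : for a Gauss unit `f ∈ R` and `γ ∈ k`: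
  `∑_{P : x(P) ∈ O, x(P) mod m = γ} ord_P f = ∑_{Q : xt(Q) = γ} ord_Q (red f)`.
-/

set_option autoImplicit false

universe uC uCf uK uR uF uL uE uk ukap uFp uFt uFtp uiot uEp uKp ux3b1

noncomputable section

open AlgebraicCurve Polynomial IntermediateField

namespace Fermat.Agent.S27.REDu.H10

open Fermat.Agent.S27.REDu.H34 Fermat.Agent.S27.REDu.H34.RedSetting Fermat.Agent.S27.REDu.H51
  Fermat.Agent.S27.REDu.H79

open scoped IntermediateField.algebraAdjoinAdjoin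

variable {C : Type uC} {F : Type uF} {k : Type uk} {Ft : Type uFt} [Field C] [Field F] [Algebra C F] [Field k] [Field Ft] [Algebra k Ft]
variable {S : RedSetting C F k Ft} {x : F} (hx : x ∈ S.V)

/-- The norm of an element of `R = B ∩ V` is a polynomial in `x` over `O`, and it reduces to the
norm of the reduction. -/
theorem exists_norm_poly (hxt : Transcendental k (S.red ⟨x, hx⟩)) [FiniteDimensional ↥C⟮x⟯ F]
    (hdeg : Module.finrank ↥k⟮S.red ⟨x, hx⟩⟯ Ft = Module.finrank ↥C⟮x⟯ F)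
    (f : ↥S.V) (hfi : IsIntegral ↥(Algebra.adjoin C {x}) (f : F)) :
    ∃ p₀ : (↥S.O)[X],
      ((Algebra.norm ↥C⟮x⟯ (f : F) : ↥C⟮x⟯) : F) = Polynomial.aeval x (p₀.map S.O.subtype) ∧
      ((Algebra.norm ↥k⟮S.red ⟨x, hx⟩⟯ (S.red f) : ↥k⟮S.red ⟨x, hx⟩⟯) : Ft) =
        Polynomial.aeval (S.red ⟨x, hx⟩) (p₀.map S.resO) := by
  classical
  have hxC := transcendental_x hx hxt
  obtain ⟨βF, hβV, βt, hβt⟩ := exists_ortho_basis hx hxt hdeg
  obtain ⟨t, ht1, ht2⟩ := norm_red hx βF hβV βt hβt hxt (f : F) f.2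
  have hpid : IsPrincipalIdealRing ↥(Algebra.adjoin C {x}) := isPrincipalIdealRing_adjoin hxC
  have hint : IsIntegral ↥(Algebra.adjoin C {x}) (Algebra.norm ↥C⟮x⟯ (f : F)) :=
    Algebra.isIntegral_norm ↥C⟮x⟯ hfi
  obtain ⟨a, ha⟩ := IsIntegrallyClosed.isIntegral_iff.mp hint
  have haF : (a : F) = ((t : ↥C⟮x⟯) : F) := by
    rw [ht1, ← ha]
    rfl
  have haV : (a : F) ∈ S.V := by
    rw [haF]
    exact t.2
  obtain ⟨p₀, hp₀⟩ := exists_psiR_eq hx hxt hxC a haV
  have hpsi : ((psi hx p₀ : ↥S.V) : F) = ((t : ↥C⟮x⟯) : F) := by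
    rw [← coe_psiR hx hxC, hp₀, haF]
  refine ⟨p₀, ?_, ?_⟩
  · rw [← ht1, ← hpsi, coe_psi]
  · have h1 : (⟨f, f.2⟩ : ↥S.V) = f := rfl
    rw [h1] at ht2
    rw [← ht2, coe_redx, ← red_psi]
    congr 1
    exact Subtype.ext hpsi.symm

/-- Uniqueness of the value of a function at a place. -/
theorem value_unique_ordGe {K : Type uK} {E : Type uE} [Field K] [Field E] [Algebra K E] (P : Place K E) {g : E}
    {a b : K} (ha : OrdGe P 1 (g - algebraMap K E a)) (hb : OrdGe P 1 (g - algebraMap K E b)) :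
    a = b := by
  rw [ordGe_one_iff_vanAt] at ha hb
  exact H17.value_unique P ha hb

open Classical in
/-- **(C3)** fibre-wise conservation: for a Gauss unit `f ∈ R` and `γ ∈ k`, the zeros of `f` in
the residue discs over `xt = γ` are as many as the zeros of `red f` over `xt = γ`. -/
theorem fibre_conservation [IsAlgClosed C] [IsAlgClosed k] (hFF : IsFF C F) (hFFt : IsFF k Ft)
    (hxt : Transcendental k (S.red ⟨x, hx⟩)) [FiniteDimensional ↥C⟮x⟯ F]
    (hdeg : Module.finrank ↥k⟮S.red ⟨x, hx⟩⟯ Ft = Module.finrank ↥C⟮x⟯ F)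
    (f : ↥S.V) (hfu : IsUnit f) (hfi : IsIntegral ↥(Algebra.adjoin C {x}) (f : F))
    (D : Divisor C F) (hD : ∀ P, D P = P.ord (f : F)) (γ : k)
    (T' : Finset (Place k Ft))
    (hT' : ∀ Q, Q ∈ T' ↔ OrdGe Q 1 (S.red ⟨x, hx⟩ - algebraMap k Ft γ)) :
    ∑ P ∈ D.support.filter (fun P => ∃ a : ↥S.O, S.resO a = γ ∧
        OrdGe P 1 (x - algebraMap C F (a : C))), D P = ∑ Q ∈ T', Q.ord (S.red f) := by
  have hxC := transcendental_x hx hxt
  have hfinT : FiniteDimensional ↥k⟮S.red ⟨x, hx⟩⟯ Ft :=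
    Module.finite_of_finrank_pos (hdeg ▸ Module.finrank_pos)
  obtain ⟨p₀, hN, hNt⟩ := exists_norm_poly hx hxt hdeg f hfi
  have hf0 : (f : F) ≠ 0 := by
    intro h0
    have : f = 0 := Subtype.ext h0
    rw [this] at hfu
    exact not_isUnit_zero hfu
  have hrf0 : S.red f ≠ 0 := (hfu.map S.red).ne_zero
  -- the right hand side
  obtain ⟨T'', hT'', hsum''⟩ := fibre_norm hFFt (S.red ⟨x, hx⟩) hxt γ
  have hTT : T'' = T' := Finset.ext fun Q => (hT'' Q).trans (hT' Q).symm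
  have hR : ∑ Q ∈ T', Q.ord (S.red f) = ((p₀.map S.resO).rootMultiplicity γ : ℤ) := by
    rw [← hTT]
    exact hsum'' _ _ hrf0 hNt
  have hp₀ : p₀.map S.resO ≠ 0 := by
    intro h0
    rw [h0, map_zero] at hNt
    have h1 : Algebra.norm ↥k⟮S.red ⟨x, hx⟩⟯ (S.red f) = 0 := Subtype.ext hNt
    exact hrf0 (Algebra.norm_eq_zero_iff.mp h1)
  have hp₀0 : p₀ ≠ 0 := fun h => hp₀ (by rw [h, Polynomial.map_zero])
  -- the fibres over `ρ ∈ O`
  choose T hT hsum using fun ρ : ↥S.O => fibre_norm hFF x hxC (ρ : C)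
  have hTsum : ∀ ρ : ↥S.O, ∑ P ∈ T ρ, P.ord (f : F) = (p₀.rootMultiplicity ρ : ℤ) := by
    intro ρ
    rw [hsum ρ (f : F) (p₀.map S.O.subtype) hf0 hN,
      Polynomial.eq_rootMultiplicity_map (f := S.O.subtype) Subtype.val_injective ρ]
    rfl
  have hTnonneg : ∀ (ρ : ↥S.O) (P : Place C F), P ∈ T ρ → 0 ≤ P.ord (f : F) := by
    intro ρ P hP
    have hxP : x ∈ P.toValuationSubring := mem_of_ordGe_one_sub P ((hT ρ P).mp hP)
    exact (mem_iff_ord_nonneg P hf0).mp (mem_of_isIntegral_adjoin P hxP _ hfi)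
  rw [hR, rootMultiplicity_map_res S.O S.resO (fun a => S.resO_eq_zero_iff a) p₀ hp₀ γ]
  -- the value function
  set φ : Place C F → Prop := fun P => ∃ a : ↥S.O, S.resO a = γ ∧
    OrdGe P 1 (x - algebraMap C F (a : C)) with hφ
  let val : Place C F → ↥S.O := fun P => if h : φ P then Classical.choose h else 0
  have hval : ∀ P, φ P → S.resO (val P) = γ ∧ OrdGe P 1 (x - algebraMap C F ((val P : ↥S.O) : C)) := by
    intro P h
    simp only [val, dif_pos h]
    exact Classical.choose_spec h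
  have hvaleq : ∀ (P : Place C F) (ρ : ↥S.O), OrdGe P 1 (x - algebraMap C F (ρ : C)) →
      S.resO ρ = γ → φ P ∧ val P = ρ := by
    intro P ρ h1 h2
    have hφP : φ P := ⟨ρ, h2, h1⟩
    exact ⟨hφP, Subtype.ext (value_unique_ordGe P (hval P hφP).2 h1)⟩
  have hmaps : ∀ P ∈ D.support.filter φ, val P ∈
      p₀.roots.toFinset.filter (fun ρ => S.resO ρ = γ) := by
    intro P hP
    rw [Finset.mem_filter] at hP
    obtain ⟨hPs, hPφ⟩ := hP
    obtain ⟨h1, h2⟩ := hval P hPφ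
    rw [Finset.mem_filter, Multiset.mem_toFinset, Polynomial.mem_roots hp₀0]
    refine ⟨?_, h1⟩
    have hPT : P ∈ T (val P) := (hT _ P).mpr h2
    have hne : P.ord (f : F) ≠ 0 := by
      rw [← hD P]
      exact Finsupp.mem_support_iff.mp hPs
    have hpos : 0 < P.ord (f : F) := lt_of_le_of_ne (hTnonneg _ P hPT) (Ne.symm hne)
    have hle : P.ord (f : F) ≤ ∑ P' ∈ T (val P), P'.ord (f : F) :=
      Finset.single_le_sum (f := fun P' : Place C F => P'.ord (f : F))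
        (fun P' hP' => hTnonneg _ P' hP') hPT
    rw [hTsum] at hle
    have : 0 < p₀.rootMultiplicity (val P) := by
      have : (0 : ℤ) < (p₀.rootMultiplicity (val P) : ℤ) := lt_of_lt_of_le hpos hle
      exact_mod_cast this
    exact (Polynomial.rootMultiplicity_pos hp₀0).mp this
  rw [← Finset.sum_fiberwise_of_maps_to hmaps]
  refine Finset.sum_congr rfl fun ρ hρ => ?_
  rw [Finset.mem_filter] at hρ
  rw [← hTsum ρ]
  have hsub : (D.support.filter φ).filter (fun P => val P = ρ) ⊆ T ρ := by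
    intro P hP
    rw [Finset.mem_filter, Finset.mem_filter] at hP
    obtain ⟨⟨-, hPφ⟩, hPv⟩ := hP
    rw [hT, ← hPv]
    exact (hval P hPφ).2
  rw [Finset.sum_subset hsub]
  · exact Finset.sum_congr rfl fun P _ => hD P
  · intro P hPT hPn
    obtain ⟨h1, h2⟩ := hvaleq P ρ ((hT ρ P).mp hPT) hρ.2
    by_contra hne
    apply hPn
    rw [Finset.mem_filter, Finset.mem_filter]
    exact ⟨⟨Finsupp.mem_support_iff.mpr hne, h1⟩, h2⟩

end Fermat.Agent.S27.REDu.H10
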