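import Fermat.Agent.S27.REDu.H34_IntCons

/-!
# G-RED package IG (helper34): the reduced order `Bbar = red (B ∩ V)`

* `exists_basis_of_le_integralClosure` : a full lattice in the integral closure over a PID has a basis.
* `RedSetting.Bbar` : `red (B ∩ V)` as a `k[xt]`-submodule of `Ft`; it consists of integral elements
  and spans `Ft` over `k(xt)`.
-/

set_option autoImplicit false

universe uC uCf uK uR uF uL uE uk ukap uFp uFt uFtp uiot uEp uKp ux3b1

noncomputable section

open Polynomial IntermediateField Module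
open scoped IntermediateField.algebraAdjoinAdjoin nonZeroDivisors

namespace Fermat.Agent.S27.REDu.H34

/-- A full `R`-lattice inside the integral closure has an `R`-basis which is a `K`-basis. -/
theorem exists_basis_of_le_integralClosure {R : Type uR} {K : Type uK} {L : Type uL} [CommRing R] [IsDomain R]
    [IsPrincipalIdealRing R] [Field K] [Field L] [Algebra R K] [IsFractionRing R K] [Algebra K L]
    [Algebra R L] [IsScalarTower R K L] [FiniteDimensional K L] [Algebra.IsSeparable K L]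
    (N : Submodule R L) (hN : ∀ y ∈ N, IsIntegral R y)
    (hspan : ∀ y : L, ∃ q : R, q ≠ 0 ∧ q • y ∈ N) :
    ∃ (m : ℕ) (b : Module.Basis (Fin m) K L), (∀ i, b i ∈ N) ∧
      ∀ y ∈ N, y ∈ Submodule.span R (Set.range b) := by
  classical
  have hinj : Function.Injective (algebraMap R L) := by
    rw [IsScalarTower.algebraMap_eq R K L]
    exact (algebraMap K L).injective.comp (IsFractionRing.injective R K)
  have htf : Module.IsTorsionFree R L := by
    rw [Module.isTorsionFree_iff_algebraMap_injective]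
    exact hinj
  have hfree : Module.Free R (integralClosure R L) :=
    IsIntegralClosure.module_free R K L (integralClosure R L)
  have hfin : Module.Finite R (integralClosure R L) :=
    IsIntegralClosure.finite R K L (integralClosure R L)
  let c := Module.Free.chooseBasis R (integralClosure R L)
  have hle : N ≤ Subalgebra.toSubmodule (integralClosure R L) := fun y hy => hN y hy
  obtain ⟨m, bN⟩ := Submodule.basisOfPidOfLE hle
    (c.map (LinearEquiv.refl R _) : Module.Basis _ R ↥(Subalgebra.toSubmodule (integralClosure R L)))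
  let β : Fin m → L := fun i => (bN i : L)
  have hlinR : LinearIndependent R β :=
    bN.linearIndependent.map' N.subtype (Submodule.ker_subtype N)
  have hlinK : LinearIndependent K β := (LinearIndependent.iff_fractionRing R K).1 hlinR
  have hNspan : ∀ y ∈ N, y ∈ Submodule.span R (Set.range β) := by
    intro y hy
    have h1 := bN.sum_repr ⟨y, hy⟩
    have h2 := congrArg (fun z : ↥N => (z : L)) h1
    simp only [AddSubmonoidClass.coe_finsetSum, Submodule.coe_smul] at h2
    rw [← h2]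
    exact Submodule.sum_mem _ fun i _ => Submodule.smul_mem _ _ (Submodule.subset_span ⟨i, rfl⟩)
  have hKspan : ⊤ ≤ Submodule.span K (Set.range β) := by
    intro y _
    obtain ⟨q, hq, hqy⟩ := hspan y
    have h1 : q • y ∈ Submodule.span K (Set.range β) := by
      have := hNspan _ hqy
      exact Submodule.span_subset_span R K _ this
    have hq' : algebraMap R K q ≠ 0 := by
      intro h0
      exact hq ((IsFractionRing.injective R K) (h0.trans (map_zero _).symm))
    have h2 : y = (algebraMap R K q)⁻¹ • (q • y) := by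
      rw [← algebraMap_smul K q y, smul_smul, inv_mul_cancel₀ hq', one_smul]
    rw [h2]
    exact Submodule.smul_mem _ _ h1
  refine ⟨m, Module.Basis.mk hlinK hKspan, ?_, ?_⟩
  · intro i
    rw [Module.Basis.mk_apply]
    exact (bN i).2
  · intro y hy
    rw [Module.Basis.coe_mk]
    exact hNspan y hy

variable {C : Type uC} {F : Type uF} {k : Type uk} {Ft : Type uFt} [Field C] [Field F] [Algebra C F] [Field k] [Field Ft] [Algebra k Ft]

namespace RedSetting

variable {S : RedSetting C F k Ft} {x : F} (hx : x ∈ S.V)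

theorem psiT_surjective : Function.Surjective (S.psiT hx) := by
  intro r
  obtain ⟨r, hr⟩ := r
  rw [Algebra.adjoin_singleton_eq_range_aeval] at hr
  obtain ⟨pbar, rfl⟩ := hr
  obtain ⟨p₀, rfl⟩ := Polynomial.map_surjective S.resO S.resO_surj pbar
  refine ⟨p₀, ?_⟩
  apply Subtype.ext
  rw [coe_psiT, red_psi]
  rfl

theorem psi_isIntegral (p₀ : (↥S.O)[X]) :
    IsIntegral ↥(Algebra.adjoin C {x}) ((psi hx p₀ : ↥S.V) : F) := by
  rw [coe_psi]
  have : Polynomial.aeval x (p₀.map S.O.subtype) ∈ Algebra.adjoin C {x} := by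
    rw [Algebra.adjoin_singleton_eq_range_aeval]
    exact ⟨_, rfl⟩
  exact isIntegral_algebraMap (R := ↥(Algebra.adjoin C {x})) (A := F) (x := ⟨_, this⟩)

/-- `Bbar = red (B ∩ V)` as a `k[xt]`-submodule of `Ft`. -/
def Bbar (S : RedSetting C F k Ft) (hx : x ∈ S.V) :
    Submodule ↥(Algebra.adjoin k {S.red ⟨x, hx⟩}) Ft where
  carrier := {y | ∃ (f : F) (hf : f ∈ S.V), IsIntegral ↥(Algebra.adjoin C {x}) f ∧
    S.red ⟨f, hf⟩ = y}
  add_mem' := by
    rintro _ _ ⟨f, hf, hfi, rfl⟩ ⟨g, hg, hgi, rfl⟩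
    exact ⟨f + g, add_mem hf hg, hfi.add hgi, map_add S.red ⟨f, hf⟩ ⟨g, hg⟩⟩
  zero_mem' := ⟨0, zero_mem _, isIntegral_zero, map_zero S.red⟩
  smul_mem' := by
    rintro r _ ⟨f, hf, hfi, rfl⟩
    obtain ⟨p₀, rfl⟩ := psiT_surjective hx r
    refine ⟨((psi hx p₀ : ↥S.V) : F) * f, mul_mem (psi hx p₀).2 hf,
      (psi_isIntegral hx p₀).mul hfi, ?_⟩
    rw [Algebra.smul_def]
    show S.red (psi hx p₀ * ⟨f, hf⟩) = ((S.psiT hx p₀ : ↥(Algebra.adjoin k {S.red ⟨x, hx⟩})) : Ft) * _
    rw [map_mul, coe_psiT]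

theorem mem_Bbar (y : Ft) : y ∈ S.Bbar hx ↔ ∃ (f : F) (hf : f ∈ S.V),
    IsIntegral ↥(Algebra.adjoin C {x}) f ∧ S.red ⟨f, hf⟩ = y := Iff.rfl

theorem Bbar_isIntegral [CharZero C] (hxt : Transcendental k (S.red ⟨x, hx⟩))
    [FiniteDimensional ↥C⟮x⟯ F]
    (hdeg : Module.finrank ↥k⟮S.red ⟨x, hx⟩⟯ Ft = Module.finrank ↥C⟮x⟯ F)
    (y : Ft) (hy : y ∈ S.Bbar hx) : IsIntegral ↥(Algebra.adjoin k {S.red ⟨x, hx⟩}) y := by
  obtain ⟨f, hf, hfi, rfl⟩ := hy
  exact red_isIntegral hx hxt hdeg f hfi hf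

theorem Bbar_span (hxt : Transcendental k (S.red ⟨x, hx⟩)) [FiniteDimensional ↥C⟮x⟯ F] (y : Ft) :
    ∃ q : ↥(Algebra.adjoin k {S.red ⟨x, hx⟩}), q ≠ 0 ∧ q • y ∈ S.Bbar hx := by
  obtain ⟨f, rfl⟩ := S.red_surj y
  have hxC := transcendental_x hx hxt
  have halg : IsAlgebraic ↥(Algebra.adjoin C {x}) ((f : ↥S.V) : F) := by
    rw [IsFractionRing.isAlgebraic_iff ↥(Algebra.adjoin C {x}) ↥C⟮x⟯ F]
    exact Algebra.IsAlgebraic.isAlgebraic _
  obtain ⟨r, hr0, hri⟩ := halg.exists_integral_multiple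
  obtain ⟨p, rfl⟩ := (polyEquiv hxC).surjective r
  have hp : p ≠ 0 := by
    rintro rfl
    exact hr0 (map_zero _)
  obtain ⟨c, hc, p₀, hne, hu, hp₀, he⟩ := exists_decomp hx hxt p hp
  have h1 : ((psi hx p₀ : ↥S.V) : F) * (f : F) =
      algebraMap C F c⁻¹ * ((polyEquiv hxC p) • ((f : ↥S.V) : F)) := by
    rw [Algebra.smul_def]
    show _ = _ * (((polyEquiv hxC p : ↥(Algebra.adjoin C {x})) : F) * _)
    rw [coe_polyEquiv, he, map_inv₀]
    have hc' : algebraMap C F c ≠ 0 := fun h => hc ((map_eq_zero _).1 h)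
    field_simp
  refine ⟨S.psiT hx p₀, ?_, ((psi hx p₀ : ↥S.V) : F) * (f : F), mul_mem (psi hx p₀).2 f.2, ?_, ?_⟩
  · intro h0
    have h2 := congrArg (fun z : ↥(Algebra.adjoin k {S.red ⟨x, hx⟩}) => (z : Ft)) h0
    simp only [coe_psiT] at h2
    exact (S.red_eq_zero_iff _).1 h2 hu
  · rw [h1]
    have : IsIntegral ↥(Algebra.adjoin C {x}) (algebraMap C F c⁻¹) := by
      have hm : algebraMap C F c⁻¹ ∈ Algebra.adjoin C {x} := Subalgebra.algebraMap_mem _ _
      exact isIntegral_algebraMap (R := ↥(Algebra.adjoin C {x})) (A := F) (x := ⟨_, hm⟩)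
    exact this.mul hri
  · rw [Algebra.smul_def]
    show S.red (psi hx p₀ * f) = ((S.psiT hx p₀ : ↥(Algebra.adjoin k {S.red ⟨x, hx⟩})) : Ft) * _
    rw [map_mul, coe_psiT]

end RedSetting

end Fermat.Agent.S27.REDu.H34
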