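import Fermat.Agent.S27.REDu.H34_Bbar

/-!
# G-RED package IG (helper34): data for the chart theorem

* `exists_transition` : transition matrix from an integral `K`-basis to an `R`-basis of the
  integral closure, with the discriminant relation `disc b = det P ^ 2 * disc c`.
* `RedSetting.exists_good_basis` : a `k[xt]`-basis `bt` of the reduced order `Bbar = red (B ∩ V)`
  with a lift `bF` to a `C(x)`-basis of `F` inside `B ∩ V`.
* `RedSetting.exists_discr_lift` (S6) : the discriminant of `bF` lies in `O[x]` and reduces to the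
  discriminant of `bt`.
-/

set_option autoImplicit false

universe uC uCf uK uR uF uL uE uk ukap uFp uFt uFtp uiot uEp uKp ux3b1

noncomputable section

open Polynomial IntermediateField Module Matrix
open scoped IntermediateField.algebraAdjoinAdjoin nonZeroDivisors

namespace Fermat.Agent.S27.REDu.H34

/-- Transition from an integral `K`-basis to an `R`-basis of the integral closure. -/
theorem exists_transition {R : Type uR} {K : Type uK} {L : Type uL} [CommRing R] [IsDomain R]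
    [IsPrincipalIdealRing R] [Field K] [Field L] [Algebra R K] [IsFractionRing R K] [Algebra K L]
    [Algebra R L] [IsScalarTower R K L] [FiniteDimensional K L] [Algebra.IsSeparable K L]
    {ι : Type uiot} [Fintype ι] [DecidableEq ι] (b : Module.Basis ι K L)
    (hb : ∀ i, IsIntegral R (b i)) :
    ∃ (c : Module.Basis ι R ↥(integralClosure R L)) (P : Matrix ι ι R),
      (∀ i, (⟨b i, hb i⟩ : ↥(integralClosure R L)) = ∑ j, P i j • c j) ∧
      algebraMap R K (P.det ^ 2 * Algebra.discr R c) = Algebra.discr K b := by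
  classical
  have hinj : Function.Injective (algebraMap R L) := by
    rw [IsScalarTower.algebraMap_eq R K L]
    exact (algebraMap K L).injective.comp (IsFractionRing.injective R K)
  have htf : Module.IsTorsionFree R L := by
    rw [Module.isTorsionFree_iff_algebraMap_injective]
    exact hinj
  have hfree : Module.Free R (integralClosure R L) :=
    IsIntegralClosure.module_free R K L (integralClosure R L)
  have hfin : Module.Finite R (integralClosure R L) :=
    IsIntegralClosure.finite R K L (integralClosure R L)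
  have hrank : Module.finrank R (integralClosure R L) = Fintype.card ι := by
    rw [IsIntegralClosure.rank R K L (integralClosure R L), Module.finrank_eq_card_basis b]
  let c : Module.Basis ι R (integralClosure R L) :=
    (Module.finBasisOfFinrankEq R (integralClosure R L) hrank).reindex (Fintype.equivFin ι).symm
  have hloc : IsLocalization (Algebra.algebraMapSubmonoid (integralClosure R L) R⁰) L :=
    IsIntegralClosure.isLocalization R K L (integralClosure R L)
  let cK : Module.Basis ι K L := c.localizationLocalization K R⁰ L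
  have hcK : ∀ i, cK i = (c i : L) := fun i => by
    simp [cK, Module.Basis.localizationLocalization_apply]
  let bB : ι → integralClosure R L := fun i => ⟨b i, hb i⟩
  let P : Matrix ι ι R := Matrix.of fun i j => c.repr (bB i) j
  have hbB : ∀ i, bB i = ∑ j, P i j • c j := fun i => (c.sum_repr (bB i)).symm
  have hbP : ∀ i, b i = ∑ j, P i j • (c j : L) := by
    intro i
    have h2 := congrArg (fun z : integralClosure R L => (z : L)) (hbB i)
    simp only [AddSubmonoidClass.coe_finsetSum, Subalgebra.coe_smul] at h2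
    exact h2
  have hbP' : (b : ι → L) =
      ((P.map (algebraMap R K)).map (algebraMap K L)) *ᵥ (cK : ι → L) := by
    ext i
    rw [hbP i]
    simp only [Matrix.mulVec, dotProduct, Matrix.map_apply, hcK]
    refine Finset.sum_congr rfl fun j _ => ?_
    rw [← IsScalarTower.algebraMap_apply, Algebra.smul_def]
  refine ⟨c, P, hbB, ?_⟩
  rw [hbP', Algebra.discr_of_matrix_mulVec, Algebra.discr_localizationLocalization R R⁰ L c,
    map_mul, map_pow, RingHom.map_det, RingHom.mapMatrix_apply]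

variable {C : Type uC} {F : Type uF} {k : Type uk} {Ft : Type uFt} [Field C] [Field F] [Algebra C F] [Field k] [Field Ft] [Algebra k Ft]

namespace RedSetting

variable {S : RedSetting C F k Ft} {x : F} (hx : x ∈ S.V)

theorem finiteDimensional_red [FiniteDimensional ↥C⟮x⟯ F]
    (hdeg : Module.finrank ↥k⟮S.red ⟨x, hx⟩⟯ Ft = Module.finrank ↥C⟮x⟯ F) :
    FiniteDimensional ↥k⟮S.red ⟨x, hx⟩⟯ Ft := by
  apply Module.finite_of_finrank_pos
  rw [hdeg]
  exact Module.finrank_pos

/-- A basis of `Ft` over `k(xt)` generating the reduced order `Bbar` over `k[xt]`, together with a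
lift to a `C(x)`-basis of `F` contained in `B ∩ V`. -/
theorem exists_good_basis [CharZero C] (hxt : Transcendental k (S.red ⟨x, hx⟩))
    [FiniteDimensional ↥C⟮x⟯ F]
    (hdeg : Module.finrank ↥k⟮S.red ⟨x, hx⟩⟯ Ft = Module.finrank ↥C⟮x⟯ F)
    [Algebra.IsSeparable ↥k⟮S.red ⟨x, hx⟩⟯ Ft] :
    ∃ (m : ℕ) (bF : Module.Basis (Fin m) ↥C⟮x⟯ F) (hbV : ∀ i, bF i ∈ S.V)
      (bt : Module.Basis (Fin m) ↥k⟮S.red ⟨x, hx⟩⟯ Ft),
      (∀ i, IsIntegral ↥(Algebra.adjoin C {x}) (bF i)) ∧
      (∀ i, bt i = S.red ⟨bF i, hbV i⟩) ∧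
      ∀ y ∈ S.Bbar hx, y ∈ Submodule.span ↥(Algebra.adjoin k {S.red ⟨x, hx⟩}) (Set.range bt) := by
  classical
  have := finiteDimensional_red hx hdeg
  have : IsPrincipalIdealRing ↥(Algebra.adjoin k {S.red ⟨x, hx⟩}) :=
    isPrincipalIdealRing_adjoin hxt
  obtain ⟨m, bt, hbt, hspan⟩ := exists_basis_of_le_integralClosure
    (R := ↥(Algebra.adjoin k {S.red ⟨x, hx⟩})) (K := ↥k⟮S.red ⟨x, hx⟩⟯) (L := Ft)
    (S.Bbar hx) (Bbar_isIntegral hx hxt hdeg) (Bbar_span hx hxt)
  choose f hfV hfi hfr using fun i => (mem_Bbar hx (bt i)).1 (hbt i)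
  have hlin : LinearIndependent ↥k⟮S.red ⟨x, hx⟩⟯ (fun i => S.red ⟨f i, hfV i⟩) := by
    have h1 : (fun i => S.red ⟨f i, hfV i⟩) = bt := funext hfr
    rw [h1]
    exact bt.linearIndependent
  have hlinF : LinearIndependent ↥C⟮x⟯ f := linearIndependent_lift hx f hfV hxt hlin
  have hcard : Fintype.card (Fin m) = Module.finrank ↥C⟮x⟯ F := by
    rw [← hdeg, Module.finrank_eq_card_basis bt]
  have hm : 0 < m := by
    have h1 : 0 < Module.finrank ↥C⟮x⟯ F := Module.finrank_pos
    rw [← hcard, Fintype.card_fin] at h1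
    exact h1
  have : Nonempty (Fin m) := ⟨⟨0, hm⟩⟩
  let bF : Module.Basis (Fin m) ↥C⟮x⟯ F := basisOfLinearIndependentOfCardEqFinrank hlinF hcard
  have hbF : ∀ i, bF i = f i := fun i => by
    simp [bF]
  refine ⟨m, bF, fun i => by rw [hbF i]; exact hfV i, bt, fun i => by rw [hbF i]; exact hfi i,
    fun i => ?_, hspan⟩
  rw [← hfr i]
  congr 1
  exact Subtype.ext (hbF i).symm

theorem psiT_eq (hxt : Transcendental k (S.red ⟨x, hx⟩)) (p₀ : (↥S.O)[X]) :
    S.psiT hx p₀ = polyEquiv hxt (p₀.map S.resO) := by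
  apply Subtype.ext
  rw [coe_psiT, red_psi, coe_polyEquiv]

theorem psiR_eq (hxC : Transcendental C x) (p₀ : (↥S.O)[X]) :
    S.psiR hxC p₀ = polyEquiv hxC (p₀.map S.O.subtype) := rfl

theorem psiT_eq_zero_iff (hxt : Transcendental k (S.red ⟨x, hx⟩)) (p₀ : (↥S.O)[X]) :
    S.psiT hx p₀ = 0 ↔ p₀.map S.resO = 0 := by
  rw [psiT_eq hx hxt]
  exact EmbeddingLike.map_eq_zero_iff

/-- (S6) the discriminant of the lifted basis comes from `O[X]` and reduces to the discriminant
of the reduced basis. -/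
theorem exists_discr_lift (hxt : Transcendental k (S.red ⟨x, hx⟩))
    [FiniteDimensional ↥k⟮S.red ⟨x, hx⟩⟯ Ft] [Algebra.IsSeparable ↥k⟮S.red ⟨x, hx⟩⟯ Ft]
    {ι : Type uiot} [Fintype ι] [DecidableEq ι]
    (bF : Module.Basis ι ↥C⟮x⟯ F) (hbV : ∀ i, bF i ∈ S.V)
    (bt : Module.Basis ι ↥k⟮S.red ⟨x, hx⟩⟯ Ft) (hbt : ∀ i, bt i = S.red ⟨bF i, hbV i⟩)
    (D : ↥(Algebra.adjoin C {x}))
    (hD : algebraMap ↥(Algebra.adjoin C {x}) ↥C⟮x⟯ D = Algebra.discr ↥C⟮x⟯ bF) :
    ∃ D₀ : (↥S.O)[X], S.psiR (transcendental_x hx hxt) D₀ = D ∧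
      algebraMap ↥(Algebra.adjoin k {S.red ⟨x, hx⟩}) ↥k⟮S.red ⟨x, hx⟩⟯ (S.psiT hx D₀) =
        Algebra.discr ↥k⟮S.red ⟨x, hx⟩⟯ bt ∧ D₀.map S.resO ≠ 0 := by
  classical
  have hxC := transcendental_x hx hxt
  obtain ⟨δ, hδ, hδr⟩ := discr_red hx bF hbV bt hbt hxt
  have hDF : ((D : ↥(Algebra.adjoin C {x})) : F) = (((δ : ↥(S.Vx x)) : ↥C⟮x⟯) : F) := by
    rw [hδ, ← hD]
    rfl
  have hDV : ((D : ↥(Algebra.adjoin C {x})) : F) ∈ S.V := by
    rw [hDF]
    exact δ.2
  obtain ⟨D₀, hD₀⟩ := exists_psiR_eq hx hxt hxC D hDV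
  have hpsi : psi hx D₀ = ⟨(((δ : ↥(S.Vx x)) : ↥C⟮x⟯) : F), δ.2⟩ := by
    apply Subtype.ext
    rw [← coe_psiR hx hxC, hD₀, hDF]
  have h1 : algebraMap ↥(Algebra.adjoin k {S.red ⟨x, hx⟩}) ↥k⟮S.red ⟨x, hx⟩⟯ (S.psiT hx D₀) =
      Algebra.discr ↥k⟮S.red ⟨x, hx⟩⟯ bt := by
    rw [← hδr]
    apply Subtype.ext
    rw [coe_redx]
    show ((S.psiT hx D₀ : ↥(Algebra.adjoin k {S.red ⟨x, hx⟩})) : Ft) = _
    rw [coe_psiT, hpsi]
  refine ⟨D₀, hD₀, h1, ?_⟩
  intro h0
  have h2 : S.psiT hx D₀ = 0 := (psiT_eq_zero_iff hx hxt D₀).2 h0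
  rw [h2, map_zero] at h1
  exact Algebra.discr_not_zero_of_basis ↥k⟮S.red ⟨x, hx⟩⟯ bt h1.symm

end RedSetting

end Fermat.Agent.S27.REDu.H34
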