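import Fermat.Agent.S27.REDu.H34_ChartData

/-!
# G-RED package IG (helper34): the nilpotency lemma (NIL) of the chart theorem

`ρ ∈ O`, `γ` its residue.  If `v_i ∈ k[xt]` are such that the values of `f = ∑ v_i b_i` at all points
of `B` over `x = ρ` reduce to zero, then `(∑ v_i • red b_i) ^ n = (xt - γ) • z` with `z` integral
over `k[xt]`.
-/

set_option autoImplicit false

universe uC uCf uK uR uF uL uE uk ukap uFp uFt uFtp uiot uEp uKp ux3b1

noncomputable section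

open Polynomial IntermediateField Module Matrix
open scoped IntermediateField.algebraAdjoinAdjoin nonZeroDivisors

namespace Fermat.Agent.S27.REDu.H34

variable {C : Type uC} {F : Type uF} {k : Type uk} {Ft : Type uFt} [Field C] [Field F] [Algebra C F] [Field k] [Field Ft] [Algebra k Ft]

theorem evAt_algebraMap {x : F} (hx : Transcendental C x) (ρ a : C) :
    evAt hx ρ (algebraMap C ↥(Algebra.adjoin C {x}) a) = a := by
  rw [← polyEquiv_C hx, evAt_polyEquiv, Polynomial.eval_C]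

namespace RedSetting

variable {S : RedSetting C F k Ft} {x : F} (hx : x ∈ S.V)

/-- `x - ρ` as a unit of `V`, for `ρ ∈ O`. -/
theorem isUnit_psi_X_sub_C (hxt : Transcendental k (S.red ⟨x, hx⟩)) (ρ₀ : ↥S.O) :
    IsUnit (psi hx (Polynomial.X - Polynomial.C ρ₀)) := by
  apply isUnit_psi hx hxt
  rw [Polynomial.map_sub, Polynomial.map_X, Polynomial.map_C]
  exact Polynomial.X_sub_C_ne_zero _

theorem coe_psi_X_sub_C (ρ₀ : ↥S.O) :
    ((psi hx (Polynomial.X - Polynomial.C ρ₀) : ↥S.V) : F) = x - algebraMap C F (ρ₀ : C) := by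
  rw [coe_psi, Polynomial.map_sub, Polynomial.map_X, Polynomial.map_C, map_sub, Polynomial.aeval_X,
    Polynomial.aeval_C]
  rfl

theorem red_psi_X_sub_C (ρ₀ : ↥S.O) :
    S.red (psi hx (Polynomial.X - Polynomial.C ρ₀)) =
      S.red ⟨x, hx⟩ - algebraMap k Ft (S.resO ρ₀) := by
  rw [red_psi, Polynomial.map_sub, Polynomial.map_X, Polynomial.map_C, map_sub, Polynomial.aeval_X,
    Polynomial.aeval_C]

variable [CharZero C] [IsAlgClosed C]

/-- **(NIL)** If the values of `f = ∑ v_i b_i` at all points over `x = ρ` reduce to `0`, then the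
reduction of `f` is nilpotent modulo `xt - γ` in the integral closure. -/
theorem exists_pow_eq_smul (hxt : Transcendental k (S.red ⟨x, hx⟩)) [FiniteDimensional ↥C⟮x⟯ F]
    (hdeg : Module.finrank ↥k⟮S.red ⟨x, hx⟩⟯ Ft = Module.finrank ↥C⟮x⟯ F)
    {m : ℕ} (bF : Fin m → F) (hbV : ∀ i, bF i ∈ S.V)
    (hbB : ∀ i, IsIntegral ↥(Algebra.adjoin C {x}) (bF i))
    (ρ : C) (hρ : ρ ∈ S.O) {r : ℕ} (pt : Fin r → Ideal ↥(Bx (C := C) x))
    (hpt : ∀ t, pt t ∈ ptsOver x ρ) (hall : ∀ P ∈ ptsOver x ρ, ∃ t, pt t = P)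
    (v : Fin m → ↥(Algebra.adjoin k {S.red ⟨x, hx⟩}))
    (hv : ∀ t, piRho (S.red ⟨x, hx⟩) (S.resO ⟨ρ, hρ⟩) ∣
      ∑ i, algebraMap k ↥(Algebra.adjoin k {S.red ⟨x, hx⟩})
        (S.resO ⟨evP (hpt t) ⟨bF i, hbB i⟩,
          evP_mem_O hx hxt hdeg hρ (hpt t) ⟨bF i, hbB i⟩ (hbV i)⟩) * v i) :
    ∃ (n : ℕ) (z : Ft), IsIntegral ↥(Algebra.adjoin k {S.red ⟨x, hx⟩}) z ∧
      (∑ i, v i • S.red ⟨bF i, hbV i⟩) ^ n = piRho (S.red ⟨x, hx⟩) (S.resO ⟨ρ, hρ⟩) • z := by
  classical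
  have hxC := transcendental_x hx hxt
  set ρ₀ : ↥S.O := ⟨ρ, hρ⟩ with hρ₀
  set γ : k := S.resO ρ₀ with hγ
  -- lifts of the coefficients
  choose p hp using fun i => psiT_surjective hx (v i)
  -- the element `f`
  set fB : ↥(Bx (C := C) x) :=
    ∑ i, algebraMap ↥(Algebra.adjoin C {x}) ↥(Bx (C := C) x) (S.psiR hxC (p i)) * ⟨bF i, hbB i⟩
    with hfB
  set fV : ↥S.V := ∑ i, psi hx (p i) * ⟨bF i, hbV i⟩ with hfV
  have hfBV : ((fB : ↥(Bx (C := C) x)) : F) = ((fV : ↥S.V) : F) := by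
    rw [hfB, hfV, AddSubmonoidClass.coe_finsetSum, AddSubmonoidClass.coe_finsetSum]
    refine Finset.sum_congr rfl fun i _ => ?_
    show ((S.psiR hxC (p i) : ↥(Algebra.adjoin C {x})) : F) * bF i = ((psi hx (p i) : ↥S.V) : F) * bF i
    rw [coe_psiR hx hxC]
  have hredf : S.red fV = ∑ i, v i • S.red ⟨bF i, hbV i⟩ := by
    rw [hfV, map_sum]
    refine Finset.sum_congr rfl fun i _ => ?_
    rw [map_mul, ← coe_psiT, hp i, Algebra.smul_def]
    rfl
  -- the values at the points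
  set eO : Fin r → Fin m → ↥S.O := fun t i =>
    ⟨evP (hpt t) ⟨bF i, hbB i⟩, evP_mem_O hx hxt hdeg hρ (hpt t) ⟨bF i, hbB i⟩ (hbV i)⟩ with heO
  set cO : Fin r → ↥S.O := fun t => ∑ i, (p i).eval ρ₀ * eO t i with hcO
  have hc : ∀ t, evP (hpt t) fB = ((cO t : ↥S.O) : C) := by
    intro t
    rw [hfB, map_sum, hcO]
    simp only [AddSubmonoidClass.coe_finsetSum]
    refine Finset.sum_congr rfl fun i _ => ?_
    rw [map_mul]
    have h1 := congrArg (fun φ : (↥S.O)[X] →+* C => φ (p i)) (evP_comp_psiR hxC hρ (hpt t))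
    simp only [RingHom.comp_apply, Polynomial.coe_evalRingHom] at h1
    rw [h1]
    rfl
  have hcres : ∀ t, S.resO (cO t) = 0 := by
    intro t
    have h1 := (evAt_eq_zero_iff hxt γ _).2 (hv t)
    rw [map_sum] at h1
    rw [hcO, map_sum, ← h1]
    refine Finset.sum_congr rfl fun i _ => ?_
    rw [map_mul, map_mul, evAt_algebraMap, ← hp i, psiT_eq hx hxt, evAt_polyEquiv,
      Polynomial.eval_map, mul_comm]
    congr 1
    rw [Polynomial.eval₂_hom]
  -- the product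
  set w : ↥(Bx (C := C) x) := ∏ t, (fB - algebraMap C ↥(Bx (C := C) x) ((cO t : ↥S.O) : C)) with hw
  have hwP : ∀ P ∈ ptsOver x ρ, w ∈ P := by
    intro P hP
    obtain ⟨t, rfl⟩ := hall P hP
    refine Ideal.prod_mem _ (Finset.mem_univ t) ?_
    rw [← hc t]
    exact sub_evP_mem (hpt t) fB
  obtain ⟨e, he⟩ := pow_mem_of_forall_mem w hwP
  obtain ⟨z₀, hz₀⟩ := Ideal.mem_span_singleton'.1 he
  set wV : ↥S.V := ∏ t, (fV - S.inclO (cO t)) with hwV
  have hwF : ((w : ↥(Bx (C := C) x)) : F) = ((wV : ↥S.V) : F) := by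
    rw [hw, hwV, SubmonoidClass.coe_finsetProd, SubmonoidClass.coe_finsetProd]
    refine Finset.prod_congr rfl fun t _ => ?_
    show ((fB : ↥(Bx (C := C) x)) : F) - algebraMap C F ((cO t : ↥S.O) : C) = _
    rw [hfBV]
    rfl
  have hredw : S.red wV = (S.red fV) ^ r := by
    rw [hwV, map_prod]
    have : ∀ t ∈ (Finset.univ : Finset (Fin r)), S.red (fV - S.inclO (cO t)) = S.red fV := by
      intro t _
      rw [map_sub, S.red_inclO, hcres t, map_zero, sub_zero]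
    rw [Finset.prod_congr rfl this, Finset.prod_const, Finset.card_univ, Fintype.card_fin]
  -- the unit `x - ρ`
  have hu := isUnit_psi_X_sub_C hx hxt ρ₀
  set u : ↥S.V := psi hx (Polynomial.X - Polynomial.C ρ₀) with hudef
  have huF : ((u : ↥S.V) : F) = x - algebraMap C F ρ := coe_psi_X_sub_C hx ρ₀
  have hkey : ((z₀ : ↥(Bx (C := C) x)) : F) * ((u : ↥S.V) : F) = ((wV : ↥S.V) : F) ^ e := by
    rw [← hwF, huF]
    have h1 : ((z₀ : ↥(Bx (C := C) x)) : F) * ((piRho x ρ : ↥(Algebra.adjoin C {x})) : F) =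
        ((w : ↥(Bx (C := C) x)) : F) ^ e := by
      simpa using congrArg (fun b : ↥(Bx (C := C) x) => (b : F)) hz₀
    exact h1
  have hz₀V : ((z₀ : ↥(Bx (C := C) x)) : F) ∈ S.V := by
    have h2 : ((z₀ : ↥(Bx (C := C) x)) : F) = ((wV ^ e * ((hu.unit⁻¹ : (↥S.V)ˣ) : ↥S.V) : ↥S.V) : F) := by
      have h3 : ((u * ((hu.unit⁻¹ : (↥S.V)ˣ) : ↥S.V) : ↥S.V) : F) = 1 := by
        rw [show u * ((hu.unit⁻¹ : (↥S.V)ˣ) : ↥S.V) = 1 from hu.mul_val_inv]
        rfl
      push_cast at h3 ⊢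
      rw [← hkey, mul_assoc, h3, mul_one]
    rw [h2]
    exact Subtype.mem _
  refine ⟨r * e, S.red ⟨(z₀ : F), hz₀V⟩, red_isIntegral hx hxt hdeg _ z₀.2 hz₀V, ?_⟩
  rw [← hredf, pow_mul, ← hredw, ← map_pow]
  have h4 : wV ^ e = u * ⟨(z₀ : F), hz₀V⟩ := by
    apply Subtype.ext
    push_cast
    rw [← hkey, mul_comm]
  rw [h4, map_mul, hudef, red_psi_X_sub_C, Algebra.smul_def]
  rfl

end RedSetting

end Fermat.Agent.S27.REDu.H34
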