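import Fermat.Agent.S27.REDu.H34_IGDefs

/-!
# G-RED package IG (helper34): points of the integral closure of `C[x]` over `x = ρ`

`C` algebraically closed, `B` = integral closure of `C[x]` in `F`.  For a maximal ideal `P` of `B`
containing `x - ρ` we construct the evaluation `evP : B →+* C` (`B/P = C`), and show that an element
lying in all `P ∈ ptsOver x ρ` is nilpotent modulo `x - ρ`.
-/

set_option autoImplicit false

universe uC uCf uK uR uF uL uE uk ukap uFp uFt uFtp uiot uEp uKp ux3b1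

noncomputable section

open Polynomial IntermediateField

namespace Fermat.Agent.S27.REDu.H34

variable {C : Type uC} {F : Type uF} [Field C] [Field F] [Algebra C F]

section Points

variable (x : F)

/-- `C[x]` as a subalgebra. -/
abbrev Rx : Subalgebra C F := Algebra.adjoin C {x}

/-- The integral closure of `C[x]` in `F`. -/
abbrev Bx : Subalgebra ↥(Algebra.adjoin C {x}) F := integralClosure ↥(Algebra.adjoin C {x}) F

/-- The generator `x` of `C[x]`. -/
def genX : ↥(Algebra.adjoin C {x}) := ⟨x, Algebra.self_mem_adjoin_singleton C x⟩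

/-- the element `x - ρ` of `C[x]`. -/
def piRho (ρ : C) : ↥(Algebra.adjoin C {x}) :=
  ⟨x - algebraMap C F ρ,
    sub_mem (Algebra.self_mem_adjoin_singleton C x) (Subalgebra.algebraMap_mem _ ρ)⟩

theorem piRho_eq (ρ : C) : piRho x ρ = genX x - algebraMap C _ ρ := rfl

theorem mem_ptsOver_iff (ρ : C) (P : Ideal ↥(Bx (C := C) x)) :
    P ∈ ptsOver x ρ ↔ P.IsMaximal ∧ algebraMap _ ↥(Bx (C := C) x) (piRho x ρ) ∈ P := by
  constructor
  · rintro ⟨h1, h2⟩
    exact ⟨h1, h2 _ rfl⟩
  · rintro ⟨h1, h2⟩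
    refine ⟨h1, fun b hb => ?_⟩
    have : b = algebraMap _ ↥(Bx (C := C) x) (piRho x ρ) := Subtype.ext hb
    rw [this]
    exact h2

variable {x}
variable {ρ : C} {P : Ideal ↥(Bx (C := C) x)}

/-- Modulo an ideal `P` containing `x - ρ`, every element of `C[x]` is a constant. -/
theorem exists_const_of_mem_Rx (hP : algebraMap _ ↥(Bx (C := C) x) (piRho x ρ) ∈ P)
    (r : ↥(Algebra.adjoin C {x})) :
    ∃ c : C, algebraMap _ ↥(Bx (C := C) x) r - algebraMap C ↥(Bx (C := C) x) c ∈ P := by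
  obtain ⟨r, hr⟩ := r
  induction hr using Algebra.adjoin_induction with
  | mem y hy =>
    rw [Set.mem_singleton_iff] at hy
    subst hy
    exact ⟨ρ, hP⟩
  | algebraMap c =>
    refine ⟨c, ?_⟩
    have : algebraMap ↥(Algebra.adjoin C {x}) ↥(Bx (C := C) x)
        ⟨algebraMap C F c, Subalgebra.algebraMap_mem _ c⟩ = algebraMap C ↥(Bx (C := C) x) c := rfl
    rw [this, sub_self]
    exact P.zero_mem
  | add a b ha hb iha ihb =>
    obtain ⟨ca, hca⟩ := iha
    obtain ⟨cb, hcb⟩ := ihb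
    refine ⟨ca + cb, ?_⟩
    have : algebraMap ↥(Algebra.adjoin C {x}) ↥(Bx (C := C) x) ⟨a + b, add_mem ha hb⟩ -
        algebraMap C ↥(Bx (C := C) x) (ca + cb) =
        (algebraMap ↥(Algebra.adjoin C {x}) ↥(Bx (C := C) x) ⟨a, ha⟩ -
          algebraMap C ↥(Bx (C := C) x) ca) +
        (algebraMap ↥(Algebra.adjoin C {x}) ↥(Bx (C := C) x) ⟨b, hb⟩ -
          algebraMap C ↥(Bx (C := C) x) cb) := by
      rw [map_add, show (⟨a + b, add_mem ha hb⟩ : ↥(Algebra.adjoin C {x})) = ⟨a, ha⟩ + ⟨b, hb⟩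
        from rfl, map_add]
      ring
    rw [this]
    exact P.add_mem hca hcb
  | mul a b ha hb iha ihb =>
    obtain ⟨ca, hca⟩ := iha
    obtain ⟨cb, hcb⟩ := ihb
    refine ⟨ca * cb, ?_⟩
    have : algebraMap ↥(Algebra.adjoin C {x}) ↥(Bx (C := C) x) ⟨a * b, mul_mem ha hb⟩ -
        algebraMap C ↥(Bx (C := C) x) (ca * cb) =
        (algebraMap ↥(Algebra.adjoin C {x}) ↥(Bx (C := C) x) ⟨a, ha⟩ -
          algebraMap C ↥(Bx (C := C) x) ca) *
          algebraMap ↥(Algebra.adjoin C {x}) ↥(Bx (C := C) x) ⟨b, hb⟩ +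
        algebraMap C ↥(Bx (C := C) x) ca *
        (algebraMap ↥(Algebra.adjoin C {x}) ↥(Bx (C := C) x) ⟨b, hb⟩ -
          algebraMap C ↥(Bx (C := C) x) cb) := by
      rw [map_mul, show (⟨a * b, mul_mem ha hb⟩ : ↥(Algebra.adjoin C {x})) = ⟨a, ha⟩ * ⟨b, hb⟩
        from rfl, map_mul]
      ring
    rw [this]
    exact P.add_mem (P.mul_mem_right _ hca) (P.mul_mem_left _ hcb)

/-- `B / Q` is integral over `C` for every ideal `Q` containing `x - ρ`. -/
theorem isIntegral_quot (hP : algebraMap _ ↥(Bx (C := C) x) (piRho x ρ) ∈ P) :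
    Algebra.IsIntegral C (↥(Bx (C := C) x) ⧸ P) := by
  refine ⟨fun y => ?_⟩
  obtain ⟨g, rfl⟩ := Ideal.Quotient.mk_surjective y
  by_cases htop : P = ⊤
  · have : Subsingleton (↥(Bx (C := C) x) ⧸ P) := Ideal.Quotient.subsingleton_iff.2 htop
    exact ⟨Polynomial.X, Polynomial.monic_X, Subsingleton.elim _ _⟩
  have : Nontrivial (↥(Bx (C := C) x) ⧸ P) := Ideal.Quotient.nontrivial_iff.2 htop
  obtain ⟨p, hpm, hp0⟩ := integralClosure.isIntegral g
  set φ : ↥(Algebra.adjoin C {x}) →+* (↥(Bx (C := C) x) ⧸ P) :=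
    (Ideal.Quotient.mk P).comp (algebraMap _ ↥(Bx (C := C) x)) with hφ
  have hl : p.map φ ∈ Polynomial.lifts (algebraMap C (↥(Bx (C := C) x) ⧸ P)) := by
    rw [Polynomial.lifts_iff_coeff_lifts]
    intro n
    obtain ⟨c, hc⟩ := exists_const_of_mem_Rx hP (p.coeff n)
    refine ⟨c, ?_⟩
    rw [Polynomial.coeff_map]
    exact ((Ideal.Quotient.eq).2 hc).symm
  obtain ⟨q, hq, -, hqm⟩ := Polynomial.lifts_and_degree_eq_and_monic hl (hpm.map φ)
  refine ⟨q, hqm, ?_⟩
  rw [← Polynomial.eval_map, hq, Polynomial.eval_map, hφ, ← Polynomial.hom_eval₂, hp0, map_zero]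

/-- A prime of `B` containing `x - ρ` is maximal. -/
theorem isMaximal_of_isPrime (hprime : P.IsPrime)
    (hP : algebraMap _ ↥(Bx (C := C) x) (piRho x ρ) ∈ P) : P.IsMaximal := by
  have := isIntegral_quot hP
  have hf : IsField (↥(Bx (C := C) x) ⧸ P) :=
    isField_of_isIntegral_of_isField' (R := C) (S := ↥(Bx (C := C) x) ⧸ P) (Field.toIsField C)
  exact Ideal.Quotient.maximal_of_isField P hf

/-- An element lying in all points over `ρ` is nilpotent modulo `x - ρ`. -/
theorem pow_mem_of_forall_mem (w : ↥(Bx (C := C) x)) (hw : ∀ P ∈ ptsOver x ρ, w ∈ P) :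
    ∃ e : ℕ, w ^ e ∈ Ideal.span {algebraMap _ ↥(Bx (C := C) x) (piRho x ρ)} := by
  rw [← Ideal.mem_radical_iff, Ideal.radical_eq_sInf, Ideal.mem_sInf]
  rintro J ⟨hJ1, hJ2⟩
  have hmem : algebraMap _ ↥(Bx (C := C) x) (piRho x ρ) ∈ J :=
    hJ1 (Ideal.subset_span (Set.mem_singleton _))
  exact hw J ((mem_ptsOver_iff x ρ J).2 ⟨isMaximal_of_isPrime hJ2 hmem, hmem⟩)

/-- Every element of `B` is congruent to a constant modulo `P` (`C` algebraically closed). -/
theorem exists_const [IsAlgClosed C] (hP : P ∈ ptsOver x ρ) (f : ↥(Bx (C := C) x)) :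
    ∃ c : C, f - algebraMap C ↥(Bx (C := C) x) c ∈ P := by
  have hmax : P.IsMaximal := hP.1
  let _ : Field (↥(Bx (C := C) x) ⧸ P) := Ideal.Quotient.field P
  have hint := isIntegral_quot ((mem_ptsOver_iff x ρ P).1 hP).2
  obtain ⟨c, hc⟩ := (IsAlgClosed.algebraMap_bijective_of_isIntegral
    (k := C) (K := ↥(Bx (C := C) x) ⧸ P)).2 (Ideal.Quotient.mk P f)
  refine ⟨c, ?_⟩
  rw [← Ideal.Quotient.eq]
  exact hc.symm

theorem const_unique (hP : P ∈ ptsOver x ρ) (f : ↥(Bx (C := C) x)) (c c' : C)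
    (hc : f - algebraMap C ↥(Bx (C := C) x) c ∈ P)
    (hc' : f - algebraMap C ↥(Bx (C := C) x) c' ∈ P) : c = c' := by
  by_contra hne
  have h1 : algebraMap C ↥(Bx (C := C) x) (c' - c) ∈ P := by
    have := P.sub_mem hc hc'
    rw [map_sub]
    convert this using 1
    ring
  have h2 : (1 : ↥(Bx (C := C) x)) ∈ P := by
    have := P.mul_mem_left (algebraMap C ↥(Bx (C := C) x) (c' - c)⁻¹) h1
    rwa [← map_mul, inv_mul_cancel₀ (sub_ne_zero.2 (Ne.symm hne)), map_one] at this
  exact hP.1.ne_top ((Ideal.eq_top_iff_one P).2 h2)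

/-- Evaluation at the point `P`. -/
def evP [IsAlgClosed C] (hP : P ∈ ptsOver x ρ) : ↥(Bx (C := C) x) →+* C where
  toFun f := Classical.choose (exists_const hP f)
  map_one' := by
    refine (const_unique hP 1 _ _ ?_ (Classical.choose_spec (exists_const hP 1))).symm
    rw [map_one, sub_self]
    exact P.zero_mem
  map_zero' := by
    refine (const_unique hP 0 _ _ ?_ (Classical.choose_spec (exists_const hP 0))).symm
    rw [map_zero, sub_self]
    exact P.zero_mem
  map_add' f g := by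
    refine (const_unique hP (f + g) _ _ ?_ (Classical.choose_spec (exists_const hP (f + g)))).symm
    have h1 := Classical.choose_spec (exists_const hP f)
    have h2 := Classical.choose_spec (exists_const hP g)
    have := P.add_mem h1 h2
    rw [map_add]
    convert this using 1
    ring
  map_mul' f g := by
    refine (const_unique hP (f * g) _ _ ?_ (Classical.choose_spec (exists_const hP (f * g)))).symm
    have h1 := Classical.choose_spec (exists_const hP f)
    have h2 := Classical.choose_spec (exists_const hP g)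
    have := P.add_mem (P.mul_mem_right g h1)
      (P.mul_mem_left (algebraMap C ↥(Bx (C := C) x) (Classical.choose (exists_const hP f))) h2)
    rw [map_mul]
    convert this using 1
    ring

theorem sub_evP_mem [IsAlgClosed C] (hP : P ∈ ptsOver x ρ) (f : ↥(Bx (C := C) x)) :
    f - algebraMap C ↥(Bx (C := C) x) (evP hP f) ∈ P :=
  Classical.choose_spec (exists_const hP f)

theorem evP_eq_of_mem [IsAlgClosed C] (hP : P ∈ ptsOver x ρ) (f : ↥(Bx (C := C) x)) (c : C)
    (hc : f - algebraMap C ↥(Bx (C := C) x) c ∈ P) : evP hP f = c :=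
  const_unique hP f _ _ (sub_evP_mem hP f) hc

theorem evP_algebraMap [IsAlgClosed C] (hP : P ∈ ptsOver x ρ) (c : C) :
    evP hP (algebraMap C ↥(Bx (C := C) x) c) = c := by
  refine evP_eq_of_mem hP _ c ?_
  rw [sub_self]
  exact P.zero_mem

theorem evP_genX [IsAlgClosed C] (hP : P ∈ ptsOver x ρ) :
    evP hP (algebraMap ↥(Algebra.adjoin C {x}) ↥(Bx (C := C) x) (genX x)) = ρ :=
  evP_eq_of_mem hP _ ρ ((mem_ptsOver_iff x ρ P).1 hP).2

theorem evP_eq_zero_iff [IsAlgClosed C] (hP : P ∈ ptsOver x ρ) (f : ↥(Bx (C := C) x)) :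
    evP hP f = 0 ↔ f ∈ P := by
  constructor
  · intro h
    have := sub_evP_mem hP f
    rwa [h, map_zero, sub_zero] at this
  · intro h
    refine evP_eq_of_mem hP f 0 ?_
    rwa [map_zero, sub_zero]

end Points

end Fermat.Agent.S27.REDu.H34
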