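import Fermat.Agent.S27.REDu.H34_Int

/-!
# G-RED package GEN (helper42), part 1: reduction of integral elements, lifted bases

Setting: `S : RedSetting C F k Ft` (helper34), `x ∈ V` with transcendental reduction `xt`.
* `gen_red_isIntegral` : `f ∈ V` integral over `C[x]`  ⟹  `red f` integral over `k[xt]`.
* `IsLift` : a family `e : ι → F` in `B ∩ V` whose reduction is a `k[xt]`-basis of the integral
  closure `Bt` of `k[xt]` in `Ft`.
-/

set_option autoImplicit false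

universe uC uCf uK uR uF uL uE uk ukap uFp uFt uFtp uiot uEp uKp ux3b1

noncomputable section

open Polynomial IntermediateField Module
open scoped IntermediateField.algebraAdjoinAdjoin

namespace Fermat.Agent.S27.REDu.H42

open Fermat.Agent.S27.REDu.H34 Fermat.Agent.S27.REDu.H34.RedSetting

variable {C : Type uC} {F : Type uF} {k : Type uk} {Ft : Type uFt} [Field C] [Field F] [Algebra C F] [Field k] [Field Ft] [Algebra k Ft]
variable {S : RedSetting C F k Ft} {x : F} (hx : x ∈ S.V)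

/-- The generator of `k[xt]`. -/
def genT (hx : x ∈ S.V) : ↥(Algebra.adjoin k {S.red ⟨x, hx⟩}) :=
  ⟨S.red ⟨x, hx⟩, Algebra.self_mem_adjoin_singleton k _⟩

/-- The ring hom `O[X] → k[xt]`, reduction of coefficients followed by `X ↦ xt`. -/
def rhoT (hx : x ∈ S.V) : (↥S.O)[X] →+* ↥(Algebra.adjoin k {S.red ⟨x, hx⟩}) :=
  ((Polynomial.aeval (genT hx) : k[X] →ₐ[k] ↥(Algebra.adjoin k {S.red ⟨x, hx⟩})) :
    k[X] →+* ↥(Algebra.adjoin k {S.red ⟨x, hx⟩})).comp (Polynomial.mapRingHom S.resO)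

theorem coe_rhoT (p₀ : (↥S.O)[X]) :
    ((rhoT hx p₀ : ↥(Algebra.adjoin k {S.red ⟨x, hx⟩})) : Ft) = S.red (psi hx p₀) := by
  rw [red_psi]
  show ((Polynomial.aeval (genT hx) (p₀.map S.resO) : ↥(Algebra.adjoin k {S.red ⟨x, hx⟩})) : Ft)
    = _
  rw [← Subalgebra.coe_val, ← Polynomial.aeval_algHom_apply]
  rfl

theorem algebraMap_comp_rhoT :
    (algebraMap ↥(Algebra.adjoin k {S.red ⟨x, hx⟩}) Ft).comp (rhoT hx) = S.red.comp (psi hx) := by
  refine RingHom.ext fun p₀ => ?_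
  exact coe_rhoT hx p₀

/-- An element of `V` annihilated by a monic polynomial over `O[x]` has integral reduction. -/
theorem gen_red_isIntegral_of_monic (f : ↥S.V) (Φ : ((↥S.O)[X])[X]) (hΦ : Φ.Monic)
    (h0 : Polynomial.eval₂ (psi hx) f Φ = 0) :
    IsIntegral ↥(Algebra.adjoin k {S.red ⟨x, hx⟩}) (S.red f) := by
  refine ⟨Φ.map (rhoT hx), hΦ.map _, ?_⟩
  rw [Polynomial.eval₂_map, algebraMap_comp_rhoT, ← Polynomial.hom_eval₂, h0, map_zero]

/-- **Reduction of integral elements**: `f ∈ V` integral over `C[x]` has a reduction which is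
integral over `k[xt]`. -/
theorem gen_red_isIntegral [CharZero C] (hxt : Transcendental k (S.red ⟨x, hx⟩))
    [FiniteDimensional ↥C⟮x⟯ F]
    (hdeg : Module.finrank ↥k⟮S.red ⟨x, hx⟩⟯ Ft = Module.finrank ↥C⟮x⟯ F)
    (f : ↥S.V) (hf : IsIntegral ↥(Algebra.adjoin C {x}) (f : F)) :
    IsIntegral ↥(Algebra.adjoin k {S.red ⟨x, hx⟩}) (S.red f) := by
  have hxC := transcendental_x hx hxt
  obtain ⟨Φ, hΦ, h0⟩ := exists_monic_of_mem hx hxt hdeg (⟨(f : F), hf⟩ : ↥(Bx (C := C) x)) f.2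
  refine gen_red_isIntegral_of_monic hx f Φ hΦ ?_
  apply Subtype.ext
  have h1 := congrArg (fun b : ↥(Bx (C := C) x) => (b : F)) h0
  simp only [ZeroMemClass.coe_zero] at h1
  rw [ZeroMemClass.coe_zero, ← h1]
  have h2 : (S.V.subtype.comp (psi hx)) =
      ((Bx (C := C) x).val : ↥(Bx (C := C) x) →+* F).comp
        ((algebraMap ↥(Algebra.adjoin C {x}) ↥(Bx (C := C) x)).comp (S.psiR hxC)) := by
    refine RingHom.ext fun p₀ => ?_
    exact (coe_psiR hx hxC p₀).symm
  have h3 := Polynomial.hom_eval₂ Φ (psi hx) S.V.subtype f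
  have h4 := Polynomial.hom_eval₂ Φ
    ((algebraMap ↥(Algebra.adjoin C {x}) ↥(Bx (C := C) x)).comp (S.psiR hxC))
    ((Bx (C := C) x).val : ↥(Bx (C := C) x) →+* F) (⟨(f : F), hf⟩ : ↥(Bx (C := C) x))
  calc ((Polynomial.eval₂ (psi hx) f Φ : ↥S.V) : F)
      = S.V.subtype (Polynomial.eval₂ (psi hx) f Φ) := rfl
    _ = Polynomial.eval₂ (S.V.subtype.comp (psi hx)) (S.V.subtype f) Φ := h3
    _ = _ := by rw [h2]; exact h4.symm

end Fermat.Agent.S27.REDu.H42
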