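import Fermat.Agent.S27.REDu.H42_Gen3

/-!
# G-RED package GEN (helper42), part 4: the chart is a free `O[x]`-module on a lifted basis

* `exists_lift_gspan` (FG) : there is a lifted basis `e` with `B = ∑ C[x] e i`.
* `exists_repr_psi` : elements of `B ∩ V` are `O[x]`-combinations of the `e i`.
-/

set_option autoImplicit false

universe uC uCf uK uR uF uL uE uk ukap uFp uFt uFtp uiot uEp uKp ux3b1

noncomputable section

open Polynomial IntermediateField Module
open scoped IntermediateField.algebraAdjoinAdjoin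

namespace Fermat.Agent.S27.REDu.H42

open Fermat.Agent.S27.REDu.H34 Fermat.Agent.S27.REDu.H34.RedSetting

variable {C : Type uC} {F : Type uF} {k : Type uk} {Ft : Type uFt} [Field C] [Field F] [Algebra C F] [Field k] [Field Ft] [Algebra k Ft]
variable {S : RedSetting C F k Ft} {x : F} (hx : x ∈ S.V)
variable {ι : Type uiot} [Fintype ι]

/-- The polynomial span of `e` inside `B`, as a `C[x]`-submodule. -/
def gspanB (C : Type uC) {F : Type uF} [Field C] [Field F] [Algebra C F] (x : F) {ι : Type uiot} [Fintype ι]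
    (e : ι → F) : Submodule ↥(Algebra.adjoin C {x}) ↥(Bx (C := C) x) where
  carrier := {b | GSpan C x e (b : F)}
  zero_mem' := GSpan.zero
  add_mem' := fun ha hb => ha.add hb
  smul_mem' := by
    intro r b hb
    obtain ⟨q, hq⟩ : ∃ q : C[X], Polynomial.aeval x q = (r : F) := by
      have h1 : (r : F) ∈ (Polynomial.aeval x : C[X] →ₐ[C] F).range := by
        rw [← Algebra.adjoin_singleton_eq_range_aeval]
        exact r.2
      exact h1
    show GSpan C x e ((r • b : ↥(Bx (C := C) x)) : F)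
    have : ((r • b : ↥(Bx (C := C) x)) : F) = Polynomial.aeval x q * (b : F) := by
      rw [hq]
      rfl
    rw [this]
    exact GSpan.aeval_mul hb q

theorem mem_gspanB {e : ι → F} (b : ↥(Bx (C := C) x)) :
    b ∈ gspanB C x e ↔ GSpan C x e (b : F) := Iff.rfl

/-- **(FG)** There is a lifted basis spanning the integral closure `B` of `C[x]` over `C[x]`. -/
theorem exists_lift_gspan [IsAlgClosed C] [CharZero C] (hxt : Transcendental k (S.red ⟨x, hx⟩))
    [FiniteDimensional ↥C⟮x⟯ F]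
    (hdeg : Module.finrank ↥k⟮S.red ⟨x, hx⟩⟯ Ft = Module.finrank ↥C⟮x⟯ F)
    (hcard : Fintype.card ι = Module.finrank ↥C⟮x⟯ F)
    (hex : ∃ e : ι → F, IsLift hx e) :
    ∃ e : ι → F, IsLift hx e ∧ ∀ b, IsIntegral ↥(Algebra.adjoin C {x}) b → GSpan C x e b := by
  classical
  have hxC := transcendental_x hx hxt
  have hpid : IsPrincipalIdealRing ↥(Algebra.adjoin C {x}) := isPrincipalIdealRing_adjoin hxC
  have hcz : CharZero ↥C⟮x⟯ := charZero_of_injective_algebraMap (algebraMap C ↥C⟮x⟯).injective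
  have hnoeth : IsNoetherian ↥(Algebra.adjoin C {x}) ↥(Bx (C := C) x) :=
    IsIntegralClosure.isNoetherian ↥(Algebra.adjoin C {x}) ↥C⟮x⟯ F ↥(Bx (C := C) x)
  obtain ⟨e₀, he₀⟩ := hex
  obtain ⟨M, ⟨e, he, rfl⟩, hmax⟩ := (set_has_maximal_iff_noetherian.2 hnoeth)
    {M | ∃ e : ι → F, IsLift hx e ∧ M = gspanB C x e} ⟨_, e₀, he₀, rfl⟩
  refine ⟨e, he, fun b hb => ?_⟩
  by_contra hnb
  obtain ⟨a, b', h', i₀, hb', hnb', hi₀, hab⟩ :=
    exists_witness S.O hxC he.int (he.span_top hx hxt hcard) hb hnb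
  by_cases ha : a ∈ S.O
  · exact case_small hx hxt hdeg he ha hb' h' i₀ hi₀ hab
  · obtain ⟨e', he', hle, b₁, hb₁, hnb₁⟩ := case_large hx hxt he ha hb' hnb' h' i₀ hi₀ hab
    apply hmax (gspanB C x e') ⟨e', he', rfl⟩
    rw [SetLike.lt_iff_le_and_exists]
    exact ⟨fun c hc => hle _ hc, ⟨(b₁ : F), hb₁.isIntegral he'.int⟩, hb₁, hnb₁⟩

/-- Elements of `V` in the polynomial span of a lifted basis are `O[x]`-combinations. -/
theorem exists_repr_psi (hxt : Transcendental k (S.red ⟨x, hx⟩)) {e : ι → F} (he : IsLift hx e)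
    (f : F) (hfV : f ∈ S.V) (hf : GSpan C x e f) :
    ∃ p : ι → (↥S.O)[X], f = ∑ i, ((psi hx (p i) : ↥S.V) : F) * e i := by
  obtain ⟨P, hP⟩ := hf
  have hmem : ∀ i, Polynomial.aeval x (P i) ∈ S.V := by
    intro i
    have h1 : ∑ j, (⟨Polynomial.aeval x (P j), aeval_mem_simple x (P j)⟩ : ↥C⟮x⟯) • e j ∈ S.V := by
      have : ∑ j, (⟨Polynomial.aeval x (P j), aeval_mem_simple x (P j)⟩ : ↥C⟮x⟯) • e j = f := by
        rw [hP]
        refine Finset.sum_congr rfl fun j _ => ?_
        rw [IntermediateField.smul_def, smul_eq_mul]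
      rw [this]
      exact hfV
    exact coeff_mem_V hx e he.memV hxt he.lin _ h1 i
  choose p hp using fun i => exists_lift_of_aeval_mem hx hxt (P i) (hmem i)
  refine ⟨p, ?_⟩
  rw [hP]
  refine Finset.sum_congr rfl fun i _ => ?_
  rw [coe_psi, hp]

end Fermat.Agent.S27.REDu.H42
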