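import Fermat.Agent.S27.REDu.H42_Gen4

/-!
# G-RED package GEN (helper42), part 5: existence of a lifted basis

`exists_isLift` : if the chart `x` is normal (conclusion of helper34's `Stmt_chartNormal.{uC, uF, uk, uFt}`) and
`Ft / k(xt)` is separable of degree `[F : C(x)]`, there is a lifted basis.
`exists_chart_basis` : the chart `B ∩ V` is the free `O[x]`-module on a lifted basis.
-/

set_option autoImplicit false

universe uC uCf uK uR uF uL uE uk ukap uFp uFt uFtp uiot uEp uKp ux3b1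

noncomputable section

open Polynomial IntermediateField Module
open scoped IntermediateField.algebraAdjoinAdjoin

namespace Fermat.Agent.S27.REDu.H42

open Fermat.Agent.S27.REDu.H34 Fermat.Agent.S27.REDu.H34.RedSetting

variable {C : Type uC} {F : Type uF} {k : Type uk} {Ft : Type uFt} [Field C] [Field F] [Algebra C F] [Field k] [Field Ft] [Algebra k Ft]
variable {S : RedSetting C F k Ft} {x : F} (hx : x ∈ S.V)

/-- A basis of the integral closure of `k[t]` in a finite separable extension of `k(t)`: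
linearly independent over `k(t)` and spanning the integral elements over `k[t]`. -/
theorem exists_intClosure_basis {k : Type uk} {Ft : Type uFt} [Field k] [Field Ft] [Algebra k Ft] {t : Ft}
    (ht : Transcendental k t) [FiniteDimensional ↥k⟮t⟯ Ft] [Algebra.IsSeparable ↥k⟮t⟯ Ft]
    {n : ℕ} (hn : Module.finrank ↥k⟮t⟯ Ft = n) :
    ∃ β : Fin n → Ft, (∀ i, IsIntegral ↥(Algebra.adjoin k {t}) (β i)) ∧
      LinearIndependent ↥k⟮t⟯ β ∧
      ∀ y : Ft, IsIntegral ↥(Algebra.adjoin k {t}) y →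
        ∃ c : Fin n → k[X], y = ∑ i, Polynomial.aeval t (c i) * β i := by
  classical
  have hpid : IsPrincipalIdealRing ↥(Algebra.adjoin k {t}) := isPrincipalIdealRing_adjoin ht
  have hinj : Function.Injective (algebraMap ↥(Algebra.adjoin k {t}) Ft) := Subtype.val_injective
  have htf : Module.IsTorsionFree ↥(Algebra.adjoin k {t}) Ft := by
    rw [Module.isTorsionFree_iff_algebraMap_injective]
    exact hinj
  have hfree : Module.Free ↥(Algebra.adjoin k {t}) ↥(integralClosure ↥(Algebra.adjoin k {t}) Ft) :=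
    IsIntegralClosure.module_free ↥(Algebra.adjoin k {t}) ↥k⟮t⟯ Ft
      ↥(integralClosure ↥(Algebra.adjoin k {t}) Ft)
  have hfin : Module.Finite ↥(Algebra.adjoin k {t})
      ↥(integralClosure ↥(Algebra.adjoin k {t}) Ft) :=
    IsIntegralClosure.finite ↥(Algebra.adjoin k {t}) ↥k⟮t⟯ Ft
      ↥(integralClosure ↥(Algebra.adjoin k {t}) Ft)
  have hrank : Module.finrank ↥(Algebra.adjoin k {t})
      ↥(integralClosure ↥(Algebra.adjoin k {t}) Ft) = n := by
    rw [← hn]
    exact IsIntegralClosure.rank ↥(Algebra.adjoin k {t}) ↥k⟮t⟯ Ft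
      ↥(integralClosure ↥(Algebra.adjoin k {t}) Ft)
  let bt : Module.Basis (Fin n) ↥(Algebra.adjoin k {t})
      ↥(integralClosure ↥(Algebra.adjoin k {t}) Ft) :=
    Module.finBasisOfFinrankEq _ _ hrank
  refine ⟨fun i => ((bt i : ↥(integralClosure ↥(Algebra.adjoin k {t}) Ft)) : Ft),
    fun i => (bt i).2, ?_, ?_⟩
  · rw [← LinearIndependent.iff_fractionRing ↥(Algebra.adjoin k {t}) ↥k⟮t⟯]
    have h1 := bt.linearIndependent.map'
      ((integralClosure ↥(Algebra.adjoin k {t}) Ft).val.toLinearMap)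
      (LinearMap.ker_eq_bot.2 Subtype.val_injective)
    exact h1
  · intro y hy
    have hrep := bt.sum_repr (⟨y, hy⟩ : ↥(integralClosure ↥(Algebra.adjoin k {t}) Ft))
    have hc : ∀ i, ∃ c : k[X], Polynomial.aeval t c =
        ((bt.repr (⟨y, hy⟩ : ↥(integralClosure ↥(Algebra.adjoin k {t}) Ft)) i :
          ↥(Algebra.adjoin k {t})) : Ft) := by
      intro i
      have h1 : ((bt.repr (⟨y, hy⟩ : ↥(integralClosure ↥(Algebra.adjoin k {t}) Ft)) i :
          ↥(Algebra.adjoin k {t})) : Ft) ∈ (Polynomial.aeval t : k[X] →ₐ[k] Ft).range := by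
        rw [← Algebra.adjoin_singleton_eq_range_aeval]
        exact Subtype.mem _
      exact h1
    choose c hc using hc
    refine ⟨c, ?_⟩
    have h2 := congrArg (fun b : ↥(integralClosure ↥(Algebra.adjoin k {t}) Ft) => (b : Ft)) hrep
    simp only [AddSubmonoidClass.coe_finsetSum] at h2
    rw [← h2]
    refine Finset.sum_congr rfl fun i _ => ?_
    rw [hc]
    rfl

/-- **Existence of a lifted basis** from normality of the chart. -/
theorem exists_isLift (hxt : Transcendental k (S.red ⟨x, hx⟩)) [FiniteDimensional ↥C⟮x⟯ F]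
    (hdeg : Module.finrank ↥k⟮S.red ⟨x, hx⟩⟯ Ft = Module.finrank ↥C⟮x⟯ F)
    [Algebra.IsSeparable ↥k⟮S.red ⟨x, hx⟩⟯ Ft]
    (hcn : ∀ y : Ft, IsIntegral ↥(Algebra.adjoin k {S.red ⟨x, hx⟩}) y →
      ∃ f : ↥S.V, IsIntegral ↥(Algebra.adjoin C {x}) (f : F) ∧ S.red f = y) :
    ∃ e : Fin (Module.finrank ↥C⟮x⟯ F) → F, IsLift hx e := by
  have hpos : 0 < Module.finrank ↥C⟮x⟯ F := Module.finrank_pos
  have hfin : FiniteDimensional ↥k⟮S.red ⟨x, hx⟩⟯ Ft :=
    Module.finite_of_finrank_pos (hdeg ▸ hpos)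
  obtain ⟨β, hβint, hβlin, hβspan⟩ := exists_intClosure_basis hxt hdeg
  choose f hfint hfred using fun i => hcn (β i) (hβint i)
  have hfun : (fun i => S.red ⟨((f i : ↥S.V) : F), (f i).2⟩) = β := by
    funext i
    exact hfred i
  refine ⟨fun i => ((f i : ↥S.V) : F), fun i => (f i).2, hfint, ?_, ?_⟩
  · rw [hfun]
    exact hβlin
  · intro y hy
    obtain ⟨c, hc⟩ := hβspan y hy
    refine ⟨c, ?_⟩
    rw [hc]
    refine Finset.sum_congr rfl fun i _ => ?_
    rw [← hfred i]

/-- **The chart is free over `O[x]`**: there is a lifted basis `e` such that every element of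
`B ∩ V` is an `O[x]`-combination of the `e i`. -/
theorem exists_chart_basis [IsAlgClosed C] [CharZero C]
    (hxt : Transcendental k (S.red ⟨x, hx⟩)) [FiniteDimensional ↥C⟮x⟯ F]
    (hdeg : Module.finrank ↥k⟮S.red ⟨x, hx⟩⟯ Ft = Module.finrank ↥C⟮x⟯ F)
    [Algebra.IsSeparable ↥k⟮S.red ⟨x, hx⟩⟯ Ft]
    (hcn : ∀ y : Ft, IsIntegral ↥(Algebra.adjoin k {S.red ⟨x, hx⟩}) y →
      ∃ f : ↥S.V, IsIntegral ↥(Algebra.adjoin C {x}) (f : F) ∧ S.red f = y) :
    ∃ e : Fin (Module.finrank ↥C⟮x⟯ F) → F, IsLift hx e ∧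
      ∀ f : F, f ∈ S.V → IsIntegral ↥(Algebra.adjoin C {x}) f →
        ∃ p : Fin (Module.finrank ↥C⟮x⟯ F) → (↥S.O)[X],
          f = ∑ i, ((psi hx (p i) : ↥S.V) : F) * e i := by
  obtain ⟨e, he, hspan⟩ := exists_lift_gspan hx hxt hdeg (by simp)
    (exists_isLift hx hxt hdeg hcn)
  exact ⟨e, he, fun f hfV hf => exists_repr_psi hx hxt he f hfV (hspan f hf)⟩

end Fermat.Agent.S27.REDu.H42
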