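import Fermat.Agent.S27.REDu.H42_Gen5

/-!
# G-RED package GEN (helper42), part 6: scaling of integral equations

* `aeval_inv_reflect` : `p(x) * x⁻¹ ^ N = (reflect N p)(x⁻¹)` for `deg p ≤ N`.
* `exists_scale_isIntegral` : `f` integral over `C[x]`  ⟹  `x⁻¹ ^ m * f` integral over `C[x⁻¹]`
  for all large `m`.
-/

set_option autoImplicit false

universe uC uCf uK uR uF uL uE uk ukap uFp uFt uFtp uiot uEp uKp ux3b1

noncomputable section

open Polynomial IntermediateField Module

namespace Fermat.Agent.S27.REDu.H42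

open Fermat.Agent.S27.REDu.H34 Fermat.Agent.S27.REDu.H34.RedSetting

variable {C : Type uC} {F : Type uF} [Field C] [Field F] [Algebra C F]

theorem aeval_inv_reflect {x : F} (hx0 : x ≠ 0) (p : C[X]) (N : ℕ) (h : p.natDegree ≤ N) :
    Polynomial.aeval x⁻¹ (Polynomial.reflect N p) = Polynomial.aeval x p * x⁻¹ ^ N := by
  letI := invertibleOfNonzero hx0
  have h1 := Polynomial.eval₂_reflect_mul_pow (algebraMap C F) x N p h
  rw [invOf_eq_inv] at h1
  rw [Polynomial.aeval_def, Polynomial.aeval_def, ← h1, mul_assoc, ← mul_pow,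
    mul_inv_cancel₀ hx0, one_pow, mul_one]

theorem aeval_mul_inv_pow_mem {x : F} (hx0 : x ≠ 0) (p : C[X]) (N : ℕ) (h : p.natDegree ≤ N) :
    Polynomial.aeval x p * x⁻¹ ^ N ∈ Algebra.adjoin C {x⁻¹} := by
  rw [← aeval_inv_reflect hx0 p N h]
  exact Polynomial.aeval_mem_adjoin_singleton C _

theorem exists_aeval_eq {x : F} (r : ↥(Algebra.adjoin C {x})) :
    ∃ q : C[X], Polynomial.aeval x q = (r : F) := by
  have h1 : (r : F) ∈ (Polynomial.aeval x : C[X] →ₐ[C] F).range := by
    rw [← Algebra.adjoin_singleton_eq_range_aeval]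
    exact r.2
  exact h1

/-- **Scaling**: an element integral over `C[x]` becomes integral over `C[x⁻¹]` after
multiplication by a large power of `x⁻¹`. -/
theorem exists_scale_isIntegral {x : F} (hx0 : x ≠ 0) {f : F}
    (hf : IsIntegral ↥(Algebra.adjoin C {x}) f) :
    ∃ c : ℕ, ∀ m, c ≤ m → IsIntegral ↥(Algebra.adjoin C {x⁻¹}) (x⁻¹ ^ m * f) := by
  obtain ⟨P, hP, hroot⟩ := hf
  choose p hp using fun i => exists_aeval_eq (P.coeff i)
  refine ⟨(Finset.range P.natDegree).sup fun i => (p i).natDegree, fun m hm => ?_⟩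
  have hPF : (P.map (algebraMap ↥(Algebra.adjoin C {x}) F)).Monic := hP.map _
  have hdeg : (P.map (algebraMap ↥(Algebra.adjoin C {x}) F)).natDegree = P.natDegree :=
    hP.natDegree_map _
  have hQ : ((P.map (algebraMap ↥(Algebra.adjoin C {x}) F)).scaleRoots (x⁻¹ ^ m)).Monic :=
    (Polynomial.monic_scaleRoots_iff _).2 hPF
  have hroot' : Polynomial.eval (x⁻¹ ^ m * f)
      ((P.map (algebraMap ↥(Algebra.adjoin C {x}) F)).scaleRoots (x⁻¹ ^ m)) = 0 := by
    have h1 : Polynomial.eval₂ (RingHom.id F) f (P.map (algebraMap ↥(Algebra.adjoin C {x}) F))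
        = 0 := by
      rw [Polynomial.eval₂_map]
      exact hroot
    have h2 := Polynomial.scaleRoots_eval₂_eq_zero (RingHom.id F) (s := x⁻¹ ^ m) h1
    rw [Polynomial.eval₂_id] at h2
    exact h2
  have hlifts : (P.map (algebraMap ↥(Algebra.adjoin C {x}) F)).scaleRoots (x⁻¹ ^ m) ∈
      Polynomial.lifts (algebraMap ↥(Algebra.adjoin C {x⁻¹}) F) := by
    rw [Polynomial.lifts_iff_coeff_lifts]
    intro i
    rw [Polynomial.coeff_scaleRoots, hdeg, Polynomial.coeff_map]
    rcases lt_trichotomy i P.natDegree with hi | hi | hi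
    · have h1 : (p i).natDegree ≤ m * (P.natDegree - i) := by
        have h2 : (p i).natDegree ≤ (Finset.range P.natDegree).sup fun i => (p i).natDegree :=
          Finset.le_sup (f := fun i => (p i).natDegree) (Finset.mem_range.2 hi)
        have h3 : 1 ≤ P.natDegree - i := by omega
        calc (p i).natDegree ≤ m := h2.trans hm
          _ = m * 1 := (mul_one m).symm
          _ ≤ m * (P.natDegree - i) := Nat.mul_le_mul_left m h3
      have h4 := aeval_mul_inv_pow_mem (C := C) hx0 (p i) _ h1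
      rw [hp i, pow_mul] at h4
      exact ⟨⟨_, h4⟩, rfl⟩
    · rw [hi, Nat.sub_self, pow_zero, mul_one, Polynomial.coeff_natDegree, hP.leadingCoeff]
      exact ⟨1, by simp⟩
    · rw [Polynomial.coeff_eq_zero_of_natDegree_lt hi]
      exact ⟨0, by simp⟩
  obtain ⟨q, hq, -, hqm⟩ := Polynomial.lifts_and_degree_eq_and_monic hlifts hQ
  refine ⟨q, hqm, ?_⟩
  rw [← Polynomial.eval_map, hq]
  exact hroot'

end Fermat.Agent.S27.REDu.H42
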