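import Fermat.Agent.S27.REDu.H42_Gen6

/-!
# G-RED package GEN (helper42), part 7: `H¹ = 0` over `O` and the lifting theorem `gen_lift`

`S : RedSetting C F k Ft`, `x` a unit of `V` with transcendental reduction `xt`, both charts
(`x` and `x⁻¹`) normal.  Then for all large `N` every `y ∈ Ft` with `y` integral over `k[xt]` and
`xt⁻¹ ^ N * y` integral over `k[xt⁻¹]` is the reduction of some `g ∈ V` with `g` integral over
`C[x]` and `x⁻¹ ^ N * g` integral over `C[x⁻¹]`: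
`red : L(N (x)_∞) ∩ V → L~(N (xt)_∞)` is surjective.
-/

set_option autoImplicit false

universe uC uCf uK uR uF uL uE uk ukap uFp uFt uFtp uiot uEp uKp ux3b1

noncomputable section

open Polynomial IntermediateField Module

namespace Fermat.Agent.S27.REDu.H42

open Fermat.Agent.S27.REDu.H34 Fermat.Agent.S27.REDu.H34.RedSetting

variable {C : Type uC} {F : Type uF} {k : Type uk} {Ft : Type uFt} [Field C] [Field F] [Algebra C F] [Field k] [Field Ft] [Algebra k Ft]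
variable {S : RedSetting C F k Ft} {x : F} (hx : x ∈ S.V)

theorem isIntegral_coe_psi (p₀ : (↥S.O)[X]) :
    IsIntegral ↥(Algebra.adjoin C {x}) ((psi hx p₀ : ↥S.V) : F) := by
  rw [coe_psi]
  exact isIntegral_algebraMap
    (x := (⟨_, Polynomial.aeval_mem_adjoin_singleton C x⟩ : ↥(Algebra.adjoin C {x})))

theorem coe_psi_X : ((psi hx Polynomial.X : ↥S.V) : F) = x := by
  rw [coe_psi]
  simp

theorem coe_psi_reflect (hx0 : x ≠ 0) (hx' : x⁻¹ ∈ S.V) (R : (↥S.O)[X]) (M : ℕ)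
    (h : R.natDegree ≤ M) :
    ((psi hx' (Polynomial.reflect M R) : ↥S.V) : F) = ((psi hx R : ↥S.V) : F) * x⁻¹ ^ M := by
  rw [coe_psi, coe_psi, ← Polynomial.reflect_map,
    aeval_inv_reflect hx0 _ M (Polynomial.natDegree_map_le.trans h)]

variable {ι : Type uiot} [Fintype ι]

/-- **`H¹ = 0` over `O`**: an element `t ∈ V` with `x ^ M * t ∈ B` splits as `a + x ^ N * b` with
`a ∈ B ∩ V` and `b ∈ B' ∩ V`, as soon as `x⁻¹ ^ N * e i ∈ B'` for a chart basis `e`. -/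
theorem exists_split (hx0 : x ≠ 0) (hx' : x⁻¹ ∈ S.V) {e : ι → F} (heV : ∀ i, e i ∈ S.V)
    (heint : ∀ i, IsIntegral ↥(Algebra.adjoin C {x}) (e i))
    (hrep : ∀ f : F, f ∈ S.V → IsIntegral ↥(Algebra.adjoin C {x}) f →
      ∃ p : ι → (↥S.O)[X], f = ∑ i, ((psi hx (p i) : ↥S.V) : F) * e i)
    (N : ℕ) (heN : ∀ i, IsIntegral ↥(Algebra.adjoin C {x⁻¹}) (x⁻¹ ^ N * e i))
    (t : F) (ht : t ∈ S.V) (M : ℕ) (hM : IsIntegral ↥(Algebra.adjoin C {x}) (x ^ M * t)) :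
    ∃ a b : ↥S.V, IsIntegral ↥(Algebra.adjoin C {x}) (a : F) ∧
      IsIntegral ↥(Algebra.adjoin C {x⁻¹}) (b : F) ∧ t = (a : F) + x ^ N * (b : F) := by
  have hMV : x ^ M * t ∈ S.V := mul_mem (pow_mem hx M) ht
  obtain ⟨p, hp⟩ := hrep _ hMV hM
  have hsplit : ∀ i, p i %ₘ (Polynomial.X ^ M) + Polynomial.X ^ M * (p i /ₘ (Polynomial.X ^ M))
      = p i := fun i => Polynomial.modByMonic_add_div (p i) _
  have hRdeg : ∀ i, (p i %ₘ (Polynomial.X ^ M)).natDegree ≤ M := by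
    intro i
    have := Polynomial.natDegree_modByMonic_le (p i) (Polynomial.monic_X_pow (R := ↥S.O) M)
    rwa [Polynomial.natDegree_X_pow] at this
  have hpsi : ∀ i, ((psi hx (p i) : ↥S.V) : F) =
      ((psi hx (p i %ₘ (Polynomial.X ^ M)) : ↥S.V) : F) +
        x ^ M * ((psi hx (p i /ₘ (Polynomial.X ^ M)) : ↥S.V) : F) := by
    intro i
    conv_lhs => rw [← hsplit i]
    rw [map_add, map_mul, map_pow, Subring.coe_add, Subring.coe_mul, SubmonoidClass.coe_pow,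
      coe_psi_X]
  let a : ↥S.V := ∑ i, psi hx (p i /ₘ (Polynomial.X ^ M)) * ⟨e i, heV i⟩
  let b : ↥S.V := ∑ i, psi hx' (Polynomial.reflect M (p i %ₘ (Polynomial.X ^ M))) *
    ⟨x⁻¹ ^ N * e i, mul_mem (pow_mem hx' N) (heV i)⟩
  have haF : (a : F) = ∑ i, ((psi hx (p i /ₘ (Polynomial.X ^ M)) : ↥S.V) : F) * e i := by
    simp only [a, AddSubmonoidClass.coe_finsetSum]
    rfl
  have hbF : (b : F) = ∑ i, ((psi hx' (Polynomial.reflect M (p i %ₘ (Polynomial.X ^ M))) :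
      ↥S.V) : F) * (x⁻¹ ^ N * e i) := by
    simp only [b, AddSubmonoidClass.coe_finsetSum]
    rfl
  refine ⟨a, b, ?_, ?_, ?_⟩
  · rw [haF]
    exact IsIntegral.sum _ fun i _ => (isIntegral_coe_psi hx _).mul (heint i)
  · rw [hbF]
    exact IsIntegral.sum _ fun i _ => (isIntegral_coe_psi hx' _).mul (heN i)
  · have hxM : x ^ M ≠ 0 := pow_ne_zero M hx0
    apply mul_left_cancel₀ hxM
    rw [hp, haF, hbF, mul_add, Finset.mul_sum, Finset.mul_sum, Finset.mul_sum,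
      ← Finset.sum_add_distrib]
    refine Finset.sum_congr rfl fun i _ => ?_
    rw [hpsi i, coe_psi_reflect hx hx0 hx' _ M (hRdeg i)]
    have h1 : x ^ M * (x ^ N * (((psi hx (p i %ₘ (Polynomial.X ^ M)) : ↥S.V) : F) * x⁻¹ ^ M *
        (x⁻¹ ^ N * e i))) = ((psi hx (p i %ₘ (Polynomial.X ^ M)) : ↥S.V) : F) * e i := by
      have h2 : x ^ M * x⁻¹ ^ M = 1 := by rw [← mul_pow, mul_inv_cancel₀ hx0, one_pow]
      have h3 : x ^ N * x⁻¹ ^ N = 1 := by rw [← mul_pow, mul_inv_cancel₀ hx0, one_pow]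
      calc x ^ M * (x ^ N * (((psi hx (p i %ₘ (Polynomial.X ^ M)) : ↥S.V) : F) * x⁻¹ ^ M *
            (x⁻¹ ^ N * e i)))
          = (x ^ M * x⁻¹ ^ M) * (x ^ N * x⁻¹ ^ N) *
            (((psi hx (p i %ₘ (Polynomial.X ^ M)) : ↥S.V) : F) * e i) := by ring
        _ = _ := by rw [h2, h3, one_mul, one_mul]
    rw [h1]
    ring

/-- **GEN-lift**: for all large `N`, `red : L(N (x)_∞) ∩ V → L~(N (xt)_∞)` is surjective. -/
theorem gen_lift [IsAlgClosed C] [CharZero C] (hx' : x⁻¹ ∈ S.V)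
    (hxt : Transcendental k (S.red ⟨x, hx⟩)) [FiniteDimensional ↥C⟮x⟯ F]
    (hdeg : Module.finrank ↥k⟮S.red ⟨x, hx⟩⟯ Ft = Module.finrank ↥C⟮x⟯ F)
    [Algebra.IsSeparable ↥k⟮S.red ⟨x, hx⟩⟯ Ft]
    (hcn : ∀ y : Ft, IsIntegral ↥(Algebra.adjoin k {S.red ⟨x, hx⟩}) y →
      ∃ f : ↥S.V, IsIntegral ↥(Algebra.adjoin C {x}) (f : F) ∧ S.red f = y)
    (hcn' : ∀ y : Ft, IsIntegral ↥(Algebra.adjoin k {S.red ⟨x⁻¹, hx'⟩}) y →
      ∃ f : ↥S.V, IsIntegral ↥(Algebra.adjoin C {x⁻¹}) (f : F) ∧ S.red f = y) :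
    ∃ N₀ : ℕ, ∀ N, N₀ ≤ N → ∀ y : Ft, IsIntegral ↥(Algebra.adjoin k {S.red ⟨x, hx⟩}) y →
      IsIntegral ↥(Algebra.adjoin k {S.red ⟨x⁻¹, hx'⟩}) (S.red ⟨x⁻¹, hx'⟩ ^ N * y) →
      ∃ g : ↥S.V, S.red g = y ∧ IsIntegral ↥(Algebra.adjoin C {x}) (g : F) ∧
        IsIntegral ↥(Algebra.adjoin C {x⁻¹}) (x⁻¹ ^ N * (g : F)) := by
  classical
  have hxC := transcendental_x hx hxt
  have hx0 : x ≠ 0 := fun h0 => hxC (h0 ▸ isAlgebraic_zero)
  obtain ⟨e, he, hrep⟩ := exists_chart_basis hx hxt hdeg hcn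
  choose c hc using fun i => exists_scale_isIntegral (C := C) hx0 (he.int i)
  refine ⟨Finset.univ.sup c, fun N hN y hy hy' => ?_⟩
  have heN : ∀ i, IsIntegral ↥(Algebra.adjoin C {x⁻¹}) (x⁻¹ ^ N * e i) := fun i =>
    hc i N ((Finset.le_sup (f := c) (Finset.mem_univ i)).trans hN)
  obtain ⟨f, hfint, hfred⟩ := hcn y hy
  obtain ⟨f', hf'int, hf'red⟩ := hcn' _ hy'
  have hxx : (⟨x, hx⟩ : ↥S.V) * ⟨x⁻¹, hx'⟩ = 1 := Subtype.ext (mul_inv_cancel₀ hx0)
  have hxxt : S.red ⟨x, hx⟩ * S.red ⟨x⁻¹, hx'⟩ = 1 := by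
    rw [← map_mul, hxx, map_one]
  have hxN : x ^ N * x⁻¹ ^ N = 1 := by rw [← mul_pow, mul_inv_cancel₀ hx0, one_pow]
  have hzred : S.red (f - ⟨x, hx⟩ ^ N * f') = 0 := by
    rw [map_sub, map_mul, map_pow, hfred, hf'red, ← mul_assoc, ← mul_pow, hxxt, one_pow,
      one_mul, sub_self]
  by_cases hz : f - (⟨x, hx⟩ : ↥S.V) ^ N * f' = 0
  · refine ⟨f, hfred, hfint, ?_⟩
    have h1 : (f : F) = x ^ N * (f' : F) := by
      have := congrArg (fun v : ↥S.V => (v : F)) (sub_eq_zero.1 hz)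
      simpa using this
    have h2 : x⁻¹ ^ N * (f : F) = (f' : F) := by
      rw [h1, ← mul_assoc, mul_comm (x⁻¹ ^ N), hxN, one_mul]
    rw [h2]
    exact hf'int
  · have hzF : ((f - (⟨x, hx⟩ : ↥S.V) ^ N * f' : ↥S.V) : F) ≠ 0 := fun h0 => hz (Subtype.ext h0)
    obtain ⟨π, hπ0, t, hπt⟩ := S.scale _ hzF
    have hπF : algebraMap C F π ≠ 0 := fun h0 => hπ0 ((map_eq_zero _).1 h0)
    have htinv : (((t⁻¹ : (↥S.V)ˣ) : ↥S.V) : F) * (((t : (↥S.V)ˣ) : ↥S.V) : F) = 1 := by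
      rw [← Subring.coe_mul, ← Units.val_mul, inv_mul_cancel]
      rfl
    have hπV : algebraMap C F π =
        (((f - (⟨x, hx⟩ : ↥S.V) ^ N * f') * ((t⁻¹ : (↥S.V)ˣ) : ↥S.V) : ↥S.V) : F) := by
      rw [Subring.coe_mul, hπt, mul_assoc, mul_comm ((((t : (↥S.V)ˣ) : ↥S.V) : F)), htinv,
        mul_one]
    have hπO : π ∈ S.O := by
      rw [ValuationSubring.mem_comap, hπV]
      exact Subtype.mem _
    have hπred : S.red (S.inclO ⟨π, hπO⟩) = 0 := by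
      have : S.inclO ⟨π, hπO⟩ = (f - (⟨x, hx⟩ : ↥S.V) ^ N * f') * ((t⁻¹ : (↥S.V)ˣ) : ↥S.V) :=
        Subtype.ext hπV
      rw [this, map_mul, hzred, zero_mul]
    -- the F-level equation `f = π t + x ^ N f'`
    have hfF : (f : F) = algebraMap C F π * (((t : (↥S.V)ˣ) : ↥S.V) : F) + x ^ N * (f' : F) := by
      rw [← hπt]
      simp
    -- `x ^ M * t` is integral over `C[x]`
    obtain ⟨M, hM⟩ : ∃ c : ℕ, ∀ m, c ≤ m →
        IsIntegral ↥(Algebra.adjoin C {x}) (x ^ m * (f' : F)) := by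
      have h1 := exists_scale_isIntegral (C := C) (inv_ne_zero hx0) hf'int
      rwa [inv_inv] at h1
    have hTint : IsIntegral ↥(Algebra.adjoin C {x}) (x ^ M * (((t : (↥S.V)ˣ) : ↥S.V) : F)) := by
      have h1 : x ^ M * (((t : (↥S.V)ˣ) : ↥S.V) : F) =
          Polynomial.aeval x (Polynomial.C π⁻¹ : C[X]) *
            (Polynomial.aeval x (Polynomial.X ^ M : C[X]) * (f : F) -
              Polynomial.aeval x (Polynomial.X ^ N : C[X]) * (x ^ M * (f' : F))) := by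
        rw [hfF]
        simp only [Polynomial.aeval_C, map_pow, Polynomial.aeval_X, map_inv₀]
        field_simp
        ring
      rw [h1]
      exact isIntegral_aeval_mul
        ((isIntegral_aeval_mul hfint _).sub (isIntegral_aeval_mul (hM M le_rfl) _)) _
    obtain ⟨a, b, haint, hbint, hab⟩ := exists_split hx hx0 hx' he.memV he.int hrep N heN
      _ (Subtype.mem ((t : (↥S.V)ˣ) : ↥S.V)) M hTint
    refine ⟨f - S.inclO ⟨π, hπO⟩ * a, ?_, ?_, ?_⟩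
    · rw [map_sub, map_mul, hπred, zero_mul, sub_zero, hfred]
    · have h1 : ((f - S.inclO ⟨π, hπO⟩ * a : ↥S.V) : F) =
          (f : F) - Polynomial.aeval x (Polynomial.C π : C[X]) * (a : F) := by
        simp
      rw [h1]
      exact hfint.sub (isIntegral_aeval_mul haint _)
    · have h1 : x⁻¹ ^ N * ((f - S.inclO ⟨π, hπO⟩ * a : ↥S.V) : F) =
          (f' : F) + Polynomial.aeval x⁻¹ (Polynomial.C π : C[X]) * (b : F) := by
        have h2 : ((f - S.inclO ⟨π, hπO⟩ * a : ↥S.V) : F) =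
            x ^ N * ((f' : F) + algebraMap C F π * (b : F)) := by
          rw [AddSubgroupClass.coe_sub, Subring.coe_mul, coe_inclO, hfF, hab]
          ring
        rw [h2, ← mul_assoc, mul_comm (x⁻¹ ^ N), hxN, one_mul, Polynomial.aeval_C]
      rw [h1]
      exact hf'int.add (isIntegral_aeval_mul hbint _)

end Fermat.Agent.S27.REDu.H42
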