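import Fermat.Agent.S27.REDu.H42_RiemannBasic

/-!
# G-RED, package FF-R (helper42): Riemann's theorem, abstract form

`riemann`: from the hypotheses `Hyp K F` (principal divisors have degree `0`, places have
degree `1`, non-constant functions have a pole) and a transcendental `x` with `F / K(x)` finite
whose pole divisor has degree at most `[F : K(x)]`, there are `g` and `c` with
`l(D) ≥ deg D + 1 - g` for all `D` and equality if `deg D ≥ c`.
-/

set_option autoImplicit false

universe uC uCf uK uR uF uL uE uk ukap uFp uFt uFtp uiot uEp uKp ux3b1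

noncomputable section

open AlgebraicCurve IntermediateField WithZero Polynomial

namespace Fermat.Agent.S27.REDu.H42

variable {K F : Type*} [Field K] [Field F] [Algebra K F]

local notation "L" => riemannRochSpace

/-! ## Products and polynomials in `L(D)` -/

theorem mul_mem_L_add {D D' : Divisor K F} {f g : F} (hf : f ∈ L D) (hg : g ∈ L D') :
    f * g ∈ L (D + D') := by
  intro v
  rw [map_mul, Finsupp.add_apply, exp_add]
  exact mul_le_mul' (hf v) (hg v)

theorem one_mem_L {D : Divisor K F} (hD : 0 ≤ D) : (1 : F) ∈ L D := by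
  intro v
  rw [map_one, ← exp_zero, exp_le_exp]
  exact Finsupp.le_def.mp hD v

theorem algebraMap_mem_L {D : Divisor K F} (hD : 0 ≤ D) (c : K) : algebraMap K F c ∈ L D := by
  have := (L D).smul_mem c (one_mem_L hD)
  rwa [Algebra.smul_def, mul_one] at this

theorem pow_mem_L {B : Divisor K F} {x : F} (hx : x ∈ L B) (i : ℕ) : x ^ i ∈ L (i • B) := by
  intro v
  rw [map_pow, Finsupp.smul_apply, exp_nsmul]
  exact pow_le_pow_left' (hx v) i

theorem nsmul_le_nsmul_of_nonneg {B : Divisor K F} (hB : 0 ≤ B) {i l : ℕ} (h : i ≤ l) :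
    i • B ≤ l • B := by
  rw [Finsupp.le_def]
  intro v
  have h0 := Finsupp.le_def.mp hB v
  simp only [Finsupp.coe_zero, Pi.zero_apply] at h0
  rw [Finsupp.smul_apply, Finsupp.smul_apply, nsmul_eq_mul, nsmul_eq_mul]
  exact mul_le_mul_of_nonneg_right (by exact_mod_cast h) h0

theorem aeval_mem_L {B : Divisor K F} (hB : 0 ≤ B) {x : F} (hx : x ∈ L B) {l : ℕ} {p : K[X]}
    (hp : p.natDegree ≤ l) : aeval x p ∈ L (l • B) := by
  rw [aeval_eq_sum_range]
  refine Submodule.sum_mem _ fun i hi => ?_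
  refine Submodule.smul_mem _ _ ?_
  have hi' : i ≤ l := (Nat.lt_succ_iff.mp (Finset.mem_range.mp hi)).trans hp
  exact L_mono (nsmul_le_nsmul_of_nonneg hB hi') (pow_mem_L hx i)

theorem finrank_degreeLT (n : ℕ) : Module.finrank K (degreeLT K n) = n := by
  rw [(degreeLTEquiv K n).finrank_eq, Module.finrank_fin_fun]

theorem natDegree_le_of_mem_degreeLT {l : ℕ} {p : K[X]} (hp : p ∈ degreeLT K (l + 1)) :
    p.natDegree ≤ l := by
  rw [mem_degreeLT] at hp
  by_cases hp0 : p = 0
  · simp [hp0]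
  · rw [degree_eq_natDegree hp0] at hp
    have : p.natDegree < l + 1 := by exact_mod_cast hp
    omega


/-! ## The lower bound -/

/-- The `K`-linear map `(p_j) ↦ Σ p_j(x) b_j`. -/
def polyComb (x : F) {n : ℕ} (b : Fin n → F) (l : ℕ) :
    (Fin n → degreeLT K (l + 1)) →ₗ[K] F where
  toFun p := ∑ j, aeval x (p j : K[X]) * b j
  map_add' p q := by
    simp only [Pi.add_apply, Submodule.coe_add, map_add, add_mul, Finset.sum_add_distrib]
  map_smul' c p := by
    simp only [Pi.smul_apply, Submodule.coe_smul, map_smul, RingHom.id_apply, Finset.smul_sum,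
      smul_mul_assoc]

theorem polyComb_apply (x : F) {n : ℕ} (b : Fin n → F) (l : ℕ)
    (p : Fin n → degreeLT K (l + 1)) :
    polyComb x b l p = ∑ j, aeval x (p j : K[X]) * b j := rfl

theorem polyComb_injective {x : F} (hx : Transcendental K x) {n : ℕ} {b : Fin n → F}
    (hb : LinearIndependent K⟮x⟯ b) (l : ℕ) : Function.Injective (polyComb (K := K) x b l) := by
  rw [injective_iff_map_eq_zero]
  intro p hp
  rw [polyComb_apply] at hp
  have h1 : ∑ j, (aeval (AdjoinSimple.gen K x) (p j : K[X]) : K⟮x⟯) • b j = 0 := by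
    rw [← hp]
    refine Finset.sum_congr rfl fun j _ => ?_
    rw [Algebra.smul_def, IntermediateField.algebraMap_apply, AdjoinSimple.coe_aeval_gen_apply]
  have h2 := (Fintype.linearIndependent_iff.mp hb) _ h1
  funext j
  have h3 : aeval x (p j : K[X]) = 0 := by
    have := congrArg (fun z : K⟮x⟯ => (z : F)) (h2 j)
    simpa using this
  have h4 : (p j : K[X]) = 0 := by
    by_contra hne
    exact hx ⟨_, hne, h3⟩
  exact Subtype.ext h4

theorem polyComb_mem {B C : Divisor K F} (hB : 0 ≤ B) {x : F} (hx : x ∈ L B) {n : ℕ}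
    {b : Fin n → F} (hb : ∀ j, b j ∈ L C) (l : ℕ) (p : Fin n → degreeLT K (l + 1)) :
    polyComb x b l p ∈ L (l • B + C) := by
  rw [polyComb_apply]
  refine Submodule.sum_mem _ fun j _ => ?_
  exact mul_mem_L_add (aeval_mem_L hB hx (natDegree_le_of_mem_degreeLT (p j).2)) (hb j)

/-- The lower bound `n (l + 1) ≤ l(l B + C)`. -/
theorem le_finrank_L {B C : Divisor K F} (hB : 0 ≤ B) {x : F} (hx : x ∈ L B)
    (hxt : Transcendental K x) {n : ℕ} {b : Fin n → F} (hbi : LinearIndependent K⟮x⟯ b)
    (hb : ∀ j, b j ∈ L C) (l : ℕ) (hfin : Module.Finite K (L (l • B + C))) :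
    n * (l + 1) ≤ Module.finrank K (L (l • B + C)) := by
  let Φ : (Fin n → degreeLT K (l + 1)) →ₗ[K] L (l • B + C) :=
    LinearMap.codRestrict _ (polyComb x b l) (polyComb_mem hB hx hb l)
  have hΦ : Function.Injective Φ := by
    intro p q hpq
    apply polyComb_injective hxt hbi l
    exact congrArg Subtype.val hpq
  have h1 := LinearMap.finrank_le_finrank_of_injective hΦ
  rw [Module.finrank_pi_fintype] at h1
  simp only [finrank_degreeLT, Finset.sum_const, Finset.card_univ, Fintype.card_fin,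
    smul_eq_mul] at h1
  exact h1


/-! ## The defect `deg D + 1 - l(D)` -/

/-- The defect `deg D + 1 - l(D)`. -/
def defect (D : Divisor K F) : ℤ :=
  Divisor.degree D + 1 - (Module.finrank K (L D) : ℤ)

theorem defect_def (D : Divisor K F) :
    defect D = Divisor.degree D + 1 - (Module.finrank K (L D) : ℤ) := rfl

variable (H : Hyp K F)
include H

theorem defect_zero : defect (0 : Divisor K F) = 0 := by
  rw [defect_def, finrank_L_zero H, map_zero]
  simp

theorem defect_mono {D D' : Divisor K F} (h : D ≤ D') : defect D ≤ defect D' := by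
  have := finrank_le_add H.deg_one h (finite_L H D)
  rw [defect_def, defect_def]
  omega

theorem defect_add_principal {D E : Divisor K F} {f : F} (hf : f ≠ 0)
    (hE : ∀ v, E v = v.ord f) : defect (D + E) = defect D := by
  obtain ⟨E', hE', hE'0⟩ := H.principal f hf
  have hEE : E = E' := by
    ext v
    rw [hE v, hE' v]
  rw [defect_def, defect_def, finrank_L_add_principal H hf hE, map_add, hEE, hE'0, add_zero]

/-- Every function lies in `L(C)` for some `C ≥ 0`. -/
theorem exists_nonneg_mem_L (f : F) : ∃ C : Divisor K F, 0 ≤ C ∧ f ∈ L C := by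
  by_cases hf : f = 0
  · exact ⟨0, le_rfl, hf ▸ Submodule.zero_mem _⟩
  · obtain ⟨E, hE, -⟩ := H.principal f hf
    refine ⟨(-E) ⊔ 0, le_sup_right, ?_⟩
    rw [mem_riemannRochSpace_iff]
    intro v
    right
    rw [← hE v]
    have h1 : (-E) v ≤ ((-E) ⊔ 0 : Divisor K F) v := Finsupp.le_def.mp le_sup_left v
    rw [Finsupp.neg_apply] at h1
    omega

theorem exists_nonneg_forall_mem_L {n : ℕ} (b : Fin n → F) :
    ∃ C : Divisor K F, 0 ≤ C ∧ ∀ j, b j ∈ L C := by
  choose C hC0 hC using fun j => exists_nonneg_mem_L H (b j)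
  refine ⟨∑ j, C j, Finset.sum_nonneg fun j _ => hC0 j, fun j => ?_⟩
  exact L_mono (Finset.single_le_sum (fun i _ => hC0 i) (Finset.mem_univ j)) (hC j)

/-- If `L(D - A)` contains a nonzero function, then `defect A ≤ defect D`. -/
theorem defect_le_of_ne_bot {A D : Divisor K F} (h : L (D - A) ≠ ⊥) : defect A ≤ defect D := by
  obtain ⟨z, hz, hz0⟩ := (Submodule.ne_bot_iff _).mp h
  obtain ⟨E, hE, -⟩ := H.principal z hz0
  have h1 : A ≤ D + E := by
    rw [Finsupp.le_def]
    intro v
    rcases (mem_riemannRochSpace_iff.mp hz) v with h0 | h0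
    · exact absurd h0 hz0
    · rw [Finsupp.add_apply, hE v]
      rw [Finsupp.sub_apply] at h0
      omega
  calc defect A ≤ defect (D + E) := defect_mono H h1
    _ = defect D := defect_add_principal H hz0 hE

/-- `l(D - A) ≥ l(D) - deg A` for `A ≥ 0`. -/
theorem finrank_L_sub_ge {A D : Divisor K F} (hA : 0 ≤ A) :
    (Module.finrank K (L D) : ℤ) - Divisor.degree A ≤ Module.finrank K (L (D - A)) := by
  have h1 : D - A ≤ D := sub_le_self D hA
  have := finrank_le_add H.deg_one h1 (finite_L H (D - A))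
  rw [map_sub] at this
  omega


/-! ## The Riemann bound -/

/-- Lower bound for `l(l B)`. -/
theorem le_finrank_L_nsmul {B C : Divisor K F} (hB : 0 ≤ B) {x : F} (hx : x ∈ L B)
    (hxt : Transcendental K x) {n : ℕ} {b : Fin n → F} (hbi : LinearIndependent K⟮x⟯ b)
    (hb : ∀ j, b j ∈ L C) (hC : 0 ≤ C) (l : ℕ) :
    ((n * (l + 1) : ℕ) : ℤ) - Divisor.degree C ≤ Module.finrank K (L (l • B)) := by
  have h1 := le_finrank_L hB hx hxt hbi hb l (finite_L H _)
  have h2 : l • B ≤ l • B + C := le_add_of_nonneg_right hC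
  have h3 := finrank_le_add H.deg_one h2 (finite_L H _)
  rw [map_add] at h3
  have h1' : ((n * (l + 1) : ℕ) : ℤ) ≤ Module.finrank K (L (l • B + C)) := by exact_mod_cast h1
  omega

/-- The defect is bounded above. -/
theorem defect_le_of_basis {B C : Divisor K F} (hB : 0 ≤ B) {x : F} (hx : x ∈ L B)
    (hxt : Transcendental K x) {n : ℕ} (hn : 0 < n) (hBn : Divisor.degree B ≤ n)
    {b : Fin n → F} (hbi : LinearIndependent K⟮x⟯ b)
    (hb : ∀ j, b j ∈ L C) (hC : 0 ≤ C) (A : Divisor K F) :
    defect A ≤ Divisor.degree C + 1 - n := by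
  -- bound for `l • B`
  have hlB : ∀ l : ℕ, defect (l • B) ≤ Divisor.degree C + 1 - n := by
    intro l
    have h1 := le_finrank_L_nsmul H hB hx hxt hbi hb hC l
    rw [defect_def, map_nsmul, nsmul_eq_mul]
    push_cast at h1
    have h2 : (l : ℤ) * Divisor.degree B ≤ l * n :=
      mul_le_mul_of_nonneg_left hBn (by positivity)
    nlinarith
  -- reduce to `A ≥ 0`
  have hA1 : defect A ≤ defect (A ⊔ 0) := defect_mono H le_sup_left
  have hA0 : (0 : Divisor K F) ≤ A ⊔ 0 := le_sup_right
  set A₁ := A ⊔ 0 with hA₁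
  have hdA : 0 ≤ Divisor.degree A₁ := degree_nonneg hA0
  have hdC : 0 ≤ Divisor.degree C := degree_nonneg hC
  -- choose `l` large
  set l : ℕ := (Divisor.degree C + Divisor.degree A₁).toNat with hl
  have hl' : (l : ℤ) = Divisor.degree C + Divisor.degree A₁ := Int.toNat_of_nonneg (by omega)
  have h1 := le_finrank_L_nsmul H hB hx hxt hbi hb hC l
  have h2 := finrank_L_sub_ge H (D := l • B) hA0
  have h3 : (0 : ℤ) < Module.finrank K (L (l • B - A₁)) := by
    push_cast at h1
    have hn' : (1 : ℤ) ≤ n := by exact_mod_cast hn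
    have h4 : (l : ℤ) + 1 ≤ n * (l + 1) := by nlinarith
    omega
  have h4 : L (l • B - A₁) ≠ ⊥ := by
    intro hbot
    rw [hbot, finrank_bot] at h3
    simp at h3
  exact hA1.trans ((defect_le_of_ne_bot H h4).trans (hlB l))

/-- **Riemann's theorem**, abstract form. -/
theorem riemann_of_bound {γ : ℤ} (hγ : ∀ A : Divisor K F, defect A ≤ γ) :
    ∃ (g : ℕ) (c : ℤ), ∀ D : Divisor K F,
      Divisor.degree D + 1 - g ≤ (Module.finrank K (L D) : ℤ) ∧
      (c ≤ Divisor.degree D →
        (Module.finrank K (L D) : ℤ) = Divisor.degree D + 1 - g) := by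
  obtain ⟨g, ⟨A₀, hA₀⟩, hmax⟩ := Int.exists_greatest_of_bdd
    (P := fun z => ∃ A : Divisor K F, defect A = z) ⟨γ, fun z ⟨A, hA⟩ => hA ▸ hγ A⟩
    ⟨0, 0, defect_zero H⟩
  have hg0 : 0 ≤ g := hmax 0 ⟨0, defect_zero H⟩
  have hle : ∀ D : Divisor K F, defect D ≤ g := fun D => hmax _ ⟨D, rfl⟩
  refine ⟨g.toNat, Divisor.degree A₀ + g, fun D => ?_⟩
  have hgn : ((g.toNat : ℕ) : ℤ) = g := Int.toNat_of_nonneg hg0
  rw [hgn]
  have h1 := hle D
  rw [defect_def] at h1
  refine ⟨by omega, fun hc => ?_⟩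
  -- `L(D - A₀) ≠ 0`
  have h2 := hle (D - A₀)
  rw [defect_def, map_sub] at h2
  have h3 : L (D - A₀) ≠ ⊥ := by
    intro hbot
    rw [hbot, finrank_bot] at h2
    simp only [Nat.cast_zero, sub_zero] at h2
    omega
  have h4 := defect_le_of_ne_bot H h3
  rw [hA₀, defect_def] at h4
  omega



/-- **Riemann's theorem** from `Hyp` and the bound on the pole divisor of `x`. -/
theorem riemann {x : F} (hxt : Transcendental K x) [Module.Finite K⟮x⟯ F]
    {B : Divisor K F} (hB : 0 ≤ B) (hx : x ∈ L B)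
    (hBn : Divisor.degree B ≤ (Module.finrank K⟮x⟯ F : ℤ)) :
    ∃ (g : ℕ) (c : ℤ), ∀ D : Divisor K F,
      Divisor.degree D + 1 - g ≤ (Module.finrank K (L D) : ℤ) ∧
      (c ≤ Divisor.degree D →
        (Module.finrank K (L D) : ℤ) = Divisor.degree D + 1 - g) := by
  have hn : 0 < Module.finrank K⟮x⟯ F := Module.finrank_pos
  let b := Module.finBasis K⟮x⟯ F
  obtain ⟨C, hC, hb⟩ := exists_nonneg_forall_mem_L H (fun j => b j)
  exact riemann_of_bound H
    (defect_le_of_basis H hB hx hxt hn hBn b.linearIndependent hb hC)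

end Fermat.Agent.S27.REDu.H42
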