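import Fermat.Agent.S27.REDu.Defs
import Fermat.Agent.S24.H59_FF1d
import Fermat.Agent.S27.REDu.H42_Riemann

/-!
# G-RED, package FF-R (helper42): the interface statements `Stmt_FFR_*` from the zeros theorem

The only input is the zeros theorem (S24 FF1b / FF-B `stmt_FFB_zeros`) in the shape
`Fermat.Agent.S24.H59.ZerosStmt K F`.
-/

set_option autoImplicit false

universe uC uCf uK uR uF uL uE uk ukap uFp uFt uFtp uiot uEp uKp ux3b1

noncomputable section

open AlgebraicCurve IntermediateField WithZero Polynomial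

namespace Fermat.Agent.S27.REDu.H42

open Fermat.Agent.S24

variable {K F : Type*} [Field K] [Field F] [Algebra K F]

local notation "L" => riemannRochSpace

/-- Over an algebraically closed field, an element outside `K` is transcendental. -/
theorem transcendental_of_not_mem_range [IsAlgClosed K] {f : F}
    (hf : f ∉ Set.range (algebraMap K F)) : Transcendental K f := by
  intro halg
  have hint : IsIntegral K f := halg.isIntegral
  have hdeg1 : (minpoly K f).degree = 1 :=
    IsAlgClosed.degree_eq_one_of_irreducible K (minpoly.irreducible hint)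
  obtain ⟨a, ha⟩ := minpoly.mem_range_of_degree_eq_one K f hdeg1
  exact hf ⟨a, ha⟩

/-- The zeros theorem implies that a transcendental element has a zero. -/
theorem exists_zero_of_zeros (hz : H59.ZerosStmt K F) {f : F} (hf : Transcendental K f)
    [FiniteDimensional K⟮f⟯ F] : ∃ v : Place K F, 0 < v.ord f := by
  obtain ⟨-, hsum⟩ := hz f hf
  by_contra hne
  push Not at hne
  have hempty : {v : Place K F | 0 < v.ord f} = ∅ := by
    ext v
    simp only [Set.mem_ofPred_eq, Set.mem_empty_iff_false, iff_false, not_lt]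
    exact hne v
  rw [hempty, finsum_mem_empty] at hsum
  have hpos : 0 < Module.finrank K⟮f⟯ F := Module.finrank_pos
  omega

/-- The hypotheses of Riemann's theorem follow from the zeros theorem. -/
theorem hyp_of_zeros [IsAlgClosed K] (hz : H59.ZerosStmt K F) {x : F}
    (hx : Transcendental K x) [FiniteDimensional K⟮x⟯ F] : Hyp K F where
  principal f hf := by
    obtain ⟨hfin, hdeg⟩ := ff_degree_principal_of hz x hx f hf
    refine ⟨Finsupp.ofSupportFinite (fun v => v.ord f) hfin, fun v => rfl, hdeg _ fun v => rfl⟩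
  deg_one v := ff_deg_eq_one x hx v
  exists_pole f hf := by
    have htr : Transcendental K f := transcendental_of_not_mem_range hf
    have htr' : Transcendental K f⁻¹ := fun h => htr (IsAlgebraic.inv_iff.mp h)
    have := ff_finite_of_transcendental x hx f⁻¹ htr'
    obtain ⟨v, hv⟩ := exists_zero_of_zeros hz htr'
    refine ⟨v, ?_⟩
    rw [Place.ord_inv] at hv
    omega

/-- The pole divisor of `x` has degree `[F : K(x)]`. -/
theorem exists_pole_divisor [IsAlgClosed K] (hz : H59.ZerosStmt K F) {x : F}
    (hx : Transcendental K x) [FiniteDimensional K⟮x⟯ F] :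
    ∃ B : Divisor K F, 0 ≤ B ∧ x ∈ L B ∧
      Divisor.degree B = (Module.finrank K⟮x⟯ F : ℤ) := by
  classical
  have htr' : Transcendental K x⁻¹ := fun h => hx (IsAlgebraic.inv_iff.mp h)
  have := ff_finite_of_transcendental x hx x⁻¹ htr'
  obtain ⟨hPfin, hPsum⟩ := hz x⁻¹ htr'
  rw [H59.finrank_adjoin_inv] at hPsum
  have hsupp : (Function.support fun v : Place K F => max (v.ord x⁻¹) 0).Finite := by
    refine hPfin.subset fun v hv => ?_
    simp only [Function.mem_support, ne_eq] at hv
    simp only [Set.mem_ofPred_eq]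
    omega
  refine ⟨Finsupp.ofSupportFinite _ hsupp, ?_, ?_, ?_⟩
  · rw [Finsupp.le_def]
    intro v
    exact le_max_right _ _
  · rw [mem_riemannRochSpace_iff]
    intro v
    right
    have h1 : (Finsupp.ofSupportFinite _ hsupp : Divisor K F) v = max (v.ord x⁻¹) 0 := rfl
    rw [h1, Place.ord_inv]
    omega
  · rw [H59.degree_eq_sum_of_deg_eq_one (fun v => ff_deg_eq_one x hx v), ← hPsum,
      finsum_mem_eq_finite_toFinset_sum _ hPfin]
    have hs : (Finsupp.ofSupportFinite _ hsupp : Divisor K F).support = hPfin.toFinset := by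
      ext v
      simp only [Finsupp.mem_support_iff, Set.Finite.mem_toFinset, Set.mem_ofPred_eq]
      have h1 : (Finsupp.ofSupportFinite _ hsupp : Divisor K F) v = max (v.ord x⁻¹) 0 := rfl
      rw [h1]
      omega
    rw [hs]
    refine Finset.sum_congr rfl fun v hv => ?_
    have h1 : (Finsupp.ofSupportFinite _ hsupp : Divisor K F) v = max (v.ord x⁻¹) 0 := rfl
    rw [h1]
    simp only [Set.Finite.mem_toFinset, Set.mem_ofPred_eq] at hv
    omega

/-! ## The interface statements -/

/-- The zeros theorem for all function fields over algebraically closed fields (FF-B). -/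
def ZerosAll : Prop :=
  ∀ (K : Type uK) (F : Type uF) [Field K] [Field F] [Algebra K F] [IsAlgClosed K], IsFF K F →
    H59.ZerosStmt K F

theorem stmt_FFR_finite_of (hz : ZerosAll.{uK, uF}) : Stmt_FFR_finite.{uK, uF} := by
  intro K F _ _ _ _ hFF D
  obtain ⟨x, hx, hfin⟩ := hFF
  exact finite_L (hyp_of_zeros (hz K F ⟨x, hx, hfin⟩) hx) D

theorem stmt_FFR_le_of (hz : ZerosAll.{uK, uF}) : Stmt_FFR_le.{uK, uF} := by
  intro K F _ _ _ _ hFF D
  obtain ⟨x, hx, hfin⟩ := hFF
  have H := hyp_of_zeros (hz K F ⟨x, hx, hfin⟩) hx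
  exact ⟨fun h => L_eq_bot_of_degree_neg H h, fun h => finrank_L_le H h⟩

theorem stmt_FFR_riemann_of (hz : ZerosAll.{uK, uF}) : Stmt_FFR_riemann.{uK, uF} := by
  intro K F _ _ _ _ hFF
  obtain ⟨x, hx, hfin⟩ := hFF
  have hzKF := hz K F ⟨x, hx, hfin⟩
  have H := hyp_of_zeros hzKF hx
  obtain ⟨B, hB, hxB, hdeg⟩ := exists_pole_divisor hzKF hx
  exact riemann H hx hB hxB hdeg.le

end Fermat.Agent.S27.REDu.H42
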