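import Fermat.Agent.S27.REDu.H34_Lattice
import Fermat.Agent.S27.REDu.H51_Ord

/-!
# G-RED package CONS (helper79 + helper10): shared definitions

Setting: helper34's `RedSetting C F k Ft` (`S.V` valuation ring of `F`, `S.red : S.V → Ft`,
`S.O = S.V ∩ C`, `S.resO : S.O → k`).  A **chart** is `x ∈ S.V` with transcendental reduction
`xt = S.red x` such that `[Ft : k(xt)] = [F : C(x)]` and the chart is normal
(`ChartNormal` = conclusion of helper34's `Stmt_chartNormal.{uC, uF, uk, uFt}`).
`B` = integral closure of `C[x]` in `F`, `R = B ∩ V`, `Bt` = integral closure of `k[xt]` in `Ft`.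

* `InChart S x P` : the place `P` lies in the closed unit disc of the chart: `x(P) ∈ O`.
* `RedTo S x hx P Q` : `Q` is finite over `xt` and evaluation at `Q` is the reduction of the
  evaluation at `P` on `R` (`f(P) = a ∈ O ⇒ (red f)(Q) = a mod m`).
* `ChartIntegral` (C2, helper10) : for `f ∈ R`: `red f ∈ Bt`, and `f(P) ∈ O` for `P` in the chart.
* `Stmt_C4.{uC, uF, uk, uFt}` (helper79) : every `P` in the chart reduces to some `Q`.
* `Stmt_C5.{uC, uF, uk, uFt}` (helper79) : `ord_Q (red f) ≤ Σ_{P in chart, r P = Q} ord_P f` for Gauss units `f ∈ R`.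

Route (helper10's note "CONS via FF-B norm formula"): C3 (fibre-wise conservation from the norm
formula) + C5 ⇒ conservation on the chart; two charts `x`, `1/x` ⇒ `IsRed`.
This file contains no `sorry`.
-/

set_option autoImplicit false

universe uC uCf uK uR uF uL uE uk ukap uFp uFt uFtp uiot uEp uKp ux3b1

noncomputable section

open AlgebraicCurve IntermediateField

namespace Fermat.Agent.S27.REDu.H79

open Fermat.Agent.S27.REDu.H34 Fermat.Agent.S27.REDu.H51

variable {C : Type uC} {F : Type uF} {k : Type uk} {Ft : Type uFt} [Field C] [Field F] [Algebra C F] [Field k] [Field Ft] [Algebra k Ft]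

/-- **(N)** the chart `x` is normal: every element of `Ft` integral over `k[xt]` is the reduction
of an element of `V` integral over `C[x]`. -/
def ChartNormal (S : RedSetting C F k Ft) (x : F) (hx : x ∈ S.V) : Prop :=
  ∀ y : Ft, IsIntegral ↥(Algebra.adjoin k {S.red ⟨x, hx⟩}) y →
    ∃ f : ↥S.V, IsIntegral ↥(Algebra.adjoin C {x}) (f : F) ∧ S.red f = y

/-- The standing hypotheses on a chart. -/
structure GoodChart (S : RedSetting C F k Ft) (x : F) (hx : x ∈ S.V) : Prop where
  transc : Transcendental k (S.red ⟨x, hx⟩)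
  fin : FiniteDimensional C⟮x⟯ F
  sep : Algebra.IsSeparable C⟮x⟯ F
  deg : Module.finrank k⟮S.red ⟨x, hx⟩⟯ Ft = Module.finrank C⟮x⟯ F
  sept : Algebra.IsSeparable k⟮S.red ⟨x, hx⟩⟯ Ft
  normal : ChartNormal S x hx

/-- The place `P` lies in the closed unit disc of the chart `x`: `x(P) = a` with `a ∈ O`. -/
def InChart (S : RedSetting C F k Ft) (x : F) (P : Place C F) : Prop :=
  ∃ a : C, algebraMap C F a ∈ S.V ∧ OrdGe P 1 (x - algebraMap C F a)

/-- `Q` is a reduction of `P` on the chart `x` (evaluation form): `Q` is finite over `xt`, and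
for `f ∈ R = B ∩ V` with `f(P) = a ∈ O` the reduction `red f` has the value `a mod m` at `Q`. -/
def RedTo (S : RedSetting C F k Ft) (x : F) (hx : x ∈ S.V) (P : Place C F) (Q : Place k Ft) :
    Prop :=
  S.red ⟨x, hx⟩ ∈ Q.toValuationSubring ∧
  ∀ f : ↥S.V, IsIntegral ↥(Algebra.adjoin C {x}) (f : F) → ∀ a : ↥S.O,
    OrdGe P 1 ((f : F) - algebraMap C F (a : C)) →
    OrdGe Q 1 (S.red f - algebraMap k Ft (S.resO a))

/-- **(C2)** integrality on the chart (helper10): for `f ∈ R = B ∩ V` the reduction is integral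
over `k[xt]`, and `f` has a value in `O` at every place of the chart. -/
def ChartIntegral (S : RedSetting C F k Ft) (x : F) (hx : x ∈ S.V) : Prop :=
  ∀ f : ↥S.V, IsIntegral ↥(Algebra.adjoin C {x}) (f : F) →
    IsIntegral ↥(Algebra.adjoin k {S.red ⟨x, hx⟩}) (S.red f) ∧
    ∀ P : Place C F, InChart S x P →
      ∃ a : ↥S.O, OrdGe P 1 ((f : F) - algebraMap C F (a : C))

/-- **(C4)** every place of the chart has a reduction. -/
def Stmt_C4 : Prop :=
  ∀ (C : Type uC) (F : Type uF) (k : Type uk) (Ft : Type uFt) [Field C] [Field F] [Algebra C F] [Field k] [Field Ft] [Algebra k Ft]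
    [IsAlgClosed C] [IsAlgClosed k] (S : RedSetting C F k Ft) (x : F) (hx : x ∈ S.V),
    GoodChart S x hx → ChartIntegral S x hx →
    ∀ P : Place C F, InChart S x P → ∃ Q : Place k Ft, RedTo S x hx P Q

open Classical in
/-- **(C5)** the pointwise inequality: for a Gauss unit `f ∈ R` with divisor `D` and a place `Q`
of `Ft` finite over `xt`: `ord_Q (red f) ≤ Σ_{P in the chart, r P = Q} ord_P f`. -/
def Stmt_C5 : Prop :=
  ∀ (C : Type uC) (F : Type uF) (k : Type uk) (Ft : Type uFt) [Field C] [Field F] [Algebra C F] [Field k] [Field Ft] [Algebra k Ft]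
    [IsAlgClosed C] [IsAlgClosed k] (S : RedSetting C F k Ft) (x : F) (hx : x ∈ S.V),
    GoodChart S x hx → ChartIntegral S x hx →
    ∀ r : Place C F → Place k Ft, (∀ P, InChart S x P → RedTo S x hx P (r P)) →
    ∀ f : ↥S.V, IsUnit f → IsIntegral ↥(Algebra.adjoin C {x}) (f : F) →
    ∀ D : Divisor C F, (∀ P, D P = P.ord (f : F)) →
    ∀ Q : Place k Ft, S.red ⟨x, hx⟩ ∈ Q.toValuationSubring →
      Q.ord (S.red f) ≤ ∑ P ∈ D.support.filter (fun P => InChart S x P ∧ r P = Q), D P

end Fermat.Agent.S27.REDu.H79
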