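import Fermat.Agent.S27.REDu.H79_ConsDefs
import Fermat.Agent.S24.FF.Dict
import Fermat.Agent.S24.H72_FF1

/-!
# G-RED package CONS, dictionary (helper79): places containing a Dedekind domain

`B` a Dedekind domain with fraction field `F`, a `K`-algebra.
* `ordGe_ofH_iff` : `OrdGe (ofHeightOneSpectrum w) n f ↔ w.valuation F f ≤ exp (-n)`.
* `ordGe_one_algebraMap_iff` : `b ∈ w ↔ ord_w b ≥ 1`.
* `mem_range_of_forall_ordGe` : (b) an element of `F` regular at all `w` lies in `B`.
* `exists_eq_ofH` : (c) a place containing `B` is `ofHeightOneSpectrum w`.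
* `exists_ord_eq_one` : (d) uniformizers in `B`.
* `exists_mem_not_mem_ofH` : separation of two primes by an element of `B`.
-/

set_option autoImplicit false

universe uC uCf uK uR uF uL uE uk ukap uFp uFt uFtp uiot uEp uKp ux3b1

noncomputable section

open AlgebraicCurve IsDedekindDomain WithZero

namespace Fermat.Agent.S27.REDu.H79

open Fermat.Agent.S27.REDu.H51

section Dict

variable {K F : Type*} [Field K] [Field F] [Algebra K F]
variable {B : Type*} [CommRing B] [IsDedekindDomain B] [Algebra B F] [IsFractionRing B F]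
  [Algebra K B] [IsScalarTower K B F]

/-- The place of a height one prime (abbreviation). -/
abbrev ofH (K : Type*) {F : Type*} [Field K] [Field F] [Algebra K F]
    {B : Type*} [CommRing B] [IsDedekindDomain B] [Algebra B F] [IsFractionRing B F]
    [Algebra K B] [IsScalarTower K B F] (w : HeightOneSpectrum B) : Place K F :=
  Place.ofHeightOneSpectrum (K := K) (F := F) w

theorem ordGe_ofH_iff (w : HeightOneSpectrum B) (n : ℤ) (f : F) :
    OrdGe (ofH K w) n f ↔ w.valuation F f ≤ exp (-n) := by
  rcases eq_or_ne f 0 with rfl | hf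
  · simp [OrdGe]
  · have hv : w.valuation F f ≠ 0 := (Valuation.ne_zero_iff _).mpr hf
    unfold OrdGe
    rw [or_iff_right hf, Fermat.Agent.S24.ord_ofHeightOneSpectrum (K := K) w hf]
    conv_rhs => rw [← exp_log hv, exp_le_exp]
    constructor <;> intro h <;> omega

theorem ordGe_zero_algebraMap (w : HeightOneSpectrum B) (b : B) :
    OrdGe (ofH K w) 0 (algebraMap B F b) := by
  rw [ordGe_ofH_iff, neg_zero, exp_zero]
  exact w.valuation_le_one b

theorem ordGe_one_algebraMap_iff (w : HeightOneSpectrum B) (b : B) :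
    OrdGe (ofH K w) 1 (algebraMap B F b) ↔ b ∈ w.asIdeal := by
  rw [ordGe_ofH_iff, HeightOneSpectrum.valuation_of_algebraMap,
    ← HeightOneSpectrum.intValuation_lt_one_iff_mem]
  rcases eq_or_ne (w.intValuation b) 0 with h0 | h0
  · rw [h0]; simp
  · conv_lhs => rw [← exp_log h0, exp_le_exp]
    conv_rhs => rw [← exp_log h0, ← exp_zero, exp_lt_exp]
    constructor <;> intro h <;> omega

/-- (b) An element of `F` which is regular at all height one primes lies in `B`. -/
theorem mem_range_of_forall_ordGe (f : F)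
    (h : ∀ w : HeightOneSpectrum B, OrdGe (ofH K w) 0 f) : f ∈ (algebraMap B F).range := by
  apply HeightOneSpectrum.mem_integers_of_valuation_le_one F f
  intro w
  have := (ordGe_ofH_iff (K := K) w 0 f).1 (h w)
  simpa using this

/-- (c) A place containing `B` is the place of a height one prime. -/
theorem exists_eq_ofH (v : Place K F) (hB : ∀ b : B, algebraMap B F b ∈ v.toValuationSubring) :
    ∃ w : HeightOneSpectrum B, v = ofH K w := by
  obtain ⟨w, hw⟩ := Fermat.Agent.S24.exists_heightOneSpectrum_of_le v hB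
  exact ⟨w, Place.ext hw⟩

theorem ofH_injective : Function.Injective (ofH K (F := F) (B := B)) := by
  intro w w' h
  by_contra hne
  -- an element of `w` not in `w'`
  have hnle : ¬ w.asIdeal ≤ w'.asIdeal := by
    intro hle
    have hmax : w.asIdeal.IsMaximal := w.isMaximal
    have := hmax.eq_of_le w'.isPrime.ne_top hle
    exact hne (HeightOneSpectrum.ext this)
  obtain ⟨b, hb, hb'⟩ := Set.not_subset.1 hnle
  have h1 := (ordGe_one_algebraMap_iff (K := K) (F := F) w b).2 hb
  rw [h] at h1
  exact hb' ((ordGe_one_algebraMap_iff (K := K) (F := F) w' b).1 h1)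

/-- (d) A uniformizer in `B`. -/
theorem exists_ord_eq_one (w : HeightOneSpectrum B) :
    ∃ b : B, b ∈ w.asIdeal ∧ (ofH K w).ord (algebraMap B F b) = 1 := by
  obtain ⟨π, hπ⟩ := w.intValuation_exists_uniformizer
  have hπ0 : π ≠ 0 := by
    rintro rfl
    rw [map_zero] at hπ
    exact exp_ne_zero hπ.symm
  have hπF : algebraMap B F π ≠ 0 := by
    rwa [ne_eq, map_eq_zero_iff _ (IsFractionRing.injective B F)]
  refine ⟨π, ?_, ?_⟩
  · rw [← HeightOneSpectrum.intValuation_lt_one_iff_mem, hπ, ← exp_zero, exp_lt_exp]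
    norm_num
  · rw [Fermat.Agent.S24.ord_ofHeightOneSpectrum (K := K) w hπF,
      HeightOneSpectrum.valuation_of_algebraMap, hπ, log_exp]
    norm_num

/-- An element of `B` outside `w` has order zero at `w`. -/
theorem ord_eq_zero_of_not_mem (w : HeightOneSpectrum B) {b : B} (hb : b ∉ w.asIdeal) :
    (ofH K w).ord (algebraMap B F b) = 0 := by
  have hb0 : b ≠ 0 := fun h => hb (h ▸ w.asIdeal.zero_mem)
  have hbF : algebraMap B F b ≠ 0 := by
    rwa [ne_eq, map_eq_zero_iff _ (IsFractionRing.injective B F)]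
  have h0 := (ordGe_zero_algebraMap (K := K) (F := F) w b).le hbF
  have h1 : ¬ OrdGe (ofH K w) 1 (algebraMap B F b) := fun h =>
    hb ((ordGe_one_algebraMap_iff (K := K) (F := F) w b).1 h)
  have h2 : ¬ (1 ≤ (ofH K w).ord (algebraMap B F b)) := fun h => h1 (Or.inr h)
  omega

/-- Separation: for `w ≠ w'` there is `b ∈ w'` with `b ∉ w`. -/
theorem exists_mem_not_mem_of_ne {w w' : HeightOneSpectrum B} (h : w ≠ w') :
    ∃ b : B, b ∈ w'.asIdeal ∧ b ∉ w.asIdeal := by
  have hnle : ¬ w'.asIdeal ≤ w.asIdeal := by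
    intro hle
    have hmax : w'.asIdeal.IsMaximal := w'.isMaximal
    have := hmax.eq_of_le w.isPrime.ne_top hle
    exact h (HeightOneSpectrum.ext this).symm
  obtain ⟨b, hb, hb'⟩ := Set.not_subset.1 hnle
  exact ⟨b, hb, hb'⟩

end Dict

end Fermat.Agent.S27.REDu.H79
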